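import Mathlib.RingTheory.PowerSeries.NoZeroDivisors
import Mathlib.NumberTheory.NumberField.Basic
import Mathlib.FieldTheory.IntermediateField.Adjoin.Basic
import Fermat.Agent.IntegralStructure.AutComplex
import Fermat.Agent.Series.AlmostIntegral

/-!
# Complex power series with algebraic integer coefficients, and finite orbits
-/

set_option autoImplicit false

noncomputable section

open Polynomial

namespace Fermat.Agent.DeligneSerre

/-- The power series all of whose coefficients are algebraic integers. -/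
def zbarSeries : Subring (PowerSeries ℂ) where
  carrier := {x | ∀ i, IsIntegral ℤ (x.coeff i)}
  mul_mem' {x y} hx hy i := by
    rw [PowerSeries.coeff_mul]
    exact IsIntegral.sum _ fun p _ => (hx _).mul (hy _)
  one_mem' i := by
    rw [PowerSeries.coeff_one]
    split_ifs
    · exact isIntegral_one
    · exact isIntegral_zero
  add_mem' {x y} hx hy i := by rw [map_add]; exact (hx i).add (hy i)
  zero_mem' i := by rw [map_zero]; exact isIntegral_zero
  neg_mem' {x} hx i := by rw [map_neg]; exact (hx i).neg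

/-- An element whose powers have bounded denominators is integral. -/
theorem isIntegral_of_mul_pow {b x : ℂ} (hb : b ≠ 0) (hbi : IsIntegral ℤ b)
    (h : ∀ k : ℕ, IsIntegral ℤ (b * x ^ k)) : IsIntegral ℤ x := by
  have hbQ : IsIntegral ℚ b := hbi.tower_top
  have hxQ : IsIntegral ℚ x := by
    have h1 : IsIntegral ℚ (b * x) := by simpa using (h 1).tower_top
    have h2 : IsIntegral ℚ (b⁻¹ * (b * x)) := (IsIntegral.inv hbQ).mul h1
    rwa [inv_mul_cancel_left₀ hb] at h2
  let K : IntermediateField ℚ ℂ := IntermediateField.adjoin ℚ ({b, x} : Set ℂ)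
  have : FiniteDimensional ℚ K :=
    IntermediateField.finiteDimensional_adjoin fun y hy => by
      rcases hy with rfl | rfl
      · exact hbQ
      · exact hxQ
  have : NumberField K := ⟨⟩
  let bK : K := ⟨b, IntermediateField.subset_adjoin ℚ _ (Set.mem_insert _ _)⟩
  let xK : K := ⟨x, IntermediateField.subset_adjoin ℚ _ (Set.mem_insert_of_mem _ rfl)⟩
  have hint : ∀ k : ℕ, IsIntegral ℤ (bK * xK ^ k) := fun k =>
    (isIntegral_algHom_iff (IntermediateField.val K |>.restrictScalars ℤ)
      Subtype.val_injective).1 (by simpa [bK, xK] using h k)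
  let M : Submodule ℤ K :=
    Submodule.map (LinearMap.mulLeft ℤ bK⁻¹) (Subalgebra.toSubmodule (integralClosure ℤ K))
  have hMfg : M.FG := Submodule.FG.map _
    (Module.Finite.iff_fg.1 (inferInstanceAs (Module.Finite ℤ (NumberField.RingOfIntegers K))))
  have hle : Subalgebra.toSubmodule (Algebra.adjoin ℤ {xK}) ≤ M := by
    rw [Algebra.adjoin_eq_span, Submonoid.closure_singleton_eq, Submodule.span_le]
    rintro y ⟨k, rfl⟩
    refine ⟨bK * xK ^ Multiplicative.toAdd k, hint _, ?_⟩
    have hbK : bK ≠ 0 := fun h0 => hb (congrArg Subtype.val h0)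
    simp [hbK]
  have hfg : (Subalgebra.toSubmodule (Algebra.adjoin ℤ {xK})).FG := hMfg.of_le hle
  have := IsIntegral.of_mem_of_fg _ hfg xK (Algebra.self_mem_adjoin_singleton ℤ xK)
  exact this.map (IntermediateField.val K |>.restrictScalars ℤ)

/-- Almost integral series are integral. -/
theorem mem_zbarSeries_of_almost_integral {A h : PowerSeries ℂ}
    (hA0 : A ≠ 0) (hh : ∀ m : ℕ, A * h ^ m ∈ zbarSeries) : h ∈ zbarSeries := by
  intro i
  refine Series.powerSeries_coeff_mem_of_almost_integral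
    (R := (integralClosure ℤ ℂ).toSubring) (fun b x hb hbx => ?_) hA0 hh i
  exact isIntegral_of_mul_pow hb (by have h := hbx 0; rwa [pow_zero, mul_one] at h) hbx

/-- If `Xᵐ` is integral and `B X` is integral for some `B ≠ 0`, then `X` is integral. -/
theorem mem_zbarSeries_of_pow {x B : PowerSeries ℂ} {m : ℕ} (hm : m ≠ 0)
    (hB : B ∈ zbarSeries) (hB0 : B ≠ 0) (hBx : B * x ∈ zbarSeries) (hx : x ^ m ∈ zbarSeries) :
    x ∈ zbarSeries := by
  refine mem_zbarSeries_of_almost_integral (A := B ^ m) (pow_ne_zero _ hB0)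
    fun k => ?_
  have hr : k % m ≤ m := (Nat.mod_lt k (Nat.pos_of_ne_zero hm)).le
  rw [show B ^ m * x ^ k = B ^ (m - k % m) * (B * x) ^ (k % m) * (x ^ m) ^ (k / m) by
    rw [mul_pow, ← pow_mul, show B ^ m = B ^ (m - k % m) * B ^ (k % m) by
      rw [← pow_add, Nat.sub_add_cancel hr],
      show x ^ k = x ^ (k % m) * x ^ (m * (k / m)) by rw [← pow_add, Nat.mod_add_div]]
    ring]
  exact mul_mem (mul_mem (pow_mem hB _) (pow_mem hBx _)) (pow_mem hx _)

/-- A complex number with a finite orbit under `Aut ℂ` is a root of a monic rational polynomial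
whose roots lie in that orbit. -/
theorem exists_monic_of_finite_orbit {x : ℂ} (hx : {y : ℂ | ∃ σ : ℂ ≃+* ℂ, σ x = y}.Finite) :
    ∃ P : ℚ[X], P.map (algebraMap ℚ ℂ) = ∏ y ∈ hx.toFinset, (X - C y) := by
  have hperm : ∀ τ : ℂ ≃+* ℂ, hx.toFinset.image τ = hx.toFinset := by
    intro τ
    refine Finset.eq_of_subset_of_card_le (fun y hy => ?_)
      (by rw [Finset.card_image_of_injective _ τ.injective])
    obtain ⟨z, hz, rfl⟩ := Finset.mem_image.1 hy
    rw [Set.Finite.mem_toFinset] at hz ⊢
    obtain ⟨σ, rfl⟩ := hz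
    exact ⟨σ.trans τ, rfl⟩
  have hfix : ∀ (i : ℕ), ∃ r : ℚ, (∏ y ∈ hx.toFinset, (X - C y)).coeff i = (r : ℂ) := by
    intro i
    refine IntegralStructure.isRat_of_forall_ringEquiv_fixed fun τ => ?_
    conv_rhs => rw [← hperm τ, Finset.prod_image fun a _ b _ h => τ.injective h]
    rw [← RingEquiv.coe_toRingHom, ← coeff_map, Polynomial.map_prod]
    simp
  exact (mem_lifts _).1 ((lifts_iff_coeff_lifts _).2 fun i => by
    obtain ⟨r, hr⟩ := hfix i
    exact ⟨r, by rw [hr]; rfl⟩)

theorem isAlgebraic_of_finite_orbit {x : ℂ} (hx : {y : ℂ | ∃ σ : ℂ ≃+* ℂ, σ x = y}.Finite) :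
    IsAlgebraic ℚ x := by
  obtain ⟨P, hP⟩ := exists_monic_of_finite_orbit hx
  refine ⟨P, fun h => ?_, ?_⟩
  · rw [h, Polynomial.map_zero] at hP
    exact (monic_prod_of_monic _ _ fun y _ => monic_X_sub_C y).ne_zero hP.symm
  · rw [← Polynomial.eval_map_algebraMap, hP, eval_prod]
    exact Finset.prod_eq_zero (hx.mem_toFinset.2 ⟨RingEquiv.refl ℂ, rfl⟩) (by simp)

/-- An algebraic number becomes an algebraic integer after multiplication by a positive integer. -/
theorem exists_nat_mul_isIntegral {x : ℂ} (hx : IsAlgebraic ℚ x) :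
    ∃ D : ℕ, D ≠ 0 ∧ IsIntegral ℤ ((D : ℂ) * x) := by
  have hz : IsAlgebraic ℤ x := (IsFractionRing.isAlgebraic_iff ℤ ℚ ℂ).2 hx
  obtain ⟨y, hy, hint⟩ := hz.exists_integral_multiple
  refine ⟨y.natAbs, Int.natAbs_ne_zero.2 hy, ?_⟩
  rw [zsmul_eq_mul] at hint
  rcases Int.natAbs_eq y with h | h
  · rw [h] at hint; simpa using hint
  · rw [h] at hint; simpa using hint.neg

end Fermat.Agent.DeligneSerre
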