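import Mathlib.NumberTheory.ModularForms.Bounds
import Mathlib.NumberTheory.ModularForms.QExpansion
import Mathlib.NumberTheory.LSeries.PrimesInAP
import Mathlib.NumberTheory.DirichletCharacter.Basic
import Fermat.Prelude.Def_FLTPrelim_Modularity
import Fermat.Prelude.Sol.S_ModularFormClass_qCoeff_heckeU
import Fermat.Agent.DeligneSerre.HeckeCosets

/-!
# The Hecke recursion in weight one determines the nebentypus

A weight one cusp form on `Γ₁(N)` whose coefficients satisfy the Hecke recursion with character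
`ε` satisfies `f | γ = ε(d) f` on `Γ₀(N)`, and `ε` is odd if the first coefficient of `f` is `1`.
-/

set_option autoImplicit false

noncomputable section

open CongruenceSubgroup ModularForm UpperHalfPlane ModularFormClass Filter Complex
open Matrix.SpecialLinearGroup (mapGL)
open scoped MatrixGroups Topology Manifold

namespace Fermat.Agent.DeligneSerre

variable {N : ℕ} [NeZero N]

omit [NeZero N] in
/-- `1` is a strict period of `Γ₁(N)`. -/
theorem one_mem_strictPeriods_gamma1 :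
    (1 : ℝ) ∈ ((Gamma1 N : Subgroup SL(2, ℤ)) : Subgroup (GL (Fin 2) ℝ)).strictPeriods := by
  simp

omit [NeZero N] in
theorem periodic_gamma1 (f : CuspForm (Gamma1 N) 1) : Function.Periodic (⇑f ∘ ofComplex) 1 :=
  SlashInvariantFormClass.periodic_comp_ofComplex f one_mem_strictPeriods_gamma1

open ConjAct Pointwise in
/-- `y ‖f | g‖²` tends to zero at `i∞`. -/
theorem tendsto_im_mul_sq_norm_slash (f : CuspForm (Gamma1 N) 1) (g : SL(2, ℤ)) :
    Tendsto (fun τ : ℍ => τ.im * ‖(⇑f ∣[(1 : ℤ)] g) τ‖ ^ 2) atImInfty (𝓝 0) := by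
  have : ((ConjAct.toConjAct (g : GL (Fin 2) ℝ)⁻¹) •
      ((Gamma1 N : Subgroup SL(2, ℤ)) : Subgroup (GL (Fin 2) ℝ))).IsArithmetic := by
    simpa [(show Rat.castHom ℝ = algebraMap ℚ ℝ by rfl), map_inv,
      Matrix.SpecialLinearGroup.map_mapGL]
      using! Subgroup.IsArithmetic.conj
        ((Gamma1 N : Subgroup SL(2, ℤ)) : Subgroup (GL (Fin 2) ℝ)) (mapGL ℚ g)⁻¹
  have h := (CuspFormClass.zero_at_infty <| CuspForm.translate f g).petersson_isZeroAtImInfty_left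
    (1 : ℤ) _ (CuspForm.translate f g)
  rw [IsZeroAtImInfty, ZeroAtFilter, tendsto_zero_iff_norm_tendsto_zero] at h
  refine h.congr fun τ => ?_
  have e : ⇑(CuspForm.translate f (g : GL (Fin 2) ℝ)) = ⇑f ∣[(1 : ℤ)] (g : GL (Fin 2) ℝ) := rfl
  rw [e]
  simp [petersson, abs_of_pos τ.im_pos, SL_slash]
  ring

/-- The defect of the nebentypus at `p`. -/
def nebDefect (f : CuspForm (Gamma1 N) 1) (γp : SL(2, ℤ)) (c : ℂ) : ℍ → ℂ :=
  ⇑f ∣[(1 : ℤ)] γp - c • ⇑f

theorem tendsto_im_mul_sq_norm_nebDefect (f : CuspForm (Gamma1 N) 1) (γp : SL(2, ℤ)) (c : ℂ) :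
    Tendsto (fun τ : ℍ => τ.im * ‖nebDefect f γp c τ‖ ^ 2) atImInfty (𝓝 0) := by
  have h1 := tendsto_im_mul_sq_norm_slash f γp
  have h2 : Tendsto (fun τ : ℍ => τ.im * ‖f τ‖ ^ 2) atImInfty (𝓝 0) := by
    simpa only [SlashAction.slash_one] using tendsto_im_mul_sq_norm_slash f 1
  refine squeeze_zero (fun τ => mul_nonneg τ.im_pos.le (sq_nonneg _)) (fun τ => ?_)
    (show Tendsto (fun τ : ℍ => 2 * (τ.im * ‖(⇑f ∣[(1 : ℤ)] γp) τ‖ ^ 2)
      + 2 * ‖c‖ ^ 2 * (τ.im * ‖f τ‖ ^ 2)) atImInfty (𝓝 0) by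
        simpa using (h1.const_mul 2).add (h2.const_mul (2 * ‖c‖ ^ 2)))
  set a := ‖(⇑f ∣[(1 : ℤ)] γp) τ‖
  set b := ‖c‖ * ‖f τ‖
  have hle : ‖nebDefect f γp c τ‖ ≤ a + b := by
    rw [show b = ‖c * f τ‖ from (norm_mul _ _).symm]
    exact norm_sub_le _ _
  have hsq : ‖nebDefect f γp c τ‖ ^ 2 ≤ 2 * a ^ 2 + 2 * b ^ 2 := by
    nlinarith [norm_nonneg (nebDefect f γp c τ), sq_nonneg (a - b)]
  calc τ.im * ‖nebDefect f γp c τ‖ ^ 2 ≤ τ.im * (2 * a ^ 2 + 2 * b ^ 2) :=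
        mul_le_mul_of_nonneg_left hsq τ.im_pos.le
    _ = _ := by ring

variable {ε : DirichletCharacter ℂ N} {f : CuspForm (Gamma1 N) 1} {p : ℕ}

omit [NeZero N] in
/-- The recursion, as an identity of functions. -/
theorem heckeU_add_eq
    (hp : p ≠ 0) (hT : ∀ n : ℕ,
      qCoeff f (p * n) + ε (p : ZMod N) * (if p ∣ n then qCoeff f (n / p) else 0) =
        qCoeff f p * qCoeff f n) :
    heckeU 1 p ⇑f + ε (p : ZMod N) • (⇑f ∣[(1 : ℤ)] heckeDiagMatrix p) = qCoeff f p • ⇑f := by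
  have hper := periodic_gamma1 f
  have hhol : MDifferentiable 𝓘(ℂ) 𝓘(ℂ) ⇑f := CuspFormClass.holo f
  have : Fact (IsCusp OnePoint.infty ((Gamma1 N : Subgroup SL(2, ℤ)) : Subgroup (GL (Fin 2) ℝ))) :=
    ⟨Subgroup.isCusp_of_mem_strictPeriods one_pos one_mem_strictPeriods_gamma1⟩
  have hbdd : IsBoundedAtImInfty ⇑f := ModularFormClass.bdd_at_infty f
  funext τ
  have h1 := P2MW.S_ModularFormClass_qCoeff_heckeU.M4cP1W2.hasSum_heckeU hp hper hhol hbdd 1 τ
  have h2 := (P2MW.S_ModularFormClass_qCoeff_heckeU.M4cP1W2.hasSum_diag hp hper hhol hbdd 1 τ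
    ).mul_left (ε (p : ZMod N))
  have h3 : HasSum (fun n => qCoeff f p * (qCoeff f n • Function.Periodic.qParam 1 τ ^ n))
      (qCoeff f p * f τ) :=
    (hasSum_qExpansion one_pos hper hhol hbdd τ).mul_left _
  rw [Pi.add_apply, Pi.smul_apply, Pi.smul_apply, slash_heckeDiagMatrix_apply 1 hp, sub_self,
    zpow_zero, one_mul, smul_eq_mul, smul_eq_mul]
  rw [sub_self, zpow_zero, one_mul] at h2
  refine (h1.add h2).unique (h3.congr_fun fun n => ?_)
  have e := hT n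
  rw [mul_comm p n] at e
  simp only [coeffHeckeU_apply, smul_eq_mul, one_mul]
  rw [← mul_assoc, ← e, add_mul]
  split_ifs <;> ring

omit [NeZero N] in
/-- If `h` and `h | diag(p,1)` are invariant under `Γ₁(N)`, then every coprime row `(c, d)` with
`c ≡ 0` and `d ≡ p^m (mod N)` is, up to the factor `p^{-m}`, the bottom row of a matrix of
determinant one fixing `h`. -/
theorem exists_fixed_row {h : ℍ → ℂ} (hp : p.Prime) (hpN : ¬ p ∣ N)
    (h1 : ∀ γ ∈ Gamma1 N, h ∣[(1 : ℤ)] γ = h)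
    (h2 : ∀ γ ∈ Gamma1 N,
      (h ∣[(1 : ℤ)] heckeDiagMatrix p) ∣[(1 : ℤ)] γ = h ∣[(1 : ℤ)] heckeDiagMatrix p)
    (m : ℕ) : ∀ c d : ℤ, IsCoprime c d → (c : ZMod N) = 0 → (d : ZMod N) = (p : ZMod N) ^ m →
    ∃ g : GL (Fin 2) ℝ, (g.det : ℝ) = 1 ∧ h ∣[(1 : ℤ)] g = h ∧
      g 1 0 = c / (p : ℝ) ^ m ∧ g 1 1 = d / (p : ℝ) ^ m := by
  induction m with
  | zero =>
    intro c d hcd hc hd
    obtain ⟨u, v, huv⟩ := hcd
    obtain ⟨γ, -, -, h10, h11⟩ := exists_sl2 v (-u) c d (by linear_combination huv)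
    refine ⟨mapGL ℝ γ, by simp, h1 γ (mem_gamma1_iff.2 ⟨by rw [h10, hc],
      by rw [h11, hd, pow_zero]⟩), ?_, ?_⟩ <;>
      rw [coe_mapGL_apply, pow_zero, div_one] <;> simp [h10, h11]
  | succ m ih =>
    intro c d hcd hc hd
    have hcopN : p.Coprime N := hp.coprime_iff_not_dvd.2 hpN
    -- Some `g` fixing `h` has bottom row `(N, d0) / p^m`, where `d0 ≡ p^m (N)` and `d0 ≡ 1 (p)`.
    -- Times `diag(p,1) γ diag(p,1)⁻¹` it still fixes `h`, with row that of `A` over `p^(m+1)`,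
    -- and `A⁻¹ B ∈ Γ₁(N)` moves this to the given row `(c, d)`.
    obtain ⟨d0, hd0p, hd0N⟩ := Nat.chineseRemainder hcopN 1 (p ^ m)
    have hd0 : ((d0 : ℤ) : ZMod N) = (p : ZMod N) ^ m := by
      rw [Int.cast_natCast, (ZMod.natCast_eq_natCast_iff _ _ _).2 hd0N, Nat.cast_pow]
    have hN0 : IsCoprime (N : ℤ) (d0 : ℤ) := by
      rw [Int.isCoprime_iff_nat_coprime, Int.natAbs_natCast, Int.natAbs_natCast, Nat.coprime_comm,
        ← ZMod.isUnit_iff_coprime, ← Int.cast_natCast, hd0]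
      exact ((ZMod.isUnit_iff_coprime p N).2 hcopN).pow m
    obtain ⟨g, hg1, hg2, hg10, hg11⟩ := ih N d0 hN0 (by simp) hd0
    -- the conjugate of `[[1,0],[N,1]]` moves `(N, d0)` to `p⁻¹ (N (p + d0), p d0)`
    obtain ⟨γ, γ00, γ01, γ10, γ11⟩ := exists_sl2 1 0 N 1 (by ring)
    have hγ : γ ∈ Gamma1 N := mem_gamma1_iff.2 ⟨by rw [γ10]; simp, by rw [γ11]; simp⟩
    have hpd0 : IsCoprime (p : ℤ) (d0 : ℤ) := by
      rw [Int.isCoprime_iff_nat_coprime, Int.natAbs_natCast, Int.natAbs_natCast,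
        hp.coprime_iff_not_dvd]
      intro hdvd
      have := (Nat.ModEq.dvd_iff hd0p dvd_rfl).1 hdvd
      exact hp.one_lt.ne' (Nat.dvd_one.1 this)
    have hcop : IsCoprime ((N : ℤ) * (p + d0)) (p * d0) := by
      have hpN' : IsCoprime (N : ℤ) (p : ℤ) := by
        rw [Int.isCoprime_iff_nat_coprime]; simpa using hcopN.symm
      exact IsCoprime.mul_left (hpN'.mul_right hN0)
        (IsCoprime.mul_right (by simpa [add_comm] using hpd0.symm.add_mul_left_left 1)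
          (by simpa using hpd0.add_mul_left_left 1))
    obtain ⟨u, v, huv⟩ := hcop
    obtain ⟨A, -, -, A10, A11⟩ := exists_sl2 v (-u) ((N : ℤ) * (p + d0)) (p * d0)
      (by linear_combination huv)
    obtain ⟨u', v', huv'⟩ := hcd
    obtain ⟨B, -, -, B10, B11⟩ := exists_sl2 v' (-u') c d (by linear_combination huv')
    have hA0 : A ∈ Gamma0 N := Gamma0_mem.2 (by rw [A10]; simp)
    have hB0 : B ∈ Gamma0 N := Gamma0_mem.2 (by rw [B10]; exact hc)
    have hγ2 : A⁻¹ * B ∈ Gamma1 N := by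
      refine mem_gamma1_iff.2 ⟨Gamma0_mem.1 (mul_mem (inv_mem hA0) hB0), ?_⟩
      have hAB : Gamma0Map N ⟨A, hA0⟩ = Gamma0Map N ⟨B, hB0⟩ := by
        show ((A 1 1 : ℤ) : ZMod N) = ((B 1 1 : ℤ) : ZMod N)
        rw [A11, B11, hd, Int.cast_mul, hd0, pow_succ']
        simp
      show Gamma0Map N (⟨A, hA0⟩⁻¹ * ⟨B, hB0⟩) = 1
      rw [map_mul, ← hAB, ← map_mul, inv_mul_cancel, map_one]
    set α := heckeDiagMatrix p with hα
    refine ⟨g * (α * mapGL ℝ γ * α⁻¹) * mapGL ℝ (A⁻¹ * B), ?_, ?_, ?_⟩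
    · simp [hg1]
    · rw [SlashAction.slash_mul, SlashAction.slash_mul, hg2, SlashAction.slash_mul,
        SlashAction.slash_mul]
      show (((h ∣[(1 : ℤ)] α) ∣[(1 : ℤ)] γ) ∣[(1 : ℤ)] α⁻¹) ∣[(1 : ℤ)] (A⁻¹ * B) = h
      rw [h2 γ hγ, ← SlashAction.slash_mul, mul_inv_cancel, SlashAction.slash_one, h1 _ hγ2]
    · have hpR : (p : ℝ) ≠ 0 := Nat.cast_ne_zero.2 hp.ne_zero
      have hM : ∀ j, (g * (α * mapGL ℝ γ * α⁻¹)) 1 j = (A 1 j : ℝ) / (p : ℝ) ^ (m + 1) := by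
        have hinv : ((α⁻¹ : GL (Fin 2) ℝ) : Matrix (Fin 2) (Fin 2) ℝ) = !![(p : ℝ)⁻¹, 0; 0, 1] := by
          rw [Matrix.GeneralLinearGroup.coe_inv]
          refine Matrix.inv_eq_right_inv ?_
          rw [hα, val_heckeDiagMatrix hp.ne_zero]
          ext a b
          fin_cases a <;> fin_cases b <;> simp [Matrix.mul_apply, Fin.sum_univ_two, hpR]
        intro j
        rw [Units.val_mul, Units.val_mul, Units.val_mul, hinv]
        simp only [hα, val_heckeDiagMatrix hp.ne_zero, Matrix.mul_apply,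
          Fin.sum_univ_two, coe_mapGL_apply]
        fin_cases j <;>
          simp [ γ00, γ01, γ10, γ11, A10, A11, hg10, hg11] <;>
          field_simp <;> ring
      have hrow : ∀ j, (g * (α * mapGL ℝ γ * α⁻¹) * mapGL ℝ (A⁻¹ * B)) 1 j
          = (B 1 j : ℝ) / (p : ℝ) ^ (m + 1) := by
        intro j
        have key : ∀ j, (A 1 0 : ℝ) * ((A⁻¹ * B) 0 j) + (A 1 1 : ℝ) * ((A⁻¹ * B) 1 j) = B 1 j := by
          intro j
          have hC := mul_inv_cancel_left A B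
          generalize A⁻¹ * B = C at hC ⊢
          subst hC
          simp [Matrix.mul_apply, Fin.sum_univ_two]
        rw [Units.val_mul, Matrix.mul_apply, Fin.sum_univ_two, hM, hM, coe_mapGL_apply,
          coe_mapGL_apply, ← key j]
        ring
      exact ⟨by rw [hrow, B10], by rw [hrow, B11]⟩

/-- Such a function vanishes once `y ‖h‖²` tends to zero at `i∞`. -/
theorem eq_zero_of_invariant {h : ℍ → ℂ} (hp : p.Prime) (hpN : ¬ p ∣ N)
    (h1 : ∀ γ ∈ Gamma1 N, h ∣[(1 : ℤ)] γ = h)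
    (h2 : ∀ γ ∈ Gamma1 N,
      (h ∣[(1 : ℤ)] heckeDiagMatrix p) ∣[(1 : ℤ)] γ = h ∣[(1 : ℤ)] heckeDiagMatrix p)
    (hlim : Tendsto (fun τ : ℍ => τ.im * ‖h τ‖ ^ 2) atImInfty (𝓝 0)) : h = 0 := by
  funext z
  have hinv : ∀ g : GL (Fin 2) ℝ, (g.det : ℝ) = 1 → h ∣[(1 : ℤ)] g = h →
      (g • z).im * ‖h (g • z)‖ ^ 2 = z.im * ‖h z‖ ^ 2 := by
    intro g hdet hg
    have h' := congrArg norm (petersson_slash (1 : ℤ) h h g z)
    rw [hg] at h'
    simp [petersson, hdet, σ, abs_of_pos z.im_pos, abs_of_pos (g • z).im_pos] at h'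
    linarith
  have hcN : p.Coprime N := hp.coprime_iff_not_dvd.2 hpN
  -- There are `g m` fixing `h` with bottom row of size `O(p^{-m})`. They move `z` to `i∞` while
  -- `y |h|²` keeps its value at `z`, so that value is `0`.
  have key : ∀ m : ℕ, ∃ g : GL (Fin 2) ℝ, (g.det : ℝ) = 1 ∧ h ∣[(1 : ℤ)] g = h ∧
      g 1 0 = ((N : ℤ) : ℝ) / (p : ℝ) ^ m ∧
        g 1 1 = (((p ^ m % N : ℕ) : ℤ) : ℝ) / (p : ℝ) ^ m := by
    intro m
    exact exists_fixed_row hp hpN h1 h2 m N (p ^ m % N : ℕ) (by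
      rw [Int.isCoprime_iff_nat_coprime, Int.natAbs_natCast, Int.natAbs_natCast, Nat.coprime_comm,
        ← ZMod.isUnit_iff_coprime, ZMod.natCast_mod, Nat.cast_pow]
      exact ((ZMod.isUnit_iff_coprime p N).2 hcN).pow m) (by simp)
      (by rw [Int.cast_natCast, ZMod.natCast_mod, Nat.cast_pow])
  choose g hg1 hg2 hg3 hg4 using key
  have hC : 0 < ((N : ℝ) * (‖(z : ℂ)‖ + 1)) ^ 2 := by
    have : (0 : ℝ) < N := Nat.cast_pos.2 (NeZero.pos N)
    positivity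
  have hlarge : Tendsto (fun m => g m • z) atTop atImInfty := by
    rw [atImInfty, tendsto_comap_iff]
    refine tendsto_atTop_mono (fun m => ?_) ((tendsto_pow_atTop_atTop_of_one_lt
      (show (1 : ℝ) < (p : ℝ) ^ 2 by
        exact one_lt_pow₀ (by exact_mod_cast hp.one_lt) two_ne_zero)).const_mul_atTop
      (div_pos z.im_pos hC))
    show z.im / _ * ((p : ℝ) ^ 2) ^ m ≤ (g m • z).im
    rw [im_smul_eq_div_normSq, hg1 m, abs_one, one_mul]
    have hden : denom (g m) z = ((N : ℂ) * z + (p ^ m % N : ℕ)) / (p : ℂ) ^ m := by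
      have h4 := hg4 m
      generalize p ^ m % N = r at h4 ⊢
      simp [denom, hg3 m, h4]
      ring
    have hne : denom (g m) z ≠ 0 := denom_ne_zero _ _
    have hle : normSq (denom (g m) z) ≤ ((N : ℝ) * (‖(z : ℂ)‖ + 1)) ^ 2 / ((p : ℝ) ^ 2) ^ m := by
      rw [hden, normSq_eq_norm_sq, norm_div, norm_pow, Complex.norm_natCast, div_pow, ← pow_mul,
        ← pow_mul, mul_comm m 2]
      gcongr
      refine (norm_add_le _ _).trans ?_
      rw [norm_mul, Complex.norm_natCast, Complex.norm_natCast]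
      have : ((p ^ m % N : ℕ) : ℝ) ≤ N := by
        exact_mod_cast (Nat.mod_lt _ (NeZero.pos N)).le
      linarith
    calc z.im / _ * ((p : ℝ) ^ 2) ^ m
        = z.im / (((N : ℝ) * (‖(z : ℂ)‖ + 1)) ^ 2 / ((p : ℝ) ^ 2) ^ m) := by field_simp
      _ ≤ z.im / normSq (denom (g m) z) :=
        div_le_div_of_nonneg_left z.im_pos.le (normSq_pos.2 hne) hle
  have hconst : Tendsto (fun _ : ℕ => z.im * ‖h z‖ ^ 2) atTop (𝓝 0) :=
    (hlim.comp hlarge).congr fun m => hinv _ (hg1 m) (hg2 m)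
  have := tendsto_nhds_unique tendsto_const_nhds hconst
  simpa [z.im_pos.ne'] using this

/-- `f | γ = ε(p) f` when the lower right entry of `γ ∈ Γ₀(N)` is `p` modulo `N`. -/
theorem slash_eq_of_lowerRight_prime (hp : p.Prime) (hpN : ¬ p ∣ N) (hT : ∀ n : ℕ,
      qCoeff f (p * n) + ε (p : ZMod N) * (if p ∣ n then qCoeff f (n / p) else 0) =
        qCoeff f p * qCoeff f n)
    {γ : SL(2, ℤ)} (hγ : γ ∈ Gamma0 N) (hγp : (γ 1 1 : ZMod N) = p) :
    ⇑f ∣[(1 : ℤ)] γ = ε (p : ZMod N) • ⇑f := by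
  have : NeZero p := ⟨hp.ne_zero⟩
  have hf : ∀ g ∈ Gamma1 N, ⇑f ∣[(1 : ℤ)] g = ⇑f := fun g hg =>
    SlashInvariantFormClass.slash_action_eq f _ ⟨g, hg, rfl⟩
  have hh1 : ∀ g ∈ Gamma1 N,
      nebDefect f γ (ε (p : ZMod N)) ∣[(1 : ℤ)] g = nebDefect f γ (ε (p : ZMod N)) := by
    intro g hg
    rw [nebDefect, sub_eq_add_neg, SlashAction.add_slash, SlashAction.neg_slash, SL_smul_slash,
      hf g hg, ← SlashAction.slash_mul,
      show γ * g = (γ * g * γ⁻¹) * γ by group, SlashAction.slash_mul, hf _ (gamma1_conj hγ hg)]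
  have hh2 : ∀ g ∈ Gamma1 N,
      (nebDefect f γ (ε (p : ZMod N)) ∣[(1 : ℤ)] heckeDiagMatrix p) ∣[(1 : ℤ)] g
        = nebDefect f γ (ε (p : ZMod N)) ∣[(1 : ℤ)] heckeDiagMatrix p := by
    intro g hg
    have e : nebDefect f γ (ε (p : ZMod N)) ∣[(1 : ℤ)] heckeDiagMatrix p
        = (heckeU 1 p ⇑f + (⇑f ∣[(1 : ℤ)] γ) ∣[(1 : ℤ)] heckeDiagMatrix p)
          - qCoeff f p • ⇑f := by
      rw [← heckeU_add_eq hp.ne_zero hT, nebDefect, sub_eq_add_neg, SlashAction.add_slash,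
        SlashAction.neg_slash, ModularForm.smul_slash, σ_heckeDiagMatrix]
      simp only [ContinuousAlgEquiv.refl_apply]
      abel
    rw [e, sub_eq_add_neg, SlashAction.add_slash, SlashAction.neg_slash, SL_smul_slash, hf g hg,
      heckeSum_slash hp hpN hγ hγp 1 hf hg]
  exact sub_eq_zero.1 (eq_zero_of_invariant hp hpN hh1 hh2
    (tendsto_im_mul_sq_norm_nebDefect f γ _))

/-- The nebentypus of an eigenform of weight one on `Γ₁(N)`. -/
theorem nebentypus (hT : ∀ p : ℕ, p.Prime → ¬ p ∣ N → ∀ n : ℕ,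
      qCoeff f (p * n) + ε (p : ZMod N) * (if p ∣ n then qCoeff f (n / p) else 0) =
        qCoeff f p * qCoeff f n)
    (γ : SL(2, ℤ)) (hγ : γ ∈ Gamma0 N) :
    ⇑f ∣[(1 : ℤ)] γ = ε (γ 1 1 : ZMod N) • ⇑f := by
  have hu : IsUnit ((γ 1 1 : ℤ) : ZMod N) := by
    refine IsUnit.of_mul_eq_one ((γ 0 0 : ℤ) : ZMod N) ?_
    have hd := congrArg (Int.cast : ℤ → ZMod N) γ.det_coe
    rw [Matrix.det_fin_two] at hd
    push_cast at hd
    rw [Gamma0_mem.1 hγ, mul_zero, sub_zero, mul_comm] at hd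
    exact hd
  obtain ⟨p, hpN, hp, hpc⟩ := Nat.forall_exists_prime_gt_and_eq_mod hu N
  have hnd : ¬ p ∣ N := fun h => (Nat.le_of_dvd (NeZero.pos N) h).not_gt hpN
  rw [← hpc]
  exact slash_eq_of_lowerRight_prime hp hnd (hT p hp hnd) hγ hpc.symm

/-- A nonzero form forces an odd character. -/
theorem nebentypus_odd (hf : qCoeff f 1 = 1) (hT : ∀ p : ℕ, p.Prime → ¬ p ∣ N → ∀ n : ℕ,
      qCoeff f (p * n) + ε (p : ZMod N) * (if p ∣ n then qCoeff f (n / p) else 0) =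
        qCoeff f p * qCoeff f n) : ε (-1) = -1 := by
  have h := nebentypus hT (-1) (Gamma0_mem.2 (by simp))
  have hne : ∃ τ : ℍ, f τ ≠ 0 := by
    by_contra h0
    push Not at h0
    have : ⇑f = 0 := funext h0
    rw [this] at hf
    simp [qCoeff, UpperHalfPlane.qExpansion_zero] at hf
  obtain ⟨τ, hτ⟩ := hne
  have h' := congrFun h τ
  rw [SL_slash_apply] at h'
  simp [denom] at h'
  exact mul_right_cancel₀ hτ (by simpa using h'.symm)

end Fermat.Agent.DeligneSerre
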