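import Fermat.Agent.DeligneSerre.Criterion

/-!
# From residual representations to the complex representation

`exists_galoisRep`: a depleted weight one eigenform with residual representations for almost all
primes `ℓ` has an irreducible complex Galois representation of finite image, unramified outside the
level, with trace `a_p` and determinant `ε p` at the Frobenius elements. `DeligneSerre/Reduction`
applies it to the depletion of an eigenform. The proof:

1. In characteristic `≠ 2` the residual images have exponent dividing one `m` (`exists_pow_eq_one`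
   in `DeligneSerre/Criterion`). Hence `a_p` is congruent modulo infinitely many `ℓ` to one of the
   finitely many sums of two `m`-th roots of unity, so is one of them, and `|a_p| ≤ 2`.
2. For all but finitely many `ℓ` no two of the possible values are congruent, and then the residual
   representations have a common kernel (`exists_aligned`).
3. Their common image `G` is finite and by Chebotarev each element is a Frobenius. As `G` has
   representations with the expected traces and determinants modulo infinitely many primes, it has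
   one over `ℂ` (`exists_rep_of_residual` in `DeligneSerre/Residue`).
4. Its trace and determinant at a Frobenius over `p` are `a_p` and `ε p`, being congruent to them
   modulo infinitely many primes, and it is unramified outside the level as its kernel is the
   common one.
5. It is irreducible: the mean square of the trace is at most `1` by Rankin's bound and Chebotarev,
   whereas it is at least `2` for a reducible representation (`isIrreducible_of_trace_eq`).

## References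

* P. Deligne, J.-P. Serre, *Formes modulaires de poids 1*, Ann. Sci. ENS (1974).

The source obtains the residual representations from `ℓ`-adic ones of higher weight and a lifting
lemma. Here they come from an eigenclass modulo `ℓ` in the periods of weight two and level `N ℓ`
(`DeligneSerre/Residual`); the passage to finite image follows the source.
-/

set_option autoImplicit false

noncomputable section

namespace Fermat.Agent.DeligneSerre

open CongruenceSubgroup ModularFormClass Filter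
open Fermat.Agent.Arith Fermat.Agent.Arith.Density Fermat.Agent.Arith.Chebotarev

variable {N : ℕ} [NeZero N]

/-! ## Aligning the residual representations: steps 1 and 2 -/

/-- Residual representations of an eigenform have the same kernel for infinitely many primes `ℓ`,
and then `|a_p| ≤ 2` for `p` prime to the level. -/
theorem exists_aligned {ε : DirichletCharacter ℂ N} {g : CuspForm (Gamma1 N) 1}
    (hg : IsDepleted ε (qCoeff g)) (hres : HasResidualReps ε (qCoeff g)) :
    ∃ (L : Set ℕ) (R : ∀ ℓ ∈ L, ResRep ε (qCoeff g) ℓ), L.Infinite ∧ (∀ ℓ ∈ L, ℓ.Prime) ∧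
      (∀ (ℓ : ℕ) (hℓ : ℓ ∈ L) (ℓ' : ℕ) (hℓ' : ℓ' ∈ L) (σ : GQ),
        (R ℓ hℓ).ρ σ = 1 → (R ℓ' hℓ').ρ σ = 1) ∧
      ∀ p : ℕ, p.Prime → ¬ p ∣ N → ‖qCoeff g p‖ ≤ 2 := by
  classical
  obtain ⟨m, hm0, hm⟩ := exists_pow_eq_one hg
  obtain ⟨S, hS⟩ := hres
  -- `L₀` consists of the primes with a residual representation that exceed `m` and `2`; there the
  -- image has exponent dividing `m`.
  let L₀ : Set ℕ := {ℓ | ℓ.Prime ∧ ℓ ∉ S ∧ m < ℓ ∧ 2 < ℓ}
  have hL₀ : L₀.Infinite := by
    refine (Nat.infinite_setOfPred_prime.sdiff ((S ∪ Finset.range (m + 3)).finite_toSet)).mono ?_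
    rintro ℓ ⟨hp, hn⟩
    simp only [Finset.coe_union, Set.mem_union, Finset.mem_coe, Finset.mem_range, not_or] at hn
    exact ⟨hp, hn.1, by omega, by omega⟩
  let R : ∀ ℓ ∈ L₀, ResRep ε (qCoeff g) ℓ := fun ℓ hℓ => (hS ℓ hℓ.1 hℓ.2.1).some
  have hpow : ∀ ℓ (hℓ : ℓ ∈ L₀) σ, (R ℓ hℓ).ρ σ ^ m = 1 := fun ℓ hℓ =>
    hm ℓ _ (by
      simpa using natCast_ne_zero_of_map_eq_zero (m := 2) hℓ.1 (R ℓ hℓ).map_eq_zero
        two_ne_zero hℓ.2.2.2)
  let av : ℕ → ZBar := fun p => ⟨qCoeff g p, isIntegral_coeff hg p⟩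
  let ev : ZMod N → ZBar := fun x => ⟨ε x, isIntegral_character ε x⟩
  -- Two distinct algebraic integers are congruent at finitely many of these primes only.
  have hsep : ∀ x y : ZBar, x ≠ y →
      {ℓ | ∃ hℓ : ℓ ∈ L₀, (R ℓ hℓ).φ x = (R ℓ hℓ).φ y}.Finite := by
    intro x y hxy
    by_contra hinf
    exact hxy (eq_of_map_eq_infinite hinf fun ℓ ⟨hℓ, he⟩ =>
      ⟨hℓ.1, _, (R ℓ hℓ).field, (R ℓ hℓ).φ, (R ℓ hℓ).map_eq_zero, he⟩)
  -- Step 1: `a_p` is a sum of two `m`-th roots of unity. For almost all `ℓ` it is congruent to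
  -- such a sum, the trace of a Frobenius at `p`, and there are finitely many candidates.
  have hav : ∀ p : ℕ, p.Prime → ¬ p ∣ N → av p ∈ rootSums m := by
    intro p hp hpN
    by_contra hno
    refine (hL₀.sdiff (Set.finite_singleton p)) (((finite_rootSums hm0).biUnion fun x hx =>
      hsep (av p) x (fun he => hno (he ▸ hx))).subset ?_)
    rintro ℓ ⟨hℓ, hne⟩
    obtain ⟨A, hA⟩ := exists_liesOverPrime hp
    obtain ⟨τ, hτ⟩ := exists_isFrobeniusAt hA hp
    obtain ⟨x, hx, hxe⟩ := exists_trace_eq_of_pow_eq_one (R ℓ hℓ).φ hm0 (hpow ℓ hℓ τ)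
    refine Set.mem_biUnion hx ⟨hℓ, ?_⟩
    rw [← hxe, ((R ℓ hℓ).frobenius p hp hpN (fun he => hne he.symm) A hA τ hτ (av p)
      (ev p) rfl rfl).1]
  -- Step 2: `Bad` consists of the primes at which two different values among the possible `a_p`,
  -- the `ε x`, `1` and `2` become congruent.
  let Vals : Set ZBar := rootSums m ∪ Set.range ev ∪ {1, 2}
  have hVals : Vals.Finite :=
    ((finite_rootSums hm0).union (Set.finite_range ev)).union (Set.toFinite _)
  let Bad : Set ℕ := ⋃ z ∈ {z ∈ Vals ×ˢ Vals | z.1 ≠ z.2},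
    {ℓ | ∃ hℓ : ℓ ∈ L₀, (R ℓ hℓ).φ z.1 = (R ℓ hℓ).φ z.2}
  have hBad : Bad.Finite :=
    ((hVals.prod hVals).subset (Set.sep_subset _ _)).biUnion fun z hz => hsep _ _ hz.2
  refine ⟨L₀ \ Bad, fun ℓ hℓ => R ℓ hℓ.1, hL₀.sdiff hBad, fun ℓ hℓ => hℓ.1.1, ?_, ?_⟩
  · intro ℓ hℓ ℓ' hℓ' σ hσ
    -- `σ` acts in both representations as a Frobenius `τ` at some `p` prime to `N ℓ ℓ'`.
    obtain ⟨F, _, hF⟩ := (R ℓ hℓ.1).finite_level
    obtain ⟨F', _, hF'⟩ := (R ℓ' hℓ'.1).finite_level
    obtain ⟨p, hp, hpS, A, hA, τ, hτ, heq⟩ :=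
      exists_frobenius_eq ((R ℓ hℓ.1).ρ.prod (R ℓ' hℓ'.1).ρ) (F ⊔ F')
        (fun τ hτ => Prod.ext (hF τ fun x hx => hτ x (le_sup_left (b := F') hx))
          (hF' τ fun x hx => hτ x (le_sup_right (a := F) hx))) σ
        (insert ℓ (insert ℓ' N.primeFactors))
    simp only [Finset.mem_insert, not_or, Nat.mem_primeFactors] at hpS
    have hpN : ¬ p ∣ N := fun hd => hpS.2.2 ⟨hp, hd, NeZero.ne N⟩
    obtain ⟨h1, h2⟩ := Prod.ext_iff.1 heq
    obtain ⟨ht, hd⟩ := (R ℓ hℓ.1).frobenius p hp hpN hpS.1 A hA τ hτ (av p) (ev p) rfl rfl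
    obtain ⟨ht', hd'⟩ := (R ℓ' hℓ'.1).frobenius p hp hpN hpS.2.1 A hA τ hτ (av p) (ev p) rfl rfl
    simp only [MonoidHom.prod_apply] at h1 h2
    rw [h1, hσ] at ht hd
    rw [Matrix.trace_one, Fintype.card_fin] at ht
    rw [Matrix.det_one] at hd
    -- Modulo `ℓ` we get `a_p = 2` and `ε p = 1`, so both are exact as `ℓ` is not bad. Hence modulo
    -- `ℓ'` the matrix of `σ` has trace `2`, determinant `1` and order prime to `ℓ'`, so it is `1`.
    have hinj : ∀ x ∈ Vals, ∀ y ∈ Vals, (R ℓ hℓ.1).φ x = (R ℓ hℓ.1).φ y → x = y :=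
      fun x hx y hy he => by_contra fun hne =>
        hℓ.2 (Set.mem_biUnion (x := (x, y)) ⟨⟨hx, hy⟩, hne⟩ ⟨hℓ.1, he⟩)
    have ha : av p = 2 := hinj _ (Or.inl (Or.inl (hav p hp hpN))) _ (Or.inr (Or.inr rfl))
      (by rw [← ht, map_ofNat]; norm_num)
    have he : ev p = 1 := hinj _ (Or.inl (Or.inr ⟨_, rfl⟩)) _ (Or.inr (Or.inl rfl))
      (by rw [← hd, map_one])
    rw [h2] at ht' hd'
    refine eq_one_of_unipotent (natCast_ne_zero_of_map_eq_zero hℓ'.1.1 (R ℓ' hℓ'.1).map_eq_zero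
      hm0 hℓ'.1.2.2.1) (hpow ℓ' hℓ'.1 σ) ?_ ?_
    · rw [ht', ha, map_ofNat]
    · rw [hd', he, map_one]
  · -- `a_p` is a sum of two roots of unity, so `|a_p| ≤ 2`.
    intro p hp hpN
    obtain ⟨z, w, hz, hw, he⟩ := hav p hp hpN
    have hn : ∀ u : ZBar, u ^ m = 1 → ‖(u : ℂ)‖ = 1 := fun u hu =>
      Complex.norm_eq_one_of_pow_eq_one (by simpa using congrArg (fun x : ZBar => (x : ℂ)) hu) hm0
    have he' : qCoeff g p = (z : ℂ) + w := congrArg (fun x : ZBar => (x : ℂ)) he
    rw [he']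
    calc ‖(z : ℂ) + w‖ ≤ ‖(z : ℂ)‖ + ‖(w : ℂ)‖ := norm_add_le _ _
      _ = 2 := by rw [hn z hz, hn w hw]; norm_num

/-! ## Irreducibility: step 5 -/

/-- A representation with the traces of a weight one eigenform with bounded coefficients is
irreducible. -/
private theorem isIrreducible_of_trace_eq {ε : DirichletCharacter ℂ N} {g : CuspForm (Gamma1 N) 1}
    (hg : IsDepleted ε (qCoeff g)) (hbound : ∀ p : ℕ, p.Prime → ¬ p ∣ N → ‖qCoeff g p‖ ≤ 2)
    {F₀ : IntermediateField ℚ QBar} [FiniteDimensional ℚ F₀] [IsGalois ℚ F₀]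
    [Fintype Gal(F₀/ℚ)] {G : Type} [Group G] [Fintype G] (π : Gal(F₀/ℚ) →* G)
    (hπ : Function.Surjective π) (σ : G →* GL (Fin 2) ℂ)
    (hσt : ∀ p : ℕ, p.Prime → ¬ p ∣ N →
      ((σ (π (frobL F₀ p)) : GL (Fin 2) ℂ) : Matrix (Fin 2) (Fin 2) ℂ).trace = qCoeff g p) :
    (Deformation.matrixRepresentation σ).IsIrreducible := by
  classical
  -- Otherwise the mean square of the trace is at least `2`.
  by_contra hirr
  obtain ⟨χ₁, χ₂, hχ⟩ := exists_characters_of_not_irreducible σ hirr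
  have hlow := two_mul_card_le_sum_sq χ₁ χ₂
  simp_rw [← hχ] at hlow
  -- Rankin's bound and Chebotarev bound it by `1`.
  obtain ⟨K, hK⟩ := exists_sum_primes_le_of_bounded g hg.hecke hg.one hbound
  let T : G → ℝ := fun y => ‖((σ y : GL (Fin 2) ℂ) : Matrix (Fin 2) (Fin 2) ℂ).trace‖ ^ 2
  have havg := sum_le_of_chebotarev F₀ (F := fun x => T (π x))
    (C := (∑ p ∈ N.primeFactors, T (π (frobL F₀ p))) + K) (κ := 1) (fun x => sq_nonneg _)
    (fun x y => by
      have := trace_map_conj ((Units.coeHom _).comp (σ.comp π)) x y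
      simp only [T]
      exact congrArg (fun z : ℂ => ‖z‖ ^ 2) this)
    fun P' hP' s hs hs2 => by
      rw [← Finset.sum_filter_add_sum_filter_not P' (fun p => p ∈ N.primeFactors), add_sub_assoc]
      refine add_le_add ?_ ?_
      · refine (Finset.sum_le_sum fun p hp => ?_).trans (Finset.sum_le_sum_of_subset_of_nonneg
          (fun p hp => (Finset.mem_filter.1 hp).2) fun p _ _ => sq_nonneg _)
        exact mul_le_of_le_one_right (sq_nonneg _) (Real.rpow_le_one_of_one_le_of_nonpos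
          (by exact_mod_cast (hP' p (Finset.mem_filter.1 hp).1).one_le) (by linarith))
      · rw [one_mul]
        refine le_trans (Finset.sum_le_sum fun p hp => le_of_eq ?_) (hK _ (fun p hp => ?_) s hs hs2)
        · obtain ⟨hp1, hp2⟩ := Finset.mem_filter.1 hp
          have hpp := hP' p hp1
          have hpN : ¬ p ∣ N := fun hd => hp2 (Nat.mem_primeFactors.2 ⟨hpp, hd, NeZero.ne N⟩)
          show T (π (frobL F₀ p)) * _ = _
          simp only [T]
          rw [hσt p hpp hpN]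
        · obtain ⟨hp1, hp2⟩ := Finset.mem_filter.1 hp
          exact ⟨hP' p hp1,
            fun hd => hp2 (Nat.mem_primeFactors.2 ⟨hP' p hp1, hd, NeZero.ne N⟩)⟩
  -- Averages over `Gal(F₀/ℚ)` and over its quotient `G` agree.
  rw [sum_comp_surjective π hπ, one_mul] at havg
  have hcard : Fintype.card Gal(F₀/ℚ) = Nat.card π.ker * Fintype.card G := by
    rw [← Nat.card_eq_fintype_card, ← Nat.card_eq_fintype_card,
      ← Nat.card_congr (QuotientGroup.quotientKerEquivOfSurjective π hπ).toEquiv,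
      ← Subgroup.index_eq_card, Subgroup.card_mul_index]
  rw [hcard, Nat.cast_mul] at havg
  have hpos : (0 : ℝ) < Nat.card π.ker := by exact_mod_cast Nat.card_pos
  have hGpos : (0 : ℝ) < Fintype.card G := by exact_mod_cast Fintype.card_pos
  have := le_of_mul_le_mul_left havg hpos
  linarith

/-! ## The representation: steps 3 to 5 -/

/-- A depleted weight one eigenform with residual representations has an irreducible complex
Galois representation of finite image. -/
theorem exists_galoisRep {ε : DirichletCharacter ℂ N} {g : CuspForm (Gamma1 N) 1}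
    (hg : IsDepleted ε (qCoeff g)) (hres : HasResidualReps ε (qCoeff g)) :
    ∃ ρ : GQ →* GL (Fin 2) ℂ, GaloisFactorsThroughFiniteLevel ρ ∧
      (Deformation.matrixRepresentation ρ).IsIrreducible ∧
      ∀ p : ℕ, p.Prime → ¬ p ∣ N → ∀ A : ValuationSubring QBar, A.LiesOverPrime p →
        (∀ σ ∈ A.inertiaSubgroupIn ℚ, ρ σ = 1) ∧
        ∀ σ : GQ, A.IsFrobeniusAt σ p →
          ((ρ σ : GL (Fin 2) ℂ) : Matrix (Fin 2) (Fin 2) ℂ).trace = qCoeff g p ∧
          ((ρ σ : GL (Fin 2) ℂ) : Matrix (Fin 2) (Fin 2) ℂ).det = ε (p : ZMod N) := by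
  classical
  obtain ⟨L, R, hLinf, hLp, hker, hbound⟩ := exists_aligned hg hres
  obtain ⟨ℓ₀, hℓ₀⟩ := hLinf.nonempty
  let R₀ := R ℓ₀ hℓ₀
  obtain ⟨F₀, _, _, ρ₀, hρ₀⟩ := exists_galois_level R₀.finite_level
  -- Step 3: `G` is the image of one residual representation, `q : GQ → G` the projection. By
  -- `hker` every other one factors through `q`.
  let u₀ := ρ₀.toHomUnits
  let G := u₀.range
  have : Fintype Gal(F₀/ℚ) := Fintype.ofFinite _
  have : Fintype G := Fintype.ofFinite _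
  let q : GQ →* G := u₀.rangeRestrict.comp (AlgEquiv.restrictNormalHom F₀)
  have hq : Function.Surjective q :=
    u₀.rangeRestrict_surjective.comp (AlgEquiv.restrictNormalHom_surjective (F := ℚ) QBar)
  have hq_iff : ∀ σ, q σ = 1 ↔ R₀.ρ σ = 1 := fun σ => by
    rw [← hρ₀ σ, Subtype.ext_iff, Units.ext_iff]
    rfl
  have hsame : ∀ (ℓ : ℕ) (hℓ : ℓ ∈ L) (σ τ : GQ), q σ = q τ →
      (R ℓ hℓ).ρ σ = (R ℓ hℓ).ρ τ := by
    intro ℓ hℓ σ τ he
    have h1 : (R ℓ hℓ).ρ (τ⁻¹ * σ) = 1 := hker ℓ₀ hℓ₀ ℓ hℓ _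
      ((hq_iff _).1 (by rw [map_mul, map_inv, he, inv_mul_cancel]))
    rw [← mul_inv_cancel_left τ σ, map_mul, h1, mul_one]
  obtain ⟨F₁, _, hF₁⟩ : GaloisFactorsThroughFiniteLevel q := by
    obtain ⟨F, hF, h⟩ := R₀.finite_level
    exact ⟨F, hF, fun σ hσ => (hq_iff σ).2 (h σ hσ)⟩
  -- Every `y` in `G` is the image of a Frobenius `τ y` at a prime `P y` prime to `N`.
  have hfrob : ∀ y : G, ∃ p : ℕ, p.Prime ∧ p ∉ N.primeFactors ∧ ∃ A : ValuationSubring QBar,
      A.LiesOverPrime p ∧ ∃ τ : GQ, A.IsFrobeniusAt τ p ∧ q τ = y := by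
    intro y
    obtain ⟨σ, rfl⟩ := hq y
    exact exists_frobenius_eq q F₁ hF₁ σ _
  choose P hP hPN A hA τ hτ hqτ using hfrob
  have hPN' : ∀ y, ¬ P y ∣ N := fun y hd =>
    hPN y (Nat.mem_primeFactors.2 ⟨hP y, hd, NeZero.ne N⟩)
  -- `t` and `d` are the expected traces and determinants on `G`. For `ℓ` outside the image of `P`
  -- the residual representation at `ℓ` realises their reductions, so a complex one realises them.
  let t : G → ZBar := fun y => ⟨qCoeff g (P y), isIntegral_coeff hg _⟩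
  let d : G → ZBar := fun y => ⟨ε (P y : ZMod N), isIntegral_character ε _⟩
  set L' := L \ ↑(Finset.univ.image P) with hL'
  have hres' : ∀ ℓ ∈ L', ℓ.Prime ∧ ∃ (k : Type) (_ : Field k) (φ : ZBar →+* k)
      (σ : G →* Matrix (Fin 2) (Fin 2) k), φ ℓ = 0 ∧
        (∀ y, (σ y).trace = φ (t y) ∧ (σ y).det = φ (d y)) := by
    rintro ℓ ⟨hℓ, hℓP⟩
    refine ⟨hLp ℓ hℓ, _, (R ℓ hℓ).field, (R ℓ hℓ).φ,
      { toFun := fun y => (R ℓ hℓ).ρ (τ y)
        map_one' := (hsame ℓ hℓ _ 1 (by rw [hqτ, map_one])).trans (map_one _)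
        map_mul' := fun y z => (hsame ℓ hℓ _ (τ y * τ z)
          (by rw [map_mul, hqτ, hqτ, hqτ])).trans (map_mul _ _ _) },
      (R ℓ hℓ).map_eq_zero, fun y => ?_⟩
    exact (R ℓ hℓ).frobenius (P y) (hP y) (hPN' y)
      (fun he => hℓP (Finset.mem_coe.2 (Finset.mem_image.2 ⟨y, Finset.mem_univ _, he⟩)))
      (A y) (hA y) (τ y) (hτ y) (t y) (d y) rfl rfl
  obtain ⟨σ, hσ⟩ := exists_rep_of_residual t d (hLinf.sdiff (Finset.finite_toSet _)) hres'
  -- Step 4: at any Frobenius over `p` they are `a_p` and `ε p`, being congruent to these modulo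
  -- infinitely many primes.
  have hvals : ∀ p : ℕ, p.Prime → ¬ p ∣ N → ∀ B : ValuationSubring QBar, B.LiesOverPrime p →
      ∀ x : GQ, B.IsFrobeniusAt x p →
      (t (q x) : ℂ) = qCoeff g p ∧ (d (q x) : ℂ) = ε (p : ZMod N) := by
    intro p hp hpN B hB x hx
    have hinf : (L' \ {p}).Infinite :=
      (hLinf.sdiff (Finset.finite_toSet _)).sdiff (Set.finite_singleton p)
    let ap : ZBar := ⟨qCoeff g p, isIntegral_coeff hg p⟩
    let ep : ZBar := ⟨ε (p : ZMod N), isIntegral_character ε _⟩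
    have hcong : ∀ ℓ ∈ L' \ {p}, ∃ hℓ : ℓ ∈ L, (R ℓ hℓ).φ (t (q x)) = (R ℓ hℓ).φ ap ∧
        (R ℓ hℓ).φ (d (q x)) = (R ℓ hℓ).φ ep := by
      rintro ℓ ⟨⟨hℓ, hℓP⟩, hne⟩
      obtain ⟨ht, hd⟩ :=
        (R ℓ hℓ).frobenius p hp hpN (fun h => hne h.symm) B hB x hx ap ep rfl rfl
      obtain ⟨ht', hd'⟩ := (R ℓ hℓ).frobenius (P (q x)) (hP _) (hPN' _)
        (fun he => hℓP (Finset.mem_coe.2 (Finset.mem_image.2 ⟨_, Finset.mem_univ _, he⟩)))
        (A _) (hA _) (τ _) (hτ _) (t (q x)) (d (q x)) rfl rfl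
      rw [← hsame ℓ hℓ x (τ (q x)) (hqτ (q x)).symm] at ht' hd'
      exact ⟨hℓ, ht'.symm.trans ht, hd'.symm.trans hd⟩
    constructor
    · refine congrArg Subtype.val (eq_of_map_eq_infinite (y := ap) hinf fun ℓ h => ?_)
      obtain ⟨hℓ, he, -⟩ := hcong ℓ h
      exact ⟨hLp ℓ hℓ, _, (R ℓ hℓ).field, (R ℓ hℓ).φ, (R ℓ hℓ).map_eq_zero, he⟩
    · refine congrArg Subtype.val (eq_of_map_eq_infinite (y := ep) hinf fun ℓ h => ?_)
      obtain ⟨hℓ, -, he⟩ := hcong ℓ h
      exact ⟨hLp ℓ hℓ, _, (R ℓ hℓ).field, (R ℓ hℓ).φ, (R ℓ hℓ).map_eq_zero, he⟩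
  -- The representation is `σ ∘ q`: of finite level, irreducible, unramified, of the right values.
  refine ⟨σ.comp q, ⟨F₁, inferInstance, fun x hx => by
    rw [MonoidHom.comp_apply, hF₁ x hx, map_one]⟩, isIrreducible_comp hq σ ?_,
    fun p hp hpN B hB => ⟨fun x hx => ?_, fun x hx => ?_⟩⟩
  · -- Step 5
    exact isIrreducible_of_trace_eq hg hbound u₀.rangeRestrict u₀.rangeRestrict_surjective σ
      fun p hpp hpN => (hσ _).1.trans (hvals p hpp hpN _ (exists_liesOverPrime hpp).choose_spec _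
        (frobAt_spec hpp)).1
  · have hq1 : q x = 1 := by
      rw [hq_iff]
      rcases eq_or_ne p ℓ₀ with rfl | hne
      · obtain ⟨ℓ, hℓ, hℓne⟩ := (hLinf.sdiff (Set.finite_singleton p)).nonempty
        exact hker ℓ hℓ p hℓ₀ x
          ((R ℓ hℓ).inertia p hp hpN (fun h => hℓne h.symm) B hB x hx)
      · exact R₀.inertia p hp hpN hne B hB x hx
    rw [MonoidHom.comp_apply, hq1, map_one]
  · obtain ⟨h1, h2⟩ := hσ (q x)
    obtain ⟨h3, h4⟩ := hvals p hp hpN B hB x hx
    exact ⟨h1.trans h3, h2.trans h4⟩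

end Fermat.Agent.DeligneSerre
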