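import Fermat.Agent.DeligneSerre.EisensteinOne
import Fermat.Agent.IntegralStructure.Stability
import Fermat.Agent.ModFun.Basic

/-!
# Galois conjugates of weight one forms

For a weight one cusp form `f` on `Γ₁(N)` with an odd nebentypus `ε` and every ring endomorphism
`σ` of `ℂ`, the series `σ f` is again such a form: multiply by the Eisenstein series of `ε⁻¹` to
reach weight two on `Γ₀(N)`, conjugate there, and divide, using that a power of `f` lives on
`Γ₀(N)` as well.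
-/

set_option autoImplicit false

noncomputable section

open Complex CongruenceSubgroup Filter
open UpperHalfPlane hiding I
open Fermat.Agent.IntegralStructure (qFun qHom qHom_apply qHom_injective exists_conj_cuspForm
  exists_holomorphic_quotient mem_qFun_of_modularFormClass)
open Matrix.SpecialLinearGroup (mapGL)
open scoped MatrixGroups ModularForm Manifold Topology

namespace Fermat.Agent.DeligneSerre

variable {N : ℕ} [NeZero N]

/-- `f | γ = ε(d) f` on `Γ₀(N)`. -/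
def HasNeb (k : ℤ) (ε : DirichletCharacter ℂ N) (f : ℍ → ℂ) : Prop :=
  ∀ γ ∈ Gamma0 N, f ∣[k] γ = ε (γ 1 1 : ZMod N) • f

/-- For an element of `Γ₀(N)` the lower right entry is a unit modulo `N`. -/
theorem isUnit_lowerRight {γ : SL(2, ℤ)} (hγ : γ ∈ Gamma0 N) :
    IsUnit ((γ 1 1 : ℤ) : ZMod N) := by
  refine IsUnit.of_mul_eq_one ((γ 0 0 : ℤ) : ZMod N) ?_
  have hd := congrArg (Int.cast : ℤ → ZMod N) γ.det_coe
  rw [Matrix.det_fin_two] at hd
  push_cast at hd
  rw [Gamma0_mem.1 hγ, mul_zero, sub_zero, mul_comm] at hd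
  exact hd

omit [NeZero N] in
theorem HasNeb.mul {k l : ℤ} {ε ε' : DirichletCharacter ℂ N} {f g : ℍ → ℂ} (hf : HasNeb k ε f)
    (hg : HasNeb l ε' g) : HasNeb (k + l) (ε * ε') (f * g) := fun γ hγ => by
  rw [ModularForm.mul_slash_SL2, hf γ hγ, hg γ hγ, smul_mul_smul_comm, MulChar.mul_apply]

theorem HasNeb.pow {k : ℤ} {ε : DirichletCharacter ℂ N} {f : ℍ → ℂ} (hf : HasNeb k ε f) :
    ∀ m : ℕ, HasNeb (m * k) (ε ^ m) (f ^ m)
  | 0 => fun γ hγ => by
    rw [pow_zero, pow_zero, Nat.cast_zero, zero_mul, MulChar.one_apply (isUnit_lowerRight hγ),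
      one_smul]
    exact ModularForm.is_invariant_one γ
  | m + 1 => by
    rw [pow_succ, pow_succ, Nat.cast_succ, add_mul, one_mul]
    exact (hf.pow m).mul hf

omit [NeZero N] in
theorem HasNeb.slash_gamma1 {k : ℤ} {ε : DirichletCharacter ℂ N} {f : ℍ → ℂ} (hf : HasNeb k ε f)
    {γ : SL(2, ℤ)} (hγ : γ ∈ Gamma1 N) : f ∣[k] γ = f := by
  rw [hf γ (Gamma1_in_Gamma0 N hγ), ((Gamma1_mem N γ).1 hγ).2.1, map_one, one_smul]

/-- Constructor for cusp forms on a finite index subgroup of `SL(2, ℤ)`. -/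
def mkCuspForm (Γ : Subgroup SL(2, ℤ)) [Γ.FiniteIndex] (k : ℤ) (g : ℍ → ℂ)
    (hinv : ∀ γ ∈ Γ, g ∣[k] γ = g) (hhol : MDiff g)
    (hzero : ∀ γ : SL(2, ℤ), IsZeroAtImInfty (g ∣[k] γ)) : CuspForm Γ k where
  toFun := g
  slash_action_eq' := by
    rintro _ ⟨γ, hγ, rfl⟩
    exact hinv γ hγ
  holo' := hhol
  zero_at_cusps' := by
    intro c hc
    rw [OnePoint.isZeroAt_iff_forall_SL2Z
      (Subgroup.IsArithmetic.isCusp_iff_isCusp_SL2Z _ |>.1 hc)]
    exact fun γ _ => hzero γ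

@[simp] theorem coe_mkCuspForm (Γ : Subgroup SL(2, ℤ)) [Γ.FiniteIndex] (k : ℤ) (g : ℍ → ℂ)
    (hinv : ∀ γ ∈ Γ, g ∣[k] γ = g) (hhol : MDiff g)
    (hzero : ∀ γ : SL(2, ℤ), IsZeroAtImInfty (g ∣[k] γ)) :
    ⇑(mkCuspForm Γ k g hinv hhol hzero) = g := rfl

theorem isZeroAtImInfty_pow {g : ℍ → ℂ} (hg : IsZeroAtImInfty g) {m : ℕ} (hm : m ≠ 0) :
    IsZeroAtImInfty (g ^ m) := by
  have h : Tendsto (fun τ => g τ ^ m) atImInfty (𝓝 0) := by
    simpa [hm] using (hg : Tendsto g atImInfty (𝓝 0)).pow m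
  exact h

theorem isZeroAtImInfty_of_pow {g : ℍ → ℂ} {m : ℕ}
    (hg : IsZeroAtImInfty (g ^ m)) : IsZeroAtImInfty g := by
  have h : Tendsto (fun τ => ‖g τ‖ ^ m) atImInfty (𝓝 0) := by
    simpa using (show Tendsto (fun τ => g τ ^ m) atImInfty (𝓝 0) from hg).norm
  refine tendsto_zero_iff_norm_tendsto_zero.2 (Metric.tendsto_nhds.2 fun e he => ?_)
  filter_upwards [Metric.tendsto_nhds.1 h (e ^ m) (pow_pos he m)] with τ hτ
  rw [Real.dist_eq, sub_zero, abs_of_nonneg (pow_nonneg (norm_nonneg _) m)] at hτ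
  rw [Real.dist_eq, sub_zero, abs_norm]
  exact lt_of_pow_lt_pow_left₀ m he.le hτ

theorem slash_pow (k : ℤ) (g : ℍ → ℂ) (γ : SL(2, ℤ)) :
    ∀ m : ℕ, (g ^ m) ∣[(m : ℤ) * k] γ = (g ∣[k] γ) ^ m
  | 0 => by
    rw [pow_zero, pow_zero, Nat.cast_zero, zero_mul]
    exact ModularForm.is_invariant_one γ
  | m + 1 => by
    rw [pow_succ, pow_succ, Nat.cast_succ, add_mul, one_mul, ModularForm.mul_slash_SL2,
      slash_pow k g γ m]

theorem mul_right_cancel_of_ne_zero {E F G : ℍ → ℂ} (hE : MDiff E) (hE0 : E ≠ 0) (hF : MDiff F)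
    (hG : MDiff G) (h : F * E = G * E) : F = G := by
  refine sub_eq_zero.1 (((mul_eq_zero_iff (hF.sub hG) hE).1 ?_).resolve_right hE0)
  rw [sub_mul, h, sub_self]

theorem eisOne_mem_qFun {ψ : DirichletCharacter ℂ N} (hψ : ψ.Odd) : eisOne ψ ∈ qFun :=
  mem_qFun_of_modularFormClass (Γ := ((Gamma1 N : Subgroup SL(2, ℤ)) : Subgroup (GL (Fin 2) ℝ)))
    (k := 1) (by simp) (eisOneForm hψ)

/-- The `q`-expansion of the weight one Eisenstein series has coefficients `eisCoeff`. -/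
theorem qExpansion_eisOne {ψ : DirichletCharacter ℂ N} (hψ : ψ.Odd) (n : ℕ) :
    (qExpansion 1 (eisOne ψ)).coeff n = eisCoeff ψ n := by
  have hh := eisOne_mem_qFun hψ
  exact (qExpansion_coeff_unique
    (ContinuousMap.mk (eisOne ψ) (mdifferentiable_eisOne hψ).continuous)
    one_pos (analyticAt_cuspFunction_zero one_pos hh.1 hh.2.1 hh.2.2)
    (fun τ => by simpa [smul_eq_mul] using hasSum_eisOne hψ τ) n).symm

theorem eisOne_ne_zero {ψ : DirichletCharacter ℂ N} (hψ : ψ.Odd) : eisOne ψ ≠ 0 := by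
  intro h
  have h1 := qExpansion_eisOne hψ 1
  rw [h, eisCoeff_one] at h1
  simp [UpperHalfPlane.qExpansion_zero] at h1

theorem eisCoeff_ringHomComp (σ : ℂ →+* ℂ) (ψ : DirichletCharacter ℂ N) (n : ℕ) :
    eisCoeff (ψ.ringHomComp σ) n = σ (eisCoeff ψ n) := by
  rcases eq_or_ne n 0 with rfl | h <;>
    simp [eisCoeff, MulChar.ringHomComp, *, map_sum, map_natCast, -ZMod.natCast_val, map_ofNat]

omit [NeZero N] in
theorem ringHomComp_odd (σ : ℂ →+* ℂ) {ψ : DirichletCharacter ℂ N} (hψ : ψ.Odd) :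
    DirichletCharacter.Odd (ψ.ringHomComp σ) := by
  show σ (ψ (-1)) = -1
  rw [hψ, map_neg, map_one]

omit [NeZero N] in
theorem inv_odd {ε : DirichletCharacter ℂ N} (hε : ε.Odd) : DirichletCharacter.Odd ε⁻¹ := by
  show ε⁻¹ (-1) = -1
  rw [MulChar.inv_apply, show Ring.inverse (-1 : ZMod N) = -1 by
    rw [show (-1 : ZMod N) = ((-1 : (ZMod N)ˣ) : ZMod N) by simp, Ring.inverse_unit,
      inv_neg, inv_one]]
  exact hε

/-- The weight two form `f · E₁(ε⁻¹)` on `Γ₀(N)`. -/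
def timesEis {ε : DirichletCharacter ℂ N} (hε : ε.Odd) (f : CuspForm (Gamma1 N) 1)
    (hf : HasNeb 1 ε f) : CuspForm (Gamma0 N) 2 :=
  mkCuspForm (Gamma0 N) 2 (⇑f * eisOne ε⁻¹)
    (fun γ hγ => by
      have h := (hf.mul (fun γ hγ => eisOne_slash_gamma0 (inv_odd hε) hγ)) γ hγ
      rw [show (1 : ℤ) + 1 = 2 from rfl, mul_inv_cancel, MulChar.one_apply (isUnit_lowerRight hγ),
        one_smul] at h
      exact h)
    ((CuspFormClass.holo f).mul (mdifferentiable_eisOne (inv_odd hε)))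
    (fun γ => by
      rw [show (2 : ℤ) = 1 + 1 from rfl, ModularForm.mul_slash_SL2]
      exact (CuspFormClass.zero_at_infty_slash f γ).mul_boundedAtFilter
        (isBoundedAtImInfty_slash_eisOne (inv_odd hε) γ))

/-- The power `f ^ ord(ε)` on `Γ₀(N)`. -/
def powForm {ε : DirichletCharacter ℂ N} (f : CuspForm (Gamma1 N) 1) (hf : HasNeb 1 ε f) :
    CuspForm (Gamma0 N) (orderOf ε : ℤ) :=
  mkCuspForm (Gamma0 N) _ (⇑f ^ orderOf ε)
    (fun γ hγ => by
      have h := hf.pow (orderOf ε) γ hγ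
      rw [mul_one, pow_orderOf_eq_one, MulChar.one_apply (isUnit_lowerRight hγ), one_smul] at h
      exact h)
    (ModFun.mdifferentiable_pow (CuspFormClass.holo f) _)
    (fun γ => by
      rw [← mul_one ((orderOf ε : ℤ)), slash_pow]
      exact isZeroAtImInfty_pow (CuspFormClass.zero_at_infty_slash f γ) (orderOf_pos ε).ne')

/-- Galois conjugates exist. -/
theorem exists_conj_weightOne (σ : ℂ →+* ℂ) {ε : DirichletCharacter ℂ N} (hε : ε.Odd)
    (f : CuspForm (Gamma1 N) 1) (hf : HasNeb 1 ε f) :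
    ∃ g : CuspForm (Gamma1 N) 1, HasNeb 1 (ε.ringHomComp σ) g ∧
      qExpansion 1 ⇑g = PowerSeries.map σ (qExpansion 1 ⇑f) := by
  set m := orderOf ε with hm
  have hm0 : m ≠ 0 := (orderOf_pos ε).ne'
  set ψ : DirichletCharacter ℂ N := ε⁻¹.ringHomComp σ with hψdef
  have hψ : ψ.Odd := ringHomComp_odd σ (inv_odd hε)
  -- `H` and `F` are the conjugates of `f E₁(ε⁻¹)` and `f ^ m`. From `H ^ m = F E₁(ψ) ^ m` the
  -- quotient `G = H / E₁(ψ)` is holomorphic, with `G ^ m = F` and the `q`-series of `σ f`.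
  obtain ⟨H, hH⟩ := exists_conj_cuspForm σ (timesEis hε f hf)
  obtain ⟨F, hF⟩ := exists_conj_cuspForm σ (powForm f hf)
  have hmemf : (⇑f : ℍ → ℂ) ∈ qFun := mem_qFun_of_modularFormClass (by simp) f
  let qf : qFun := ⟨⇑f, hmemf⟩
  let qe : qFun := ⟨eisOne ε⁻¹, eisOne_mem_qFun (inv_odd hε)⟩
  let qH : qFun := ⟨⇑H, mem_qFun_of_modularFormClass (by simp) H⟩
  let qF : qFun := ⟨⇑F, mem_qFun_of_modularFormClass (by simp) F⟩
  let qE : qFun := ⟨eisOne ψ, eisOne_mem_qFun hψ⟩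
  have hE : qHom qE = PowerSeries.map σ (qHom qe) := by
    ext n
    rw [qHom_apply, qHom_apply, PowerSeries.coeff_map]
    show (qExpansion 1 (eisOne ψ)).coeff n = σ ((qExpansion 1 (eisOne ε⁻¹)).coeff n)
    rw [qExpansion_eisOne hψ, qExpansion_eisOne (inv_odd hε)]
    exact eisCoeff_ringHomComp σ ε⁻¹ n
  have hH' : qHom qH = PowerSeries.map σ (qHom qf) * qHom qE := by
    have e : qHom qH = PowerSeries.map σ (qHom (qf * qe)) := hH
    rw [e, map_mul, map_mul, hE]
  have hF' : qHom qF = PowerSeries.map σ (qHom qf) ^ m := by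
    have e : qHom qF = PowerSeries.map σ (qHom (qf ^ m)) := hF
    rw [e, map_pow, map_pow]
  have hrel : qH ^ m + -qF * qE ^ m = 0 := by
    refine qHom_injective ?_
    rw [map_zero, map_add, map_mul, map_neg, map_pow, map_pow, hH', hF', mul_pow]
    ring
  have hE0 : eisOne ψ ≠ 0 := eisOne_ne_zero hψ
  obtain ⟨G, hG, hGE⟩ := exists_holomorphic_quotient (M := ⇑H) (D := eisOne ψ)
    (CuspFormClass.holo H) (mdifferentiable_eisOne hψ) hE0 (n := m) (Nat.one_le_iff_ne_zero.2 hm0)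
    (c := fun j => if j = m then -⇑F else 0)
    (fun j _ => by
      split_ifs
      · exact (CuspFormClass.holo F).continuous.neg
      · exact continuous_const)
    (fun z => by
      have h := congrArg (fun q : qFun => (q : ℍ → ℂ) z) hrel
      simp [qH, qF, qE] at h
      rw [Finset.sum_eq_single m]
      · simpa [mul_assoc] using h
      · intro j _ hj; simp [hj]
      · intro hj; exact absurd (Finset.mem_Icc.2 ⟨Nat.one_le_iff_ne_zero.2 hm0, le_rfl⟩) hj)
  have hEm : (eisOne ψ) ^ m ≠ 0 := by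
    intro h
    exact hE0 (funext fun z => by simpa [hm0] using congrFun h z)
  have hGm : G ^ m = ⇑F := by
    refine mul_right_cancel_of_ne_zero (ModFun.mdifferentiable_pow (mdifferentiable_eisOne hψ) m)
      hEm
      (ModFun.mdifferentiable_pow hG m) (CuspFormClass.holo F) ?_
    rw [← mul_pow, hGE]
    funext z
    have h := congrArg (fun q : qFun => (q : ℍ → ℂ) z) hrel
    simp [qH, qF, qE] at h
    simp only [Pi.pow_apply, Pi.mul_apply]
    linear_combination h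
  have hneb : HasNeb 1 (ε.ringHomComp σ) G := by
    intro γ hγ
    refine mul_right_cancel_of_ne_zero (mdifferentiable_eisOne hψ) hE0 (hG.slash 1 _)
      (hG.const_smul _) ?_
    have h := ModularForm.mul_slash_SL2 1 1 γ G (eisOne ψ)
    rw [hGE, eisOne_slash_gamma0 hψ hγ] at h
    have hHinv : ⇑H ∣[(1 : ℤ) + 1] γ = ⇑H :=
      SlashInvariantFormClass.slash_action_eq H _ ⟨γ, hγ, rfl⟩
    rw [hHinv, mul_smul_comm] at h
    have hu := isUnit_lowerRight hγ
    have hprod : (ε.ringHomComp σ) (γ 1 1 : ZMod N) * ψ (γ 1 1 : ZMod N) = 1 := by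
      rw [← MulChar.mul_apply, hψdef, ← MulChar.ringHomComp_mul, mul_inv_cancel,
        MulChar.ringHomComp_one, MulChar.one_apply hu]
    rw [smul_mul_assoc, hGE]
    conv_rhs => rw [h]
    rw [smul_smul, hprod, one_smul]
  let g := mkCuspForm (Gamma1 N) 1 G (fun γ hγ => hneb.slash_gamma1 hγ) hG
    (fun γ => isZeroAtImInfty_of_pow (by
      rw [← slash_pow, hGm, mul_one]; exact CuspFormClass.zero_at_infty_slash F γ))
  refine ⟨g, hneb, ?_⟩
  let qG : qFun := ⟨⇑g, mem_qFun_of_modularFormClass (by simp) g⟩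
  have hqG : qG * qE = qH := Subtype.ext hGE
  have hE0' : qHom qE ≠ 0 := fun h => hE0 (congrArg Subtype.val
    (qHom_injective (by rw [h, map_zero]) : qE = 0))
  have := congrArg qHom hqG
  rw [map_mul, hH'] at this
  exact mul_right_cancel₀ hE0' this

end Fermat.Agent.DeligneSerre
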