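import Mathlib.RingTheory.Discriminant
import Mathlib.RingTheory.Artinian.Module
import Mathlib.LinearAlgebra.Determinant
import Mathlib.LinearAlgebra.Trace
import Mathlib.Tactic

/-!
# Idempotents in finite reduced algebras
-/

set_option autoImplicit false

noncomputable section

namespace Fermat.Agent.DeligneSerre

/-- One step of the Newton iteration towards an idempotent. -/
def idemStep {R : Type*} [CommRing R] (s : R) : R := 3 * s ^ 2 - 2 * s ^ 3

section Step

variable {R S : Type*} [CommRing R] [CommRing S]

theorem idemStep_of_isIdempotentElem {s : R} (h : IsIdempotentElem s) : idemStep s = s := by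
  have h2 : s ^ 2 = s := by rw [pow_two]; exact h
  rw [idemStep, show s ^ 3 = s ^ 2 * s by ring, h2, ← pow_two, h2]
  ring

theorem map_idemStep (f : R →+* S) (s : R) : f (idemStep s) = idemStep (f s) := by
  simp [idemStep, map_ofNat]

theorem map_iterate_idemStep (f : R →+* S) (k : ℕ) (s : R) :
    f (idemStep^[k] s) = idemStep^[k] (f s) := by
  induction k generalizing s with
  | zero => rfl
  | succ k ih =>
    rw [Function.iterate_succ_apply, Function.iterate_succ_apply, ih, map_idemStep]

theorem iterate_idemStep_of_isIdempotentElem {s : R} (h : IsIdempotentElem s) (k : ℕ) :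
    idemStep^[k] s = s :=
  Function.iterate_fixed (idemStep_of_isIdempotentElem h) k

theorem exists_sub_sq_iterate {s c u : R} (h : s - s ^ 2 = c * u) (k : ℕ) :
    ∃ w, idemStep^[k] s - (idemStep^[k] s) ^ 2 = c ^ (2 ^ k) * w := by
  induction k with
  | zero => exact ⟨u, by simpa using h⟩
  | succ k ih =>
    obtain ⟨w, hw⟩ := ih
    rw [Function.iterate_succ_apply']
    set r := idemStep^[k] s
    refine ⟨w ^ 2 * ((3 - 2 * r) * (1 + 2 * r)), ?_⟩
    rw [show idemStep r - idemStep r ^ 2 = (r - r ^ 2) ^ 2 * ((3 - 2 * r) * (1 + 2 * r)) by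
      unfold idemStep; ring, hw, pow_succ 2 k, pow_mul]
    ring

end Step

section Algebra

variable {K : Type*} [Field K] {B : Type*} [CommRing B] [Algebra K B]

/-- A nondegenerate trace form forces reducedness. -/
theorem isReduced_of_discr_ne_zero {ι : Type*} [Fintype ι] [DecidableEq ι]
    (b : Module.Basis ι K B) (h : Algebra.discr K b ≠ 0) : IsReduced B := by
  have : Module.Finite K B := Module.Finite.of_basis b
  refine ⟨fun z hz => ?_⟩
  have h0 : ∀ y : B, Algebra.trace K B (y * z) = 0 := fun y => by
    have hn : IsNilpotent (Algebra.lmul K B (y * z)) :=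
      ((Commute.all y z).isNilpotent_mul_left hz).map _
    rw [Algebra.trace_apply]
    exact (LinearMap.isNilpotent_trace_of_isNilpotent hn).eq_zero
  have hv : (Algebra.traceMatrix K b).mulVec (fun i => b.repr z i) = 0 := by
    funext i
    simp only [Matrix.mulVec, dotProduct, Algebra.traceMatrix_apply, Algebra.traceForm_apply,
      Pi.zero_apply]
    rw [← h0 (b i)]
    conv_rhs => rw [← b.sum_repr z, Finset.mul_sum, map_sum]
    refine Finset.sum_congr rfl fun j _ => ?_
    rw [mul_smul_comm, map_smul, smul_eq_mul, mul_comm]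
  have hc := Matrix.eq_zero_of_mulVec_eq_zero (show (Algebra.traceMatrix K b).det ≠ 0 from h) hv
  refine b.ext_elem fun i => ?_
  rw [map_zero, Finsupp.zero_apply]
  exact congrFun hc i

variable [Module.Finite K B]

theorem exists_sq_mul_eq {B : Type*} [CommRing B] [IsReduced B] [IsArtinianRing B] (z : B) :
    ∃ w, z ^ 2 * w = z := by
  obtain ⟨n, w, hw⟩ := IsArtinian.exists_pow_succ_smul_dvd z (1 : B)
  simp only [smul_eq_mul, mul_one] at hw
  refine ⟨w, ?_⟩
  have hn : (z * (1 - z * w)) ^ (n + 1) = 0 := by
    rw [mul_pow, pow_succ (1 - z * w)]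
    have h0 : z ^ (n + 1) * (1 - z * w) = z * (z ^ n - z ^ (n + 1) * w) := by ring
    rw [show z ^ (n + 1) * ((1 - z * w) ^ n * (1 - z * w)) =
      (z ^ (n + 1) * (1 - z * w)) * (1 - z * w) ^ n by ring, h0, hw, sub_self, mul_zero, zero_mul]
  have h1 : z * (1 - z * w) = 0 := IsNilpotent.eq_zero ⟨_, hn⟩
  linear_combination -h1

/-- An idempotent different from `1` cuts out a proper direct factor. -/
theorem exists_norm_smul_add (e : B) (he : IsIdempotentElem e) :
    ∃ r : ℕ, (e ≠ 1 → r < Module.finrank K B) ∧
      ∀ a : K, Algebra.norm K (a • e + (1 - e)) = a ^ r := by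
  set f : Module.End K B := Algebra.lmul K B e with hf
  have hproj : IsIdempotentElem f := he.map (Algebra.lmul K B)
  have hfP : LinearMap.IsProj (LinearMap.range f) f :=
    LinearMap.isProj_range_iff_isIdempotentElem f |>.mpr hproj
  refine ⟨Module.finrank K (LinearMap.range f), fun he1 => Submodule.finrank_lt ?_, fun a => ?_⟩
  · intro htop
    obtain ⟨x, hx⟩ := LinearMap.mem_range.mp (htop ▸ Submodule.mem_top : (1 : B) ∈
      LinearMap.range f)
    refine he1 ?_
    have hx' : e * x = 1 := hx
    calc e = e * (e * x) := by rw [hx', mul_one]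
      _ = 1 := by rw [← mul_assoc, he, hx']
  · have hc := hfP.isCompl
    set q := Submodule.prodEquivOfIsCompl _ _ hc with hq
    let g : (LinearMap.range f × LinearMap.ker f) →ₗ[K] (LinearMap.range f × LinearMap.ker f) :=
      (a • LinearMap.id).prodMap LinearMap.id
    have hg : Algebra.lmul K B (a • e + (1 - e)) =
        (q : _ →ₗ[K] B) ∘ₗ g ∘ₗ (q.symm : B →ₗ[K] _) := by
      refine LinearMap.ext fun x => ?_
      obtain ⟨⟨⟨u, hu⟩, ⟨v, hv⟩⟩, rfl⟩ := q.surjective x
      have hu' : e * u = u := hfP.map_id u hu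
      have hv' : e * v = 0 := LinearMap.mem_ker.mp hv
      simp only [LinearMap.comp_apply, LinearEquiv.coe_coe, LinearEquiv.symm_apply_apply, g,
        LinearMap.prodMap_apply, LinearMap.smul_apply, LinearMap.id_apply]
      simp only [hq, Submodule.coe_prodEquivOfIsCompl']
      simp only [Algebra.coe_lmul_eq_mul, LinearMap.mul_apply', Submodule.coe_smul]
      rw [add_mul, smul_mul_assoc, sub_mul, one_mul, mul_add, hu', hv', add_zero]
      abel
    rw [Algebra.norm_apply, hg, LinearMap.det_conj, LinearMap.det_prodMap, LinearMap.det_smul,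
      LinearMap.det_id, LinearMap.det_id, mul_one, mul_one]

end Algebra

section Minimal

variable {B : Type*} [CommRing B] [IsReduced B] [IsArtinianRing B]

/-- Among the idempotents `≠ 1` selected by a predicate which is additive on orthogonal
decompositions, a minimal one cuts out a field. -/
theorem exists_field_idem (Good : B → Prop) (h0 : ¬ Good 0)
    (hsplit : ∀ e e', IsIdempotentElem e → IsIdempotentElem e' → e * e' = e' → Good e →
      Good e' ∨ Good (e - e'))
    {e₁ : B} (h1 : IsIdempotentElem e₁) (h2 : e₁ ≠ 1) (h3 : Good e₁) :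
    ∃ e, IsIdempotentElem e ∧ e ≠ 1 ∧ e ≠ 0 ∧ Good e ∧
      ∀ z, e * z = z → z ≠ 0 → IsUnit (z + (1 - e)) := by
  obtain ⟨J, ⟨e, ⟨he, he1, heG⟩, rfl⟩, hmin⟩ := IsArtinian.set_has_minimal
    ((fun e : B => Ideal.span {e}) '' {e | IsIdempotentElem e ∧ e ≠ 1 ∧ Good e})
    ⟨_, e₁, ⟨h1, h2, h3⟩, rfl⟩
  refine ⟨e, he, he1, fun h => h0 (h ▸ heG), heG, fun z hz hz0 => ?_⟩
  obtain ⟨w, hw⟩ := exists_sq_mul_eq z
  have hid : IsIdempotentElem (z * w) := by
    show z * w * (z * w) = z * w
    linear_combination w * hw
  have hee : e * (z * w) = z * w := by rw [← mul_assoc, hz]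
  have hne : z * w ≠ 0 := fun h => hz0 (by linear_combination -hw + z * h)
  have key : z * w = e := by
    by_contra hne'
    have hsub : ∀ e', IsIdempotentElem e' → e * e' = e' → e' ≠ e → ¬ Good e' := by
      intro e' he' hee' hne'' hG
      have h1' : e' ≠ 1 := fun h => he1 (by rw [h, mul_one] at hee'; exact hee')
      refine hmin _ ⟨e', ⟨he', h1', hG⟩, rfl⟩ (lt_of_le_of_ne ?_ fun heq => hne'' ?_)
      · exact Ideal.span_singleton_le_span_singleton.mpr ⟨e', hee'.symm⟩
      · have hmem : e ∈ Ideal.span {e'} := by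
          rw [show Ideal.span {e'} = Ideal.span {e} from heq]; exact Ideal.mem_span_singleton_self e
        obtain ⟨b, hb⟩ := Ideal.mem_span_singleton.mp hmem
        calc e' = e * e' := hee'.symm
          _ = e' * e' * b := by rw [hb]; ring
          _ = e := by rw [he', hb]
    rcases hsplit e (z * w) he hid hee heG with h | h
    · exact hsub _ hid hee hne' h
    · refine hsub (e - z * w) ?_ ?_ (fun h' => hne (by linear_combination -h')) h
      · show (e - z * w) * (e - z * w) = _
        linear_combination he.eq + hid.eq - 2 * hee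
      · linear_combination he.eq - hee
  refine IsUnit.of_mul_eq_one (e * w + (1 - e)) ?_
  linear_combination key + (w - 1) * hz + (1 - w) * he.eq

end Minimal

end Fermat.Agent.DeligneSerre
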