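import Fermat.Agent.DeligneSerre.ChartAux
import Fermat.Agent.DeligneSerre.Idempotents
import Fermat.Agent.FF.Along

/-!
# Connectedness of the reduction of a curve with good reduction

If the value group is archimedean and the idempotents of the reduction of a model lift near every
point of the line, infinity included, then the reduction of an irreducible curve has no nontrivial
idempotent, the constant fields being algebraically closed.

Main result: `idem_eq_zero_or_one`.
-/

set_option autoImplicit false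

noncomputable section

open Polynomial IsLocalRing AlgebraicCurve

namespace Fermat.Agent.DeligneSerre

open Fermat.Agent.EichlerShimura Fermat.Agent.FF

/-! ## Orders at a place -/

section Order

variable {K F : Type*} [Field K] [Field F] [Algebra K F] [IsAlgClosed K] [IsFunctionField K F]

theorem finrank_le_comap_ordGe {W : Type*} [AddCommGroup W] [Module K W] [FiniteDimensional K W]
    (P : Place K F) (Φ : W →ₗ[K] F) (h0 : ∀ w, Φ w ∈ ordGe P 0) (R : ℕ) :
    Module.finrank K W ≤ Module.finrank K ((ordGe P (R : ℤ)).comap Φ) + R := by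
  induction R with
  | zero =>
    rw [show (ordGe P ((0 : ℕ) : ℤ)).comap Φ = ⊤ from eq_top_iff.mpr fun w _ => h0 w, finrank_top]
    omega
  | succ R ih =>
    set S := (ordGe P (R : ℤ)).comap Φ
    obtain ⟨π, hπ0, hπ⟩ := exists_ord_eq P (-(R : ℤ))
    have hmem : ∀ w : S, π * Φ (w : W) ∈ P.toValuationSubring := fun w => by
      rw [← mem_ordGe_zero]
      simpa using mul_mem_ordGe P (mem_ordGe_of_le P hπ.ge) w.2
    let ψ : S →ₗ[K] K :=
      { toFun := fun w => valAtP P ⟨_, hmem w⟩
        map_add' := fun v w => by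
          rw [← map_add]
          exact congrArg _ (Subtype.ext (by push_cast; rw [map_add, mul_add]))
        map_smul' := fun r w => by
          refine Eq.trans (congrArg (valAtP P) (show (⟨_, hmem (r • w)⟩ : P.toValuationSubring) =
            ⟨_, P.algebraMap_mem' r⟩ * ⟨_, hmem w⟩ from Subtype.ext (by
              show π * Φ (r • (w : W)) = algebraMap K F r * (π * Φ (w : W))
              rw [map_smul, Algebra.smul_def]; ring))) ?_
          rw [map_mul, valAtP_eq_of_sub_mem P (P.algebraMap_mem' r) (a := r)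
            (by rw [sub_self]; exact zero_mem _)]
          rfl }
    have hker : (LinearMap.ker ψ).map S.subtype ≤ (ordGe P ((R + 1 : ℕ) : ℤ)).comap Φ := by
      rintro _ ⟨w, hw, rfl⟩
      have h1 := sub_valAtP_mem P (hmem w)
      rw [show valAtP P ⟨_, hmem w⟩ = 0 from hw, map_zero, sub_zero] at h1
      have h2 := mul_mem_ordGe P (mem_ordGe_of_le P (P.ord_inv π).ge) h1
      rw [← mul_assoc, inv_mul_cancel₀ hπ0, one_mul, hπ] at h2
      refine ordGe_anti P ?_ h2
      push_cast
      omega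
    have h1 := LinearMap.finrank_range_add_finrank_ker ψ
    have h2 : Module.finrank K (LinearMap.range ψ) ≤ 1 :=
      (Submodule.finrank_le _).trans (Module.finrank_self K).le
    have h3 := Submodule.finrank_mono hker
    rw [Submodule.finrank_map_subtype_eq] at h3
    omega

end Order

variable {L : Type*} [Field L] {A : ValuationSubring L} {ι : Type*} [Fintype ι]
variable {E : Type*} [Field E] [Algebra (RatFunc L) E]
variable {Eb : Type*} [CommRing Eb] [Algebra (RatFunc (Kappa A)) Eb]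

/-! ## Parts in an idempotent factor and high order zeros -/

/-- The part of `y` in the direct factor of an idempotent, normalised. -/
theorem exists_part (M : Model A ι E Eb) (harch : IsArchVal A) (Z : M.S)
    (he : IsIdempotentElem (M.red Z)) (he0 : M.red Z ≠ 0) {y : E} (hy : y ≠ 0) :
    ∃ (Z' : M.S) (γ : L) (g : M.S), γ ≠ 0 ∧ (∀ R : Subring E, (Z : E) ∈ R → (Z' : E) ∈ R) ∧
      M.red Z' = M.red Z ∧ cst E γ * (g : E) = (Z' : E) * y ∧ M.red g ≠ 0 ∧
      M.red Z * M.red g = M.red g := by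
  obtain ⟨a, ha, u, hyu, hu⟩ := M.exists_scale' hy
  obtain ⟨a', ha', u', hyu', -⟩ := M.exists_scale' (inv_ne_zero hy)
  change y = cst E a * u at hyu
  change y⁻¹ = cst E a' * u' at hyu'
  -- Iterate the idempotent step until the error is smaller than the scales of `y` and `1 / y`.
  obtain ⟨c, w, hc, hw⟩ := exists_eq_cst_mul_of_red_eq_zero M (x := Z - Z ^ 2)
    (by rw [map_sub, map_pow, pow_two, he, sub_self])
  obtain ⟨hcA, -⟩ := mem_of_valuation_lt_one hc
  obtain ⟨n, hn⟩ := harch c (a * a') hc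
  set C₀ : M.S := ⟨cst E c, cst_mem_S M hcA⟩
  obtain ⟨W, hW⟩ := exists_sub_sq_iterate (s := Z) (c := C₀) (u := w) (Subtype.ext hw) n
  set Z' := idemStep^[n] Z with hZ'
  have hred : M.red Z' = M.red Z := by
    rw [hZ', map_iterate_idemStep, iterate_idemStep_of_isIdempotentElem he]
  have hZ'0 : (Z' : E) ≠ 0 := fun h => he0 (by
    rw [← hred, show Z' = 0 from Subtype.ext h, map_zero])
  have hu0 : (u : E) ≠ 0 := fun h => hy (by rw [hyu, h, mul_zero])
  obtain ⟨γ, hγ, g, hxg, hg⟩ := M.exists_scale' (y := (Z' : E) * u) (mul_ne_zero hZ'0 hu0)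
  change (Z' : E) * u = cst E γ * g at hxg
  refine ⟨Z', a * γ, g, mul_ne_zero ha hγ, fun R hR => ?_, hred, ?_, hg, ?_⟩
  · rw [hZ', show ((idemStep^[n] Z : M.S) : E) = idemStep^[n] (Z : E) from
      map_iterate_idemStep M.S.subtype n Z,
      ← show ((idemStep^[n] (⟨_, hR⟩ : R) : R) : E) = idemStep^[n] (Z : E) from
        map_iterate_idemStep R.subtype n _]
    exact SetLike.coe_mem _
  · rw [hyu, map_mul, mul_assoc, ← hxg]; ring
  -- The scale of the part is not too small, as the idempotent is nonzero.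
  have hone : 1 ≤ A.valuation (a * a' * γ) := by
    by_contra! hlt
    refine he0 (hred ▸ red_eq_zero_of_eq_cst_mul M (y := u' * g) hlt ?_)
    show (Z' : E) = cst E (a * a' * γ) * ((u' : E) * g)
    calc (Z' : E) = (Z' : E) * (y * y⁻¹) := by rw [mul_inv_cancel₀ hy, mul_one]
      _ = cst E a * cst E a' * ((Z' : E) * u) * u' := by rw [hyu', hyu]; ring
      _ = _ := by rw [hxg, map_mul, map_mul]; ring
  have hlt : A.valuation (-(c ^ 2 ^ n) / γ) < 1 := by
    have h1 : A.valuation (c ^ 2 ^ n) * A.valuation (a * a') < 1 := by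
      refine lt_of_le_of_lt (mul_le_mul_left ?_ _) (by rwa [map_mul] at hn)
      rw [map_pow, map_pow]
      exact pow_le_pow_right_of_le_one' hc.le (Nat.lt_two_pow_self).le
    rw [map_div₀, Valuation.map_neg, div_lt_one₀ ((Valuation.pos_iff _).mpr hγ)]
    refine lt_of_lt_of_le (lt_of_not_ge fun h => ?_) le_rfl
    refine absurd hone (not_le.mpr (lt_of_le_of_lt ?_ h1))
    rw [map_mul _ (a * a'), mul_comm]
    exact mul_le_mul_left h _
  -- So the normalised part is fixed by the idempotent after reduction.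
  have key : M.red (Z' * g - g) = 0 := by
    refine red_eq_zero_of_eq_cst_mul M (y := W * u) hlt ?_
    show (Z' : E) * g - g = cst E (-(c ^ 2 ^ n) / γ) * ((W : E) * u)
    have hW' : (Z' : E) - (Z' : E) ^ 2 = (cst E c) ^ 2 ^ n * W := congrArg Subtype.val hW
    have hγ' : cst E γ ≠ 0 := (_root_.map_ne_zero _).mpr hγ
    rw [map_div₀, map_neg, map_pow, div_mul_eq_mul_div, eq_div_iff hγ']
    linear_combination -(u : E) * hW' - (Z' : E) * hxg + hxg
  rw [map_sub, map_mul, hred, sub_eq_zero] at key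
  exact key

variable [IsAlgClosed L] [DecidableEq ι]

theorem mem_Rint_of_cst_mul_eq (M : Model A ι E Eb) {T : Set (Kappa A)} {g : M.S} {γ : L}
    (hγ : γ ≠ 0) {x : E} (h : cst E γ * (g : E) = x)
    (hx : ∀ c : A, residue A c ∈ T → IsIntegral (Loc (c : L)).toSubring x) :
    (g : E) ∈ Rint E T := by
  have := M.finite
  refine mem_Rint.mpr (isIntegral_Lam_iff.mpr ⟨M.mem_S_iff_isIntegral.mp g.2, fun c hc => ?_⟩)
  rw [show (g : E) = cst E γ⁻¹ * x by
    rw [← h, ← mul_assoc, ← map_mul, inv_mul_cancel₀ hγ, map_one, one_mul]]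
  exact (isIntegral_algebraMap_of_mem (C_mem_Loc _ _)).mul (hx c hc)

variable [Algebra L E] [IsScalarTower L (RatFunc L) E] [FiniteDimensional (RatFunc L) E]
  [IsFunctionField L E] [IsAlgClosed (Kappa A)]

omit [DecidableEq ι] [IsAlgClosed (Kappa A)] in
/-- Functions with bounded poles at infinity and a high order zero at a given point. -/
theorem exists_high_order (M : Model A ι E Eb) {P : Place L E}
    (hP : P.restrict (RatFunc L) = placeAtPt (0 : L)) :
    ∃ s : ℕ, ∀ m R : ℕ, R < Fintype.card ι * (m + 1) → ∃ y : E, y ≠ 0 ∧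
      (∀ c : L, IsIntegral (Loc c).toSubring y) ∧
      IsIntegral (Loc (0 : L)).toSubring
        (flipRing E ((algebraMap (RatFunc L) E (RatFunc.X)⁻¹) ^ (m + s) * y)) ∧
      y ∈ ordGe P R := by
  let Pol : Subring (RatFunc L) := (algebraMap L[X] (RatFunc L)).range
  have hPol : ∀ f : RatFunc L, ∃ r ∈ Pol, r ≠ 0 ∧ r * f ∈ Pol := fun f => by
    have hd := (map_ne_zero_iff _ (RatFunc.algebraMap_injective L)).mpr (RatFunc.denom_ne_zero f)
    refine ⟨_, ⟨f.denom, rfl⟩, hd, f.num, ?_⟩
    conv_rhs => arg 2; rw [← RatFunc.num_div_denom f]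
    rw [mul_div_cancel₀ _ hd]
  have hPolLe : ∀ c, Pol ≤ (Loc c).toSubring := fun c => by
    rintro _ ⟨p, rfl⟩
    exact algebraMap_mem_Loc c p
  -- Multiples `b' i` of the basis are integral at all finite points, and integral at infinity
  -- after multiplication by `X⁻ˢ`.
  choose r hr hr0 hrint using fun i => exists_mul_isIntegral (E := E) Pol hPol (M.b i)
  set b' := M.b.unitsSMul fun i => Units.mk0 (r i) (hr0 i) with hb'
  have hb'eq : ∀ i, b' i = algebraMap (RatFunc L) E (r i) * M.b i := fun i => by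
    rw [hb', Module.Basis.unitsSMul_apply, Units.smul_def, Algebra.smul_def]
    rfl
  have hbfin : ∀ i (c : L), IsIntegral (Loc c).toSubring (b' i) := fun i c => by
    rw [hb'eq]; exact isIntegral_mono (hPolLe c) (hrint i)
  have hLoc : ∀ f : RatFunc L, ∃ r ∈ (Loc (0 : L)).toSubring, r ≠ 0 ∧
      r * f ∈ (Loc (0 : L)).toSubring := fun f => by
    rcases (Loc (0 : L)).mem_or_inv_mem f with h | h
    · exact ⟨1, one_mem _, one_ne_zero, by rw [one_mul]; exact h⟩
    · rcases eq_or_ne f 0 with rfl | hf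
      · exact ⟨1, one_mem _, one_ne_zero, by rw [mul_zero]; exact zero_mem _⟩
      · exact ⟨f⁻¹, h, inv_ne_zero hf, by rw [inv_mul_cancel₀ hf]; exact one_mem _⟩
  have : Module.Finite (RatFunc L) (Flipped E) := M.flip.finite
  choose r' hr' hr'0 hr'int using fun i =>
    exists_mul_isIntegral (E := Flipped E) (Loc (0 : L)).toSubring hLoc (flipRing E (b' i))
  choose k u hu hui hfac using fun i => exists_eq_zpow_mul (0 : L) (hr'0 i)
  have hXmem : (RatFunc.X : RatFunc L) ∈ Loc (0 : L) := by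
    rw [← RatFunc.algebraMap_X]; exact algebraMap_mem_Loc _ _
  set s := Finset.univ.sup fun i => (k i).toNat with hs
  have hbinf : ∀ i, IsIntegral (Loc (0 : L)).toSubring
      (algebraMap (RatFunc L) (Flipped E) (RatFunc.X ^ s) * flipRing E (b' i)) := fun i => by
    have hks : k i ≤ (s : ℤ) := (Int.self_le_toNat _).trans
      (Int.ofNat_le.mpr (Finset.le_sup (f := fun i => (k i).toNat) (Finset.mem_univ i)))
    obtain ⟨d, hd⟩ := Int.le.dest hks
    have hX : (RatFunc.X : RatFunc L) ^ s = RatFunc.X ^ d * (u i)⁻¹ * r' i := by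
      have hui0 : u i ≠ 0 := fun h => hr'0 i (by rw [hfac i, h, mul_zero])
      rw [hfac i, show unifAt (0 : L) = RatFunc.X by rw [unifAt_eq, map_zero, sub_zero],
        ← zpow_natCast, ← zpow_natCast, ← hd, zpow_add₀ RatFunc.X_ne_zero]
      field_simp
    rw [hX, map_mul, mul_assoc]
    exact (isIntegral_algebraMap_of_mem (mul_mem (pow_mem hXmem d) (hui i))).mul (hr'int i)
  refine ⟨s, fun m R hR => ?_⟩
  -- The combinations of the `b' i` with polynomial coefficients of degree `≤ m` form a space of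
  -- dimension `|ι| (m + 1) > R`, and vanishing to order `R` at `P` imposes at most `R` conditions.
  let Φ : (ι → degreeLT L (m + 1)) →ₗ[L] E := ∑ i, (LinearMap.mulRight L (b' i)) ∘ₗ
    (IsScalarTower.toAlgHom L (RatFunc L) E).toLinearMap ∘ₗ
    (IsScalarTower.toAlgHom L L[X] (RatFunc L)).toLinearMap ∘ₗ (degreeLT L (m + 1)).subtype ∘ₗ
    LinearMap.proj i
  have hΦ : ∀ p, Φ p = ∑ i, algebraMap (RatFunc L) E (algebraMap L[X] (RatFunc L) (p i : L[X])) *
      b' i :=
    fun p => by simp [Φ]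
  have hdeg : ∀ p : degreeLT L (m + 1), (p : L[X]).natDegree ≤ m := fun p => by
    rcases eq_or_ne (p : L[X]) 0 with h | h
    · simp [h]
    · exact Nat.lt_succ_iff.mp ((natDegree_lt_iff_degree_lt h).mpr (mem_degreeLT.mp p.2))
  have hfin : ∀ p (c : L), IsIntegral (Loc c).toSubring (Φ p) := fun p c => by
    rw [hΦ]
    exact IsIntegral.sum _ fun i _ =>
      (isIntegral_algebraMap_of_mem (algebraMap_mem_Loc c _)).mul (hbfin i c)
  have hzero : ∀ w, Φ w ∈ ordGe P 0 := fun w =>
    (mem_ordGe_zero P).mpr (mem_place_of_isIntegral hP (hfin w 0))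
  have hdim : Module.finrank L (ι → degreeLT L (m + 1)) = Fintype.card ι * (m + 1) := by
    rw [Module.finrank_pi_fintype]
    simp [(degreeLTEquiv L (m + 1)).finrank_eq]
  have hle := finrank_le_comap_ordGe P Φ hzero R
  rw [hdim] at hle
  have hne : (ordGe P (R : ℤ)).comap Φ ≠ ⊥ := fun h => by
    rw [h, finrank_bot] at hle; omega
  obtain ⟨p, hp, hp0⟩ := Submodule.exists_mem_ne_zero_of_ne_bot hne
  refine ⟨Φ p, fun h => hp0 ?_, hfin p, ?_, hp⟩
  · rw [hΦ] at h
    have hli := Fintype.linearIndependent_iff.mp b'.linearIndependent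
      (fun i => algebraMap L[X] (RatFunc L) (p i : L[X])) (by simpa [Algebra.smul_def] using h)
    funext i
    exact Subtype.ext ((map_eq_zero_iff _ (RatFunc.algebraMap_injective L)).mp (hli i))
  · rw [hΦ, Finset.mul_sum, map_sum]
    refine IsIntegral.sum _ fun i _ => ?_
    have he : flipRing E ((algebraMap (RatFunc L) E (RatFunc.X)⁻¹) ^ (m + s) *
        (algebraMap (RatFunc L) E (algebraMap L[X] (RatFunc L) (p i : L[X])) * b' i)) =
        algebraMap (RatFunc L) (Flipped E) (RatFunc.X ^ m *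
          invX L (algebraMap L[X] (RatFunc L) (p i : L[X]))) *
        (algebraMap (RatFunc L) (Flipped E) (RatFunc.X ^ s) * flipRing E (b' i)) := by
      simp only [algebraMap_flipped, map_mul, map_pow, invX_X, invX_invX]
      ring
    rw [he]
    exact (isIntegral_algebraMap_of_mem (X_pow_mul_invX_mem_Loc (hdeg _))).mul (hbinf i)

/-! ## Reductions of the parts -/

omit [IsFunctionField L E] [FiniteDimensional (RatFunc L) E] [Algebra L E]
  [IsScalarTower L (RatFunc L) E]
  [IsAlgClosed L] [IsAlgClosed (Kappa A)] [DecidableEq ι] in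
/-- The inverse of the coordinate is integral for the model and reduces to the inverse of the
coordinate. -/
private theorem exists_red_inv_X (M : Model A ι E Eb) :
    ∃ h : algebraMap (RatFunc L) E (RatFunc.X)⁻¹ ∈ M.S,
      M.red ⟨_, h⟩ = algebraMap (RatFunc (Kappa A)) Eb (RatFunc.X)⁻¹ := by
  have hXA : (RatFunc.X : RatFunc L) = ratIncl A X := by
    simp [ratIncl, polyIncl, RatFunc.algebraMap_X]
  have hXi : (RatFunc.X : RatFunc L)⁻¹ ∈ Og A := by
    rw [← invX_X]; exact invX_mem_Og (hXA ▸ apply_mem_fracPart X)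
  refine ⟨M.algebraMap_mem hXi, ?_⟩
  refine (M.red_algebraMap hXi).trans ?_
  rw [← invX_X (K₀ := Kappa A)]
  congr 1
  have hXg : (RatFunc.X : RatFunc L) ∈ Og A := hXA ▸ apply_mem_fracPart X
  rw [show (⟨_, hXi⟩ : Og A) = ⟨_, invX_mem_Og hXg⟩ from Subtype.ext invX_X.symm, redG_invX hXg,
    show (⟨_, hXg⟩ : Og A) = ⟨_, apply_mem_fracPart X⟩ from Subtype.ext hXA, redG_ratIncl]
  simp [ratBar, polyBar, RatFunc.algebraMap_X]

omit [IsFunctionField L E] [FiniteDimensional (RatFunc L) E] [Algebra L E]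
  [IsScalarTower L (RatFunc L) E]
  [IsAlgClosed (Kappa A)] in
/-- The reduction of the part of `y` in the factor of `e` is integral over every finite
point at which `e` lifts. -/
private theorem isIntegral_red_part (M : Model A ι E Eb) (harch : IsArchVal A) {e : Eb}
    (he : IsIdempotentElem e)
    (he0 : e ≠ 0) {t : Kappa A} (hfin : IdemLiftAt M t) {y : E} (hy0 : y ≠ 0)
    (hyfin : ∀ c : L, IsIntegral (Loc c).toSubring y) {Z₀' g : M.S} {γ : L} (hγ : γ ≠ 0)
    (hg : cst E γ * (g : E) = (Z₀' : E) * y) (hZ₀red : M.red Z₀' = e)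
    (hge : e * M.red g = M.red g) :
    IsIntegral (Loc t).toSubring (M.red g) := by
  obtain ⟨Zt, hZt⟩ := hfin e he
  obtain ⟨Zt', γt, gt, hγt, hZtR, hZtred, hgt, hgtne, hgte⟩ :=
    exists_part M harch (M.incl {t} Zt) (by rw [show M.red _ = e from hZt]; exact he)
      (by rw [show M.red _ = e from hZt]; exact he0) hy0
  rw [show M.red (M.incl {t} Zt) = e from hZt] at hZtred hgte
  have hgtR : (gt : E) ∈ Rint E ({t} : Set (Kappa A)) :=
    mem_Rint_of_cst_mul_eq M hγt hgt fun c hc => (isIntegral_mono (Lam_le_Loc (T := {t}) hc)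
      (mem_Rint.mp (hZtR (Rint E {t}) Zt.2))).mul (hyfin _)
  obtain ⟨v, hv⟩ := red_cst_mul_eq M (g := Zt' * g) (g' := Z₀' * gt) hγ (b := γt) (by
    show cst E γ * ((Zt' : E) * g) = cst E γt * ((Z₀' : E) * gt)
    linear_combination (Zt' : E) * hg - (Z₀' : E) * hgt)
    (by rw [map_mul, hZ₀red, hgte]; exact hgtne)
  rw [map_mul, map_mul, hZtred, hge, hZ₀red, hgte] at hv
  rw [hv]
  exact (isIntegral_algebraMap_of_mem (C_mem_Loc _ _)).mul
    (M.redT_isIntegral ⟨_, hgtR⟩ (Set.mem_singleton t))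

omit [IsFunctionField L E] [FiniteDimensional (RatFunc L) E] [Algebra L E]
  [IsScalarTower L (RatFunc L) E]
  [IsAlgClosed (Kappa A)] in
/-- The reduction of the part of `y` in the factor of `e` has a pole of order at most `n` at
infinity when `y` does and `e` lifts there. -/
private theorem isIntegral_red_part_infty (M : Model A ι E Eb) (harch : IsArchVal A) {e : Eb}
    (he : IsIdempotentElem e) (he0 : e ≠ 0) (hinf : IdemLiftAt M.flip 0) {y : E} (hy0 : y ≠ 0)
    {n : ℕ}
    (hyfin : ∀ c : L, IsIntegral (Loc c).toSubring y)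
    (hyinf : IsIntegral (Loc (0 : L)).toSubring
      (flipRing E ((algebraMap (RatFunc L) E (RatFunc.X)⁻¹) ^ n * y)))
    {Z₀' g : M.S} {γ : L} (hγ : γ ≠ 0) (hg : cst E γ * (g : E) = (Z₀' : E) * y)
    (hZ₀red : M.red Z₀' = e)

    (hge : e * M.red g = M.red g) :
    IsIntegral (Loc (0 : Kappa A)).toSubring
      (flipRing Eb ((algebraMap (RatFunc (Kappa A)) Eb (RatFunc.X)⁻¹) ^ n * M.red g)) := by
  obtain ⟨hxiS, hxired⟩ := exists_red_inv_X M
  set xi : E := algebraMap (RatFunc L) E (RatFunc.X)⁻¹ with hxi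
  let xiS : M.S := ⟨xi, hxiS⟩
  have hflipxi : flipRing E xi = algebraMap (RatFunc L) (Flipped E) RatFunc.X := by
    rw [algebraMap_flipped, invX_X]
  have := M.flip.finite
  -- Lift the idempotent in the chart at infinity and take the part of `xⁿ y` there.
  obtain ⟨Zi, hZi⟩ := hinf (flipRing Eb e) (he.map (flipRing Eb))
  let Zi₀ : M.S := ⟨(flipRing E).symm (Zi : Flipped E), mem_S_of_flip M (by
    rw [RingEquiv.apply_symm_apply]; exact M.flip.rint_le_S _ Zi.2)⟩
  have hZi₀ : M.red Zi₀ = e := (flipRing Eb).injective (by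
    rw [← M.flip_red, ← hZi, Model.redT_apply]
    exact congrArg M.flip.red (Subtype.ext (RingEquiv.apply_symm_apply _ _)))
  have hy' : xi ^ n * y ≠ 0 := mul_ne_zero (pow_ne_zero _
    ((_root_.map_ne_zero _).mpr (inv_ne_zero RatFunc.X_ne_zero))) hy0
  obtain ⟨Zi', γi, gi, hγi, hZiR, hZired, hgi, hgine, hgie⟩ :=
    exists_part M harch Zi₀ (hZi₀ ▸ he) (hZi₀ ▸ he0) hy'
  rw [hZi₀] at hZired hgie
  -- That part is integral at infinity.
  have hZi'R : flipRing E (Zi' : E) ∈ Rint (Flipped E) ({(0 : Kappa A)} : Set (Kappa A)) :=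
    hZiR ((Rint (Flipped E) ({(0 : Kappa A)} : Set (Kappa A))).comap (flipRing E).toRingHom) (by
      show flipRing E ((flipRing E).symm (Zi : Flipped E)) ∈ _
      rw [RingEquiv.apply_symm_apply]; exact Zi.2)
  have hgiR : flipRing E (gi : E) ∈ Rint (Flipped E) ({(0 : Kappa A)} : Set (Kappa A)) :=
    mem_Rint_of_cst_mul_eq M.flip (g := ⟨_, M.mem_flip_S gi.2⟩) hγi
      (show cst (Flipped E) γi * flipRing E (gi : E) =
          flipRing E (Zi' : E) * flipRing E (xi ^ n * y) by
        rw [← map_mul (flipRing E) (Zi' : E), ← hgi, map_mul (flipRing E)]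
        exact congrArg (· * _) (algebraMap_flipped_C γi))
      fun c hc => by
        refine (isIntegral_mono (Lam_le_Loc (T := {(0 : Kappa A)}) hc) (mem_Rint.mp hZi'R)).mul ?_
        rcases eq_or_ne (c : L) 0 with h | h
        · rw [h]; exact hyinf
        · rw [map_mul, map_pow, hflipxi, ← RatFunc.algebraMap_X]
          exact ((isIntegral_algebraMap_of_mem (algebraMap_mem_Loc _ _)).pow _).mul
            (isIntegral_flip h (hyfin _))
  -- It differs from `g` times `xⁿ` by a constant, whose reduction is integral.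
  obtain ⟨v, hv⟩ := red_cst_mul_eq M (g := Zi' * g * xiS ^ n) (g' := Z₀' * gi) hγ (b := γi) (by
    show cst E γ * ((Zi' : E) * g * xi ^ n) = cst E γi * ((Z₀' : E) * gi)
    linear_combination (Zi' : E) * xi ^ n * hg - (Z₀' : E) * hgi)
    (by rw [map_mul, hZ₀red, hgie]; exact hgine)
  rw [map_mul, map_mul, map_mul, map_pow, hZired, hge, show M.red xiS = _ from hxired, hZ₀red, hgie,
    mul_comm] at hv
  have hint := M.flip.redT_isIntegral ⟨_, hgiR⟩ (Set.mem_singleton (0 : Kappa A))
  rw [show M.flip.redT {0} ⟨_, hgiR⟩ = flipRing Eb (M.red gi) from M.flip_red gi] at hint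
  rw [hv, map_mul]
  refine IsIntegral.mul ?_ hint
  rw [show flipRing Eb (cst Eb v) = algebraMap (RatFunc (Kappa A)) (Flipped Eb) (RatFunc.C v) from
    (algebraMap_flipped_C v).symm]
  exact isIntegral_algebraMap_of_mem (C_mem_Loc _ _)

omit [IsAlgClosed (Kappa A)] in
/-- If a function integral at `0` has a zero of order `R` at a place over `0`, the numerator of the
norm of its reduction is divisible by `X ^ R`. -/
private theorem X_pow_dvd_norm_red (M : Model A ι E Eb) {P : Place L E}
    (hP : P.restrict (RatFunc L) = placeAtPt (0 : L))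
    {G : Rint E ({(0 : Kappa A)} : Set (Kappa A))} (hG0 : (G : E) ≠ 0) {R : ℕ}
    (hGord : (R : ℤ) ≤ P.ord (G : E))
    {q : (Kappa A)[X]} (hq : Algebra.norm (RatFunc (Kappa A)) (M.redT {0} G) = algebraMap _ _ q) :
    (X : (Kappa A)[X]) ^ R ∣ q := by
  -- The norm of `G` lies in the local ring of polynomial fractions.
  have hc0 : residue A (0 : A) = 0 := map_zero _
  have hN : Algebra.norm (RatFunc L) (G : E) ∈ Lam A ({(0 : Kappa A)} : Set (Kappa A)) :=
    norm_mem (Lam_intClosedIn _) (mem_Rint.mp G.2)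
  obtain ⟨hNg, hNr⟩ := M.norm_red (M.incl {0} G)
  obtain ⟨p, qd, hqd, hpq⟩ := mem_Lam.mp hN
  have hbar := redG_mul_bar (Lam_le_Og _ hN) hqd.1 hpq
  rw [show redG A ⟨_, Lam_le_Og _ hN⟩ = algebraMap _ _ q from hNr.trans hq] at hbar
  have hpb : q * polyBar A qd = polyBar A p := RatFunc.algebraMap_injective _ (by
    rw [map_mul]; exact hbar)
  have hqd0 : (polyBar A qd).eval 0 ≠ 0 := hqd.2 0 rfl
  have hqdL : (polyIncl A qd).eval (0 : L) ≠ 0 := fun h0 => hqd0 (by
    rw [← hc0, ← residue_eval, show qd.eval (0 : A) = 0 from Subtype.ext (by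
      rw [coe_eval]; exact h0), map_zero])
  have hN0 : Algebra.norm (RatFunc L) (G : E) ≠ 0 := Algebra.norm_ne_zero_iff.mpr hG0
  have hqdne : polyIncl A qd ≠ 0 := fun h => hqdL (by rw [h, eval_zero])
  have hp0 : polyIncl A p ≠ 0 := fun h => mul_ne_zero hN0
    ((map_ne_zero_iff _ (RatFunc.algebraMap_injective L)).mpr hqdne)
    (hpq.trans (by rw [ratIncl, RingHom.comp_apply, h, map_zero]))
  -- At `0` its order is at least `R`, being a sum of orders over the places above.
  have hge' : (R : ℤ) ≤ (placeAtPt (0 : L)).ord (Algebra.norm (RatFunc L) (G : E)) := by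
    rw [EichlerShimura.ord_norm_eq _ hG0]
    refine hGord.trans (Finset.single_le_sum (f := fun w : Place L E => w.ord (G : E))
      (fun w hw => ord_nonneg w (mem_place_of_isIntegral (Place.mem_fiber.mp hw)
        (isIntegral_mono (Lam_le_Loc (T := {(0 : Kappa A)}) hc0) (mem_Rint.mp G.2))))
      (Place.mem_fiber.mpr hP))
  have h1 := congrArg (placeAtPt (0 : L)).ord hpq
  rw [ratIncl, RingHom.comp_apply, RingHom.comp_apply,
    (placeAtPt (0 : L)).ord_mul hN0
      ((map_ne_zero_iff _ (RatFunc.algebraMap_injective L)).mpr hqdne),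
    ord_placeAtPt_algebraMap _ hp0,
    ord_placeAtPt_algebraMap _ hqdne, rootMultiplicity_eq_zero hqdL, Nat.cast_zero, add_zero] at h1
  rw [h1, Nat.cast_le, le_rootMultiplicity_iff hp0, map_zero, sub_zero, X_pow_dvd_iff] at hge'
  -- So `X ^ R` divides the reduced numerator, hence `q`.
  have hdvd : X ^ R ∣ polyBar A p := X_pow_dvd_iff.mpr fun i hi => by
    have h := hge' i hi
    rw [coeff_polyIncl] at h
    rw [coeff_polyBar, show p.coeff i = 0 from Subtype.ext h, map_zero]
  rw [← hpb] at hdvd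
  have hcop : IsCoprime ((X : (Kappa A)[X]) ^ R) (polyBar A qd) := by
    refine IsCoprime.pow_left ((prime_X (R := Kappa A)).irreducible.coprime_iff_not_dvd.mpr ?_)
    rw [X_dvd_iff, coeff_zero_eq_eval_zero]
    exact hqd0
  exact hcop.dvd_of_dvd_mul_right hdvd

/-! ## Lifting near a marked point -/

omit [IsAlgClosed (Kappa A)] in
/-- If the idempotents lift near `0`, some idempotent `≠ 0, 1` takes the value `1` at the given
place over `0` and cuts out a field. -/
private theorem exists_marked_field_idem (M : Model A ι E Eb) {P : Place L E}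
    (hc0 : residue A (0 : A) = 0) (hP : P.restrict (RatFunc L) = placeAtPt ((0 : A) : L))
    (hfin : IdemLiftAt M 0) {e₀ : Eb} (he₀ : IsIdempotentElem e₀) (h0 : e₀ ≠ 0) (h1 : e₀ ≠ 1) :
    ∃ e : Eb, IsIdempotentElem e ∧ e ≠ 1 ∧ e ≠ 0 ∧
      (∀ Y, M.redT {0} Y = e → residue A (valHom hc0 hP Y) = 1) ∧
      ∀ z, e * z = z → z ≠ 0 → IsUnit (z + (1 - e)) := by
  have := M.finite'
  have : IsReduced Eb := isReduced_of_discr_ne_zero M.bb M.disc_ne
  have : IsArtinianRing Eb := IsArtinianRing.of_finite (RatFunc (Kappa A)) Eb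
  let χ : Rint E ({(0 : Kappa A)} : Set (Kappa A)) →+* Kappa A :=
    (residue A).comp (valHom hc0 hP)
  have hχ : ∀ Y Y', M.redT {0} Y = M.redT {0} Y' → χ Y = χ Y' := fun Y Y' h =>
    sub_eq_zero.mp (by
      rw [← map_sub]
      exact residue_valHom_eq_zero M hc0 hP (by rw [map_sub, h, sub_self]))
  let Good : Eb → Prop := fun e => ∃ Y, M.redT {0} Y = e ∧ χ Y = 1
  have hG0 : ¬ Good 0 := by
    rintro ⟨Y, hY, hY1⟩
    rw [hχ Y 0 (hY.trans (map_zero _).symm), map_zero] at hY1
    exact zero_ne_one hY1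
  have hsplit : ∀ e e', IsIdempotentElem e → IsIdempotentElem e' → e * e' = e' → Good e →
      Good e' ∨ Good (e - e') := by
    rintro e e' - he' - ⟨Y, hY, hY1⟩
    obtain ⟨Y', hY'⟩ := hfin e' he'
    have h2 : χ Y' * χ Y' = χ Y' := by
      rw [← map_mul]; exact hχ _ _ (by rw [map_mul, hY', he'])
    rcases eq_or_ne (χ Y') 0 with h | h
    · exact Or.inr ⟨Y - Y', by rw [map_sub, hY, hY'], by rw [map_sub, hY1, h, sub_zero]⟩
    · exact Or.inl ⟨Y', hY', mul_left_cancel₀ h (by rw [h2, mul_one])⟩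
  have hone : Good 1 := ⟨1, map_one _, map_one _⟩
  obtain ⟨e₁, he₁, he₁1, he₁G⟩ : ∃ e₁, IsIdempotentElem e₁ ∧ e₁ ≠ 1 ∧ Good e₁ := by
    rcases hsplit 1 e₀ IsIdempotentElem.one he₀ (one_mul _) hone with h | h
    · exact ⟨e₀, he₀, h1, h⟩
    · exact ⟨1 - e₀, he₀.one_sub, fun h' => h0 (sub_eq_self.mp h'), h⟩
  obtain ⟨e, he, he1, he0, ⟨Y₀, hY₀, hY₀1⟩, hunit⟩ :=
    exists_field_idem Good hG0 hsplit he₁ he₁1 he₁G
  exact ⟨e, he, he1, he0, fun Y hY => (hχ Y Y₀ (hY.trans hY₀.symm)).trans hY₀1, hunit⟩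

omit [IsFunctionField L E] [FiniteDimensional (RatFunc L) E] [Algebra L E]
  [IsScalarTower L (RatFunc L) E] [IsAlgClosed L] [DecidableEq ι] in
/-- The norm of `z + (1 - e)`, for `z` in the factor of `e` integral at finite points and with a
pole of order at most `n` at infinity, is a nonzero polynomial of degree at most `n * r`. -/
private theorem exists_norm_eq_polynomial (M : Model A ι E Eb) {e : Eb} (he : IsIdempotentElem e)
    {r : ℕ} (hnorm : ∀ a : RatFunc (Kappa A), Algebra.norm (RatFunc (Kappa A))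
      (a • e + (1 - e)) = a ^ r)
    {z : Eb} {n : ℕ} (hge : e * z = z) (hu : IsUnit (z + (1 - e)))
    (hzfin : ∀ t : Kappa A, IsIntegral (Loc t).toSubring z)
    (hzinf : IsIntegral (Loc (0 : Kappa A)).toSubring
      (flipRing Eb ((algebraMap (RatFunc (Kappa A)) Eb (RatFunc.X)⁻¹) ^ n * z))) :
    ∃ q : (Kappa A)[X], q ≠ 0 ∧
      Algebra.norm (RatFunc (Kappa A)) (z + (1 - e)) = algebraMap _ _ q ∧
      q.natDegree ≤ n * r := by
  have := M.finite'
  have := M.flip.finite'
  set xb : Eb := algebraMap (RatFunc (Kappa A)) Eb (RatFunc.X)⁻¹ with hxb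
  set Nz := Algebra.norm (RatFunc (Kappa A)) (z + (1 - e)) with hNz
  have hNfin : ∀ t : Kappa A, Nz ∈ Loc t := fun t =>
    norm_mem (ValuationSubring.intClosedIn (Loc t))
      ((hzfin t).add (isIntegral_idempotent _ he.one_sub))
  have hNq := denom_eq_one_of_forall_mem_Loc hNfin
  refine ⟨Nz.num, fun h => (hu.map (Algebra.norm (RatFunc (Kappa A)))).ne_zero (by
    show Nz = 0
    rw [hNq, h, map_zero]), hNq, natDegree_le_of_invX_mem ?_⟩
  have h1 : IsIntegral (Loc (0 : Kappa A)).toSubring (flipRing Eb (xb ^ n * z + (1 - e))) := by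
    rw [map_add]
    exact hzinf.add (isIntegral_idempotent _ (he.one_sub.map (flipRing Eb)))
  have h2 := norm_mem (ValuationSubring.intClosedIn (Loc (0 : Kappa A))) h1
  rw [norm_flipped M.bb, show xb ^ n * z + (1 - e) =
    ((RatFunc.X : RatFunc (Kappa A))⁻¹ ^ n • e + (1 - e)) * (z + (1 - e)) by
      rw [Algebra.smul_def, map_pow, ← hxb]
      linear_combination (1 - xb ^ n) * hge + (xb ^ n - 1) * he.eq,
    map_mul, hnorm, ← hNz, hNq, map_mul, map_pow, map_pow, map_inv₀, invX_X, inv_inv,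
    ← pow_mul] at h2
  exact h2

omit [IsAlgClosed (Kappa A)] in
/-- If `γ • g = Z * y` with `y` vanishing to order `R` at the place and `Z` lifting the idempotent
`e` with value `1` there, then `g + (a - Z) ^ R`, for the value `a` of `Z`, lifts `red g + (1 - e)`
and vanishes to order `R`. -/
private theorem exists_vanishing_lift [Nontrivial Eb] (M : Model A ι E Eb) {P : Place L E}
    (hc0 : residue A (0 : A) = 0) (hP : P.restrict (RatFunc L) = placeAtPt ((0 : A) : L))
    {e : Eb} (he : IsIdempotentElem e) {Z : Rint E ({(0 : Kappa A)} : Set (Kappa A))}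
    (hZ : M.redT {0} Z = e) (hZ1 : residue A (valHom hc0 hP Z) = 1) {γ : L} (hγ : γ ≠ 0)
    {g : M.S} (hgR : (g : E) ∈ Rint E ({(0 : Kappa A)} : Set (Kappa A))) {y : E}
    (hg : cst E γ * (g : E) = (Z : E) * y) {R : ℕ} (hR : 0 < R) (hy : y ∈ ordGe P R)
    (hu : IsUnit (M.red g + (1 - e))) :
    ∃ G : Rint E ({(0 : Kappa A)} : Set (Kappa A)), (G : E) ≠ 0 ∧
      M.redT {0} G = M.red g + (1 - e) ∧ (R : ℤ) ≤ P.ord (G : E) := by
  obtain ⟨R', rfl⟩ : ∃ R', R = R' + 1 := ⟨R - 1, by omega⟩
  set a := valHom hc0 hP Z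
  let aR : Rint E ({(0 : Kappa A)} : Set (Kappa A)) :=
    ⟨cst E (a : L), algebraMap_mem_Rint (C_mem_Lam a.2 _)⟩
  set G : Rint E ({(0 : Kappa A)} : Set (Kappa A)) := ⟨_, hgR⟩ + (aR - Z) ^ (R' + 1) with hG
  have hGred : M.redT {0} G = M.red g + (1 - e) := by
    rw [hG, map_add, map_pow, map_sub, hZ, show M.redT {0} aR = 1 by
      refine (red_cst M a.2).trans ?_
      rw [show (⟨(a : L), a.2⟩ : A) = a from rfl, hZ1, map_one],
      he.one_sub.pow_succ_eq]
    rfl
  have hG0 : (G : E) ≠ 0 := fun h => hu.ne_zero (by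
    rw [← hGred, show G = 0 from Subtype.ext h, map_zero])
  refine ⟨G, hG0, hGred, le_ord_of_mem_ordGe P hG0 ?_⟩
  rw [hG]
  refine add_mem ?_ ?_
  · show (g : E) ∈ _
    rw [show (g : E) = cst E γ⁻¹ * ((Z : E) * y) by
      rw [← hg, ← mul_assoc, ← map_mul, inv_mul_cancel₀ hγ, map_one, one_mul], cst_eq_algebraMap,
      ← Algebra.smul_def]
    refine Submodule.smul_mem _ _ ?_
    simpa using mul_mem_ordGe P ((mem_ordGe_zero P).mpr (Model.mem_place_of_Rint hc0 hP Z.2)) hy
  · show ((aR : E) - (Z : E)) ^ (R' + 1) ∈ _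
    have h1 : (aR : E) - (Z : E) ∈ ordGe P 1 := by
      rw [← neg_sub]
      refine neg_mem ?_
      show (Z : E) - cst E (a : L) ∈ _
      rw [cst_eq_algebraMap]
      exact sub_valHom_mem hc0 hP Z
    simpa using pow_mem_ordGe P h1 (R' + 1)

/-! ## Connectedness -/

omit [FiniteDimensional (RatFunc L) E] in
/-- **Connectedness of the reduction.** -/
theorem idem_eq_zero_or_one (M : Model A ι E Eb) (harch : IsArchVal A)
    (hfin : ∀ t : Kappa A, IdemLiftAt M t) (hinf : IdemLiftAt M.flip 0) {e₀ : Eb}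
    (he₀ : IsIdempotentElem e₀) : e₀ = 0 ∨ e₀ = 1 := by
  by_contra! hne₀
  have := M.finite
  obtain ⟨P, hP⟩ := exists_restrict_eq (F' := E) (placeAtPt (0 : L))
  have hc0 : residue A (0 : A) = 0 := map_zero _
  have hP' : P.restrict (RatFunc L) = placeAtPt ((0 : A) : L) := hP
  obtain ⟨e, he, he1, he0, hval, hunit⟩ :=
    exists_marked_field_idem M hc0 hP' (hfin 0) he₀ hne₀.1 hne₀.2
  have := M.finite'
  have : Nontrivial Eb := ⟨⟨e₀, 0, hne₀.1⟩⟩
  obtain ⟨r, hr, hnorm⟩ := exists_norm_smul_add (K := RatFunc (Kappa A)) e he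
  have hrd : r < Fintype.card ι := by
    rw [← Module.finrank_eq_card_basis M.bb]; exact hr he1
  obtain ⟨s, hs⟩ := exists_high_order M hP
  set d := Fintype.card ι with hd
  set m := (d - 1) * s + 1 with hm
  set n := m + s with hn
  set R := n * (d - 1) + 1 with hR
  obtain ⟨y, hy0, hyfin, hyinf, hyord⟩ := hs m R (by
    obtain ⟨d', hd'⟩ : ∃ d', d = d' + 1 := ⟨d - 1, by omega⟩
    rw [hR, hn, hm, hd', Nat.add_sub_cancel]
    ring_nf
    nlinarith)
  -- the part of `y` in the factor of `e`, over `t = 0`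
  obtain ⟨Z₀, hZ₀⟩ := hfin 0 e he
  obtain ⟨Z₀', γ, g, hγ, hZ₀R, hZ₀red, hg, hgne, hge⟩ :=
    exists_part M harch (M.incl {0} Z₀) (by rw [show M.red _ = e from hZ₀]; exact he)
      (by rw [show M.red _ = e from hZ₀]; exact he0) hy0
  rw [show M.red (M.incl {0} Z₀) = e from hZ₀] at hZ₀red hge
  -- the norm of its reduction is a polynomial of small degree
  have hu : IsUnit (M.red g + (1 - e)) := hunit _ hge hgne
  obtain ⟨q, hq0, hNq, hdeg⟩ := exists_norm_eq_polynomial (n := n) M he hnorm hge hu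
    (fun t => isIntegral_red_part M harch he he0 (hfin t) hy0 hyfin hγ hg hZ₀red hge)
    (isIntegral_red_part_infty M harch he he0 hinf hy0 hyfin hyinf hγ hg hZ₀red hge)
  -- but it vanishes to high order
  have hgR : (g : E) ∈ Rint E ({(0 : Kappa A)} : Set (Kappa A)) :=
    mem_Rint_of_cst_mul_eq M hγ hg fun c hc => (isIntegral_mono (Lam_le_Loc (T := {0}) hc)
      (mem_Rint.mp (hZ₀R (Rint E {0}) Z₀.2))).mul (hyfin _)
  obtain ⟨G, hG0, hGred, hGord⟩ := exists_vanishing_lift M hc0 hP' he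
    (Z := ⟨_, hZ₀R (Rint E {0}) Z₀.2⟩) hZ₀red (hval _ hZ₀red) hγ hgR hg (R := R) (by omega)
    hyord hu
  have hlast := natDegree_le_of_dvd
    (X_pow_dvd_norm_red M hP hG0 hGord (q := q) (by rw [hGred, hNq])) hq0
  rw [natDegree_X_pow] at hlast
  have : n * r ≤ n * (d - 1) := Nat.mul_le_mul_left n (by omega)
  omega

end Fermat.Agent.DeligneSerre
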