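import Mathlib.Analysis.SpecialFunctions.Integrals.Basic
import Mathlib.Analysis.SpecialFunctions.Log.Basic
import Mathlib.Analysis.PSeries
import Mathlib.NumberTheory.ModularForms.Bounds
import Fermat.Agent.DeligneSerre.Deplete

/-!
# The mean square of the coefficients of a weight one form

`∑_{n<X} |a_n|² = O(X)` (`exists_sum_sq_le`); hence, through the Euler product, for a normalised
eigenform `∑ |a_p|² p^{-s}`, over the primes not dividing the level, is at most
`log 1/(s-1) + O(1)` when `|a_p| ≤ 2` (`exists_sum_primes_le_of_bounded`).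
-/

set_option autoImplicit false

noncomputable section

open Complex CongruenceSubgroup ModularFormClass Filter
open UpperHalfPlane hiding I
open scoped Real ComplexConjugate

namespace Fermat.Agent.DeligneSerre

variable {N : ℕ} [NeZero N]

/-! ## The mean square -/

theorem integral_exp_two_pi_int (k : ℤ) :
    ∫ u in (0 : ℝ)..1, exp (2 * π * I * k * u) = if k = 0 then (1 : ℂ) else 0 := by
  split_ifs with h
  · subst h; simp
  · have hc : (2 * π * I * k : ℂ) ≠ 0 := mul_ne_zero two_pi_I_ne_zero (Int.cast_ne_zero.2 h)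
    rw [integral_exp_mul_complex hc, ofReal_one, mul_one, ofReal_zero, mul_zero, exp_zero,
      show (2 * π * I * k : ℂ) = k * (2 * π * I) by ring, exp_int_mul_two_pi_mul_I, sub_self,
      zero_div]

/-- Parseval for a trigonometric polynomial in `exp (-2 π i n u)`. -/
private theorem integral_norm_sq_expSum (s : Finset ℕ) (w : ℕ → ℂ) :
    ∫ u in (0 : ℝ)..1, ‖∑ n ∈ s, w n * exp (2 * π * I * (-(n : ℤ) : ℤ) * u)‖ ^ 2 =
      ∑ n ∈ s, ‖w n‖ ^ 2 := by
  rw [← ofReal_inj, ← intervalIntegral.integral_ofReal]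
  have e : ∀ u : ℝ, ((‖∑ n ∈ s, w n * exp (2 * π * I * (-(n : ℤ) : ℤ) * u)‖ ^ 2 : ℝ) : ℂ) =
      ∑ n ∈ s, ∑ m ∈ s, conj (w n) * w m * exp (2 * π * I * ((n : ℤ) - m : ℤ) * u) := by
    intro u
    rw [ofReal_pow, ← conj_mul']
    simp only [map_sum, map_mul, Finset.sum_mul, Finset.mul_sum, ← exp_conj]
    rw [Finset.sum_comm]
    refine Finset.sum_congr rfl fun n _ => Finset.sum_congr rfl fun m _ => ?_
    simp only [conj_I, conj_ofReal, map_intCast, map_ofNat]
    rw [mul_mul_mul_comm, ← exp_add]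
    congr 2
    push_cast
    ring
  simp_rw [e]
  rw [intervalIntegral.integral_finsetSum fun n _ => (by fun_prop : Continuous _
    ).intervalIntegrable _ _]
  rw [ofReal_sum]
  refine Finset.sum_congr rfl fun n hn => ?_
  rw [intervalIntegral.integral_finsetSum fun m _ => (by fun_prop : Continuous _
    ).intervalIntegrable _ _]
  simp only [intervalIntegral.integral_const_mul, integral_exp_two_pi_int, sub_eq_zero,
    Int.natCast_inj, mul_ite, mul_one, mul_zero, Finset.sum_ite_eq, hn, if_true]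
  rw [conj_mul', ofReal_pow]

omit [NeZero N] in
/-- The coefficient `a_n` from the values of `f` at height `y`, with `r = exp (-2 π y)`. -/
private theorem integral_exp_mul_eq (f : CuspForm (Gamma1 N) 1) {y : ℝ} (hy0 : 0 < y) {r : ℝ}
    (hr : r = Real.exp (-2 * π * y)) (pt : ℝ → ℍ) (hpt : ∀ u : ℝ, (pt u : ℂ) = u + y * I)
    (n : ℕ) :
    ∫ u in (0 : ℝ)..1, exp (2 * π * I * (-(n : ℤ) : ℤ) * u) * f (pt u)
      = (r : ℂ) ^ n * qCoeff f n := by
  have hr0 : 0 < r := hr ▸ Real.exp_pos _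
  obtain rfl : pt = fun u : ℝ => ⟨u + y * I, by simp [hy0]⟩ :=
    funext fun u => UpperHalfPlane.ext (hpt u)
  have h := ModularFormClass.qExpansion_coeff_eq_intervalIntegral f one_pos
    (one_mem_strictPeriods_gamma1 (N := N)) n hy0
  rw [qCoeff, h, ofReal_one, div_one, one_mul, ← intervalIntegral.integral_const_mul]
  refine intervalIntegral.integral_congr fun u _ => ?_
  show _ = (r : ℂ) ^ n *
    (1 / Function.Periodic.qParam 1 (u + y * I : ℂ) ^ n * f ⟨u + y * I, by simp [hy0]⟩)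
  have hq : (r : ℂ) ^ n * exp (2 * π * I * (n : ℂ) * u)
      = Function.Periodic.qParam 1 (u + y * I : ℂ) ^ n := by
    rw [Function.Periodic.qParam, hr, ofReal_exp, ← exp_nat_mul, ← exp_nat_mul, ← exp_add]
    congr 1
    push_cast
    linear_combination (-2 * π * y * n : ℂ) * I_sq
  rw [← hq, show ((-(n : ℤ) : ℤ) : ℂ) = -(n : ℂ) by push_cast; rfl,
    show (2 * π * I * -(n : ℂ) * u) = -(2 * π * I * (n : ℂ) * u) by ring, exp_neg]
  have : (r : ℂ) ≠ 0 := ofReal_ne_zero.2 hr0.ne'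
  field_simp

/-- `∑_{n<X} |a_n|² = O(X)`. -/
theorem exists_sum_sq_le (f : CuspForm (Gamma1 N) 1) :
    ∃ C : ℝ, 0 < C ∧ ∀ X : ℕ, 1 ≤ X → ∑ n ∈ Finset.range X, ‖qCoeff f n‖ ^ 2 ≤ C * X := by
  obtain ⟨C₀, hC₀⟩ := CuspFormClass.petersson_bounded_left (1 : ℤ) _ f f
  have hb : ∀ τ : ℍ, τ.im * ‖f τ‖ ^ 2 ≤ C₀ := fun τ => by
    have h := hC₀ τ
    simp [petersson, abs_of_pos τ.im_pos] at h
    nlinarith
  refine ⟨(|C₀| + 1) * Real.exp (4 * π), by positivity, fun X hX => ?_⟩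
  have hX0 : (0 : ℝ) < X := by exact_mod_cast hX
  -- Parseval at height `y = 1/X`: pair `f` with the truncation `P` of its Fourier series, whose
  -- mean square is `A`. As `y |f|² ≤ C₀` this gives `A ≤ (|C₀| + 1) X`, and `r ^ n` is bounded
  -- below for `n < X`.
  set y : ℝ := 1 / X with hy
  have hy0 : 0 < y := by positivity
  set r : ℝ := Real.exp (-2 * π * y) with hr
  have hr0 : 0 < r := Real.exp_pos _
  set w : ℕ → ℂ := fun n => conj (qCoeff f n) * (r : ℂ) ^ n with hw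
  set P : ℝ → ℂ := fun u => ∑ n ∈ Finset.range X, w n * exp (2 * π * I * (-(n : ℤ) : ℤ) * u) with hP
  let pt : ℝ → ℍ := fun u => ⟨u + y * I, by simp [hy0]⟩
  have hpt : Continuous pt :=
    continuous_induced_rng.2 (by fun_prop : Continuous fun u : ℝ => (u : ℂ) + y * I)
  have hfc : Continuous fun u => f (pt u) := (CuspFormClass.holo f).continuous.comp hpt
  have hPc : Continuous P := by
    apply continuous_finsetSum
    intro n _
    fun_prop
  set A : ℝ := ∑ n ∈ Finset.range X, ‖qCoeff f n‖ ^ 2 * (r ^ n) ^ 2 with hA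
  have hcoeff : ∀ n : ℕ, ∫ u in (0 : ℝ)..1, exp (2 * π * I * (-(n : ℤ) : ℤ) * u) * f (pt u)
      = (r : ℂ) ^ n * qCoeff f n := integral_exp_mul_eq f hy0 hr pt fun _ => rfl
  have hPf : ∫ u in (0 : ℝ)..1, P u * f (pt u) = (A : ℂ) := by
    simp only [hP, Finset.sum_mul, mul_assoc (w _)]
    rw [intervalIntegral.integral_finsetSum fun n _ => (by fun_prop : Continuous fun u : ℝ =>
      w n * (exp (2 * π * I * (-(n : ℤ) : ℤ) * u) * f (pt u))).intervalIntegrable _ _]
    simp only [intervalIntegral.integral_const_mul, hcoeff, hA, ofReal_sum]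
    refine Finset.sum_congr rfl fun n _ => ?_
    push_cast
    rw [← conj_mul' (qCoeff f n), hw]
    ring
  have hPP : ∫ u in (0 : ℝ)..1, ‖P u‖ ^ 2 = A := by
    rw [hP, integral_norm_sq_expSum, hA]
    exact Finset.sum_congr rfl fun n _ => by simp [hw, abs_of_pos hr0, mul_pow]
  -- comparison
  have hfsq : ∀ u, ‖f (pt u)‖ ^ 2 ≤ (|C₀| + 1) * X := by
    intro u
    have h := hb (pt u)
    have hy' : (pt u).im = 1 / X := by
      show ((u : ℂ) + y * I).im = 1 / X
      simp [hy]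
    rw [hy', div_mul_eq_mul_div, one_mul, div_le_iff₀ hX0] at h
    nlinarith [le_abs_self C₀]
  have hAle : A ≤ (|C₀| + 1) * X := by
    have h1 : A ≤ ∫ u in (0 : ℝ)..1, (‖P u‖ ^ 2 + (|C₀| + 1) * X) / 2 := by
      calc A = ‖∫ u in (0 : ℝ)..1, P u * f (pt u)‖ := by
            rw [hPf, norm_real, Real.norm_of_nonneg]
            exact Finset.sum_nonneg fun n _ => by positivity
        _ ≤ ∫ u in (0 : ℝ)..1, ‖P u * f (pt u)‖ :=
            intervalIntegral.norm_integral_le_integral_norm zero_le_one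
        _ ≤ _ := by
            refine intervalIntegral.integral_mono_on zero_le_one
              ((hPc.mul hfc).norm.intervalIntegrable _ _)
              ((((hPc.norm.pow 2).add continuous_const).div_const _).intervalIntegrable _ _)
              fun u _ => ?_
            rw [norm_mul]
            nlinarith [hfsq u, sq_nonneg (‖P u‖ - ‖f (pt u)‖)]
    rw [intervalIntegral.integral_div, intervalIntegral.integral_add
      ((hPc.norm.fun_pow 2).intervalIntegrable _ _) intervalIntegrable_const,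
      hPP, intervalIntegral.integral_const] at h1
    simp at h1
    linarith
  calc ∑ n ∈ Finset.range X, ‖qCoeff f n‖ ^ 2
      ≤ ∑ n ∈ Finset.range X, ‖qCoeff f n‖ ^ 2 * (r ^ n) ^ 2 * Real.exp (4 * π) := by
        refine Finset.sum_le_sum fun n hn => ?_
        rw [mul_assoc]
        refine le_mul_of_one_le_right (sq_nonneg _) ?_
        rw [hr, ← Real.exp_nat_mul, ← Real.exp_nat_mul, ← Real.exp_add, Real.one_le_exp_iff]
        have hn' : (n : ℝ) * y ≤ 1 := by
          rw [hy, mul_one_div, div_le_one hX0]; exact_mod_cast (Finset.mem_range.1 hn).le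
        push_cast
        nlinarith [Real.pi_pos]
    _ = A * Real.exp (4 * π) := by rw [hA, Finset.sum_mul]
    _ ≤ _ := by
      calc A * Real.exp (4 * π) ≤ (|C₀| + 1) * X * Real.exp (4 * π) :=
            mul_le_mul_of_nonneg_right hAle (Real.exp_pos _).le
        _ = _ := by ring

/-- Partial sums of the Dirichlet series of a sequence with `O(X)` partial sums. -/
theorem sum_rpow_le {b : ℕ → ℝ} (hb : ∀ n, 0 ≤ b n) {C : ℝ} (hC : 0 < C)
    (h : ∀ X : ℕ, 1 ≤ X → ∑ n ∈ Finset.range X, b n ≤ C * X) (T : Finset ℕ) (hT : 0 ∉ T)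
    {s : ℝ} (hs : 1 < s) (hs2 : s ≤ 2) :
    ∑ n ∈ T, b n * (n : ℝ) ^ (-s) ≤ 8 * C / (s - 1) := by
  set t := s - 1 with ht
  have ht0 : 0 < t := by linarith
  set q : ℝ := (2 : ℝ) ^ (-t) with hq
  have hq0 : 0 < q := Real.rpow_pos_of_pos two_pos _
  have hl : (1 : ℝ) / 2 ≤ Real.log 2 := by linarith [Real.log_two_gt_d9]
  have hq1 : 1 - q ≥ t / 4 := by
    have h1 : q ≤ 1 / (1 + t * Real.log 2) := by
      rw [hq, Real.rpow_def_of_pos two_pos, show Real.log 2 * -t = -(t * Real.log 2) by ring,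
        Real.exp_neg, one_div]
      exact inv_anti₀ (by positivity) (by linarith [Real.add_one_le_exp (t * Real.log 2)])
    have h2 : 1 / (1 + t * Real.log 2) ≤ 1 - t / 4 := by
      rw [div_le_iff₀ (by positivity)]
      have h3 : t * Real.log 2 ≤ Real.log 2 := mul_le_of_le_one_left (by linarith) (by linarith)
      nlinarith [mul_nonneg ht0.le (show 0 ≤ Real.log 2 - 1 / 4 - t * Real.log 2 / 4 by linarith)]
    linarith
  -- The dyadic block `2^j ≤ n < 2^(j+1)` contributes at most `2 C q^j` with `q = 2^(1-s)`, and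
  -- `1 - q ≥ (s-1)/4`.
  have hblock : ∀ j : ℕ, ∑ n ∈ T.filter (fun n => Nat.log 2 n = j), b n * (n : ℝ) ^ (-s)
      ≤ 2 * C * q ^ j := by
    intro j
    calc ∑ n ∈ T.filter (fun n => Nat.log 2 n = j), b n * (n : ℝ) ^ (-s)
        ≤ ∑ n ∈ T.filter (fun n => Nat.log 2 n = j), b n * ((2 : ℝ) ^ j) ^ (-s) := by
          refine Finset.sum_le_sum fun n hn => ?_
          rw [Finset.mem_filter] at hn
          have hn0 : n ≠ 0 := fun h => hT (h ▸ hn.1)
          refine mul_le_mul_of_nonneg_left (Real.rpow_le_rpow_of_nonpos (by positivity) ?_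
            (by linarith)) (hb n)
          rw [← hn.2]
          exact_mod_cast Nat.pow_log_le_self 2 hn0
      _ ≤ ∑ n ∈ Finset.range (2 ^ (j + 1)), b n * ((2 : ℝ) ^ j) ^ (-s) := by
          refine Finset.sum_le_sum_of_subset_of_nonneg (fun n hn => ?_)
            fun n _ _ => mul_nonneg (hb n) (Real.rpow_nonneg (by positivity) _)
          rw [Finset.mem_filter] at hn
          rw [Finset.mem_range, ← hn.2]
          exact Nat.lt_pow_succ_log_self one_lt_two n
      _ ≤ C * 2 ^ (j + 1) * ((2 : ℝ) ^ j) ^ (-s) := by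
          rw [← Finset.sum_mul]
          refine mul_le_mul_of_nonneg_right ?_ (Real.rpow_nonneg (by positivity) _)
          exact_mod_cast h (2 ^ (j + 1)) Nat.one_le_two_pow
      _ = 2 * C * q ^ j := by
          have e : ((2 : ℝ) ^ j) ^ (-s) = q ^ j / (2 : ℝ) ^ j := by
            rw [hq, show -s = -t + -1 by linarith, Real.rpow_add (by positivity),
              Real.rpow_neg_one, ← Real.rpow_natCast_mul two_pos.le, mul_comm (j : ℝ),
              Real.rpow_mul_natCast two_pos.le]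
            rfl
          rw [e, pow_succ]
          field_simp
  have hcover : ∑ n ∈ T, b n * (n : ℝ) ^ (-s)
      = ∑ j ∈ Finset.range (T.sup (Nat.log 2) + 1),
          ∑ n ∈ T.filter (fun n => Nat.log 2 n = j), b n * (n : ℝ) ^ (-s) :=
    (Finset.sum_fiberwise_of_maps_to
      (fun n hn => Finset.mem_range.2 (Nat.lt_succ_of_le (Finset.le_sup hn))) _).symm
  rw [hcover]
  refine (Finset.sum_le_sum fun j _ => hblock j).trans ?_
  rw [← Finset.mul_sum]
  have hgeom : ∑ j ∈ Finset.range (T.sup (Nat.log 2) + 1), q ^ j ≤ 4 / t := by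
    have hq1' : q < 1 := by linarith
    refine ((summable_geometric_of_lt_one hq0.le hq1').sum_le_tsum _
      fun j _ => by positivity).trans ?_
    rw [tsum_geometric_of_lt_one hq0.le hq1', le_div_iff₀ ht0, inv_mul_le_iff₀ (by linarith)]
    linarith
  calc 2 * C * ∑ j ∈ Finset.range (T.sup (Nat.log 2) + 1), q ^ j ≤ 2 * C * (4 / t) :=
        mul_le_mul_of_nonneg_left hgeom (by positivity)
    _ = 8 * C / t := by ring

/-! ## The Euler product -/

theorem prime_not_dvd_prod {p : ℕ} (hp : p.Prime) {S : Finset ℕ} (hS : ∀ q ∈ S, q.Prime)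
    (hpS : p ∉ S) : ¬ p ∣ ∏ q ∈ S, q := by
  intro hd
  obtain ⟨q, hq, hdq⟩ := (Prime.dvd_finsetProd_iff hp.prime _).1 hd
  exact hpS (((Nat.prime_dvd_prime_iff_eq hp (hS q hq)).1 hdq) ▸ hq)

omit [NeZero N] in
theorem coeff_prod_primes {ε : DirichletCharacter ℂ N} {a : ℕ → ℂ} (ha : IsHeckeRecursion ε a)
    (h1 : a 1 = 1) (S : Finset ℕ) (hS : ∀ p ∈ S, p.Prime ∧ ¬ p ∣ N) :
    a (∏ p ∈ S, p) = ∏ p ∈ S, a p := by
  induction S using Finset.induction_on with
  | empty => simpa using h1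
  | @insert p T hp ih =>
    have hT : ∀ q ∈ T, q.Prime ∧ ¬ q ∣ N := fun q hq => hS q (Finset.mem_insert_of_mem hq)
    obtain ⟨hpp, hpN⟩ := hS p (Finset.mem_insert_self p T)
    have hnd : ¬ p ∣ ∏ q ∈ T, q := prime_not_dvd_prod hpp (fun q hq => (hT q hq).1) hp
    have := ha p hpp hpN (∏ q ∈ T, q)
    rw [if_neg hnd, mul_zero, add_zero] at this
    rw [Finset.prod_insert hp, Finset.prod_insert hp, this, ih hT]

/-- The Euler product bound. -/
theorem exists_prod_le (f : CuspForm (Gamma1 N) 1) {ε : DirichletCharacter ℂ N}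
    (hT : IsHeckeRecursion ε (qCoeff f)) (h1 : qCoeff f 1 = 1) :
    ∃ K : ℝ, 1 ≤ K ∧ (∀ p : ℕ, p.Prime → ‖qCoeff f p‖ ^ 2 ≤ K * p) ∧
      ∀ P : Finset ℕ, (∀ p ∈ P, p.Prime ∧ ¬ p ∣ N) → ∀ s : ℝ, 1 < s → s ≤ 2 →
      ∏ p ∈ P, (1 + ‖qCoeff f p‖ ^ 2 * (p : ℝ) ^ (-s)) ≤ K / (s - 1) := by
  classical
  obtain ⟨C, hC, hCb⟩ := exists_sum_sq_le f
  refine ⟨8 * C + 1, by linarith, fun p hp => ?_, fun P hP s hs hs2 => ?_⟩
  -- A single coefficient is bounded by the partial sum of squares.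
  · calc ‖qCoeff f p‖ ^ 2 ≤ ∑ n ∈ Finset.range (p + 1), ‖qCoeff f n‖ ^ 2 :=
          Finset.single_le_sum (fun n _ => sq_nonneg ‖qCoeff f n‖) (Finset.self_mem_range_succ p)
      _ ≤ C * (p + 1 : ℕ) := hCb _ (by omega)
      _ ≤ (8 * C + 1) * p := by
          have : (1 : ℝ) ≤ p := by exact_mod_cast hp.one_le
          push_cast
          nlinarith
  -- Expanded, the product is a partial Dirichlet series of `|a n| ^ 2` over squarefree `n`.
  · rw [Finset.prod_one_add]
    have hinj : Set.InjOn (fun S : Finset ℕ => ∏ p ∈ S, p) (P.powerset : Set (Finset ℕ)) := by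
      intro S hS T hT' h
      have hS' := Finset.mem_powerset.1 hS
      have hT'' := Finset.mem_powerset.1 hT'
      have key : ∀ S : Finset ℕ, S ⊆ P → ∀ p ∈ P, p ∈ S ↔ p ∣ ∏ q ∈ S, q := fun S hS p hp =>
        ⟨fun h => Finset.dvd_prod_of_mem _ h, fun h => by_contra fun hn =>
          prime_not_dvd_prod (hP p hp).1 (fun q hq => (hP q (hS hq)).1) hn h⟩
      ext p
      constructor
      · intro hp; rw [key T hT'' p (hS' hp), ← show ∏ q ∈ S, q = ∏ q ∈ T, q from h]
        exact Finset.dvd_prod_of_mem _ hp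
      · intro hp; rw [key S hS' p (hT'' hp), show ∏ q ∈ S, q = ∏ q ∈ T, q from h]
        exact Finset.dvd_prod_of_mem _ hp
    calc ∑ S ∈ P.powerset, ∏ p ∈ S, ‖qCoeff f p‖ ^ 2 * (p : ℝ) ^ (-s)
        = ∑ S ∈ P.powerset, ‖qCoeff f (∏ p ∈ S, p)‖ ^ 2 * ((∏ p ∈ S, p : ℕ) : ℝ) ^ (-s) := by
          refine Finset.sum_congr rfl fun S hS => ?_
          have hS' := Finset.mem_powerset.1 hS
          rw [coeff_prod_primes hT h1 S fun p hp => hP p (hS' hp), norm_prod, ← Finset.prod_pow,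
            Nat.cast_prod, ← Real.finsetProd_rpow _ _ (fun p _ => Nat.cast_nonneg p),
            Finset.prod_mul_distrib]
      _ = ∑ n ∈ P.powerset.image (fun S => ∏ p ∈ S, p), ‖qCoeff f n‖ ^ 2 * (n : ℝ) ^ (-s) :=
          (Finset.sum_image (f := fun n => ‖qCoeff f n‖ ^ 2 * (n : ℝ) ^ (-s)) hinj).symm
      _ ≤ 8 * C / (s - 1) := by
          refine sum_rpow_le (fun n => sq_nonneg _) hC hCb _ (fun h0 => ?_) hs hs2
          obtain ⟨S, hS, hS0⟩ := Finset.mem_image.1 h0
          obtain ⟨p, hp, hp0⟩ := Finset.prod_eq_zero_iff.1 hS0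
          exact (hP p (Finset.mem_powerset.1 hS hp)).1.ne_zero hp0
      _ ≤ (8 * C + 1) / (s - 1) := by
          gcongr
          linarith

/-! ## The sum over the primes -/

/-- `∑ |a_p|² p^{-s} = O(log 1/(s-1))`. -/
theorem exists_sum_primes_le (f : CuspForm (Gamma1 N) 1) {ε : DirichletCharacter ℂ N}
    (hT : IsHeckeRecursion ε (qCoeff f)) (h1 : qCoeff f 1 = 1) :
    ∃ K : ℝ, 0 ≤ K ∧ ∀ P : Finset ℕ, (∀ p ∈ P, p.Prime ∧ ¬ p ∣ N) → ∀ s : ℝ, 1 < s → s ≤ 2 →
      ∑ p ∈ P, ‖qCoeff f p‖ ^ 2 * (p : ℝ) ^ (-s) ≤ K * (1 - Real.log (s - 1)) := by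
  obtain ⟨K, hK, hK1, hK2⟩ := exists_prod_le f hT h1
  refine ⟨(1 + K) * (Real.log K + 1), by have := Real.log_nonneg hK; positivity,
    fun P hP s hs hs2 => ?_⟩
  have hlog : 0 ≤ -Real.log (s - 1) := by
    have := Real.log_nonpos (by linarith : (0 : ℝ) ≤ s - 1) (by linarith)
    linarith
  have hx : ∀ p ∈ P, ‖qCoeff f p‖ ^ 2 * (p : ℝ) ^ (-s)
      ≤ (1 + K) * Real.log (1 + ‖qCoeff f p‖ ^ 2 * (p : ℝ) ^ (-s)) := by
    intro p hp
    set x := ‖qCoeff f p‖ ^ 2 * (p : ℝ) ^ (-s) with hxdef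
    have hx0 : 0 ≤ x := by positivity
    have hp1 : (1 : ℝ) ≤ p := by exact_mod_cast (hP p hp).1.one_le
    have hxK : x ≤ K := by
      calc x ≤ ‖qCoeff f p‖ ^ 2 * (p : ℝ) ^ (-1 : ℝ) :=
            mul_le_mul_of_nonneg_left (Real.rpow_le_rpow_of_exponent_le hp1 (by linarith))
              (sq_nonneg _)
        _ ≤ K := by
            rw [Real.rpow_neg_one, ← div_eq_mul_inv, div_le_iff₀ (by linarith)]
            exact hK1 p (hP p hp).1
    have hl : x / (1 + x) ≤ Real.log (1 + x) := by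
      have := Real.one_sub_inv_le_log_of_pos (by linarith : (0 : ℝ) < 1 + x)
      calc x / (1 + x) = 1 - (1 + x)⁻¹ := by field_simp; ring
        _ ≤ _ := this
    rw [div_le_iff₀ (by linarith)] at hl
    nlinarith [Real.log_nonneg (by linarith : (1 : ℝ) ≤ 1 + x)]
  calc ∑ p ∈ P, ‖qCoeff f p‖ ^ 2 * (p : ℝ) ^ (-s)
      ≤ (1 + K) * Real.log (∏ p ∈ P, (1 + ‖qCoeff f p‖ ^ 2 * (p : ℝ) ^ (-s))) := by
        rw [Real.log_prod fun p _ => by positivity, Finset.mul_sum]
        exact Finset.sum_le_sum hx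
    _ ≤ (1 + K) * Real.log (K / (s - 1)) := by
        refine mul_le_mul_of_nonneg_left (Real.log_le_log ?_ (hK2 P hP s hs hs2)) (by linarith)
        exact Finset.prod_pos fun p _ => by positivity
    _ ≤ _ := by
        rw [Real.log_div (by linarith) (by linarith), mul_assoc]
        refine mul_le_mul_of_nonneg_left ?_ (by linarith)
        nlinarith [Real.log_nonneg hK]

/-- For bounded eigenvalues, `∑ |a_p|² p^{-s} ≤ log 1/(s-1) + O(1)`. -/
theorem exists_sum_primes_le_of_bounded (f : CuspForm (Gamma1 N) 1)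
    {ε : DirichletCharacter ℂ N} (hT : IsHeckeRecursion ε (qCoeff f)) (h1 : qCoeff f 1 = 1)
    (hb : ∀ p : ℕ, p.Prime → ¬ p ∣ N → ‖qCoeff f p‖ ≤ 2) :
    ∃ K : ℝ, ∀ P : Finset ℕ, (∀ p ∈ P, p.Prime ∧ ¬ p ∣ N) → ∀ s : ℝ, 1 < s → s ≤ 2 →
      ∑ p ∈ P, ‖qCoeff f p‖ ^ 2 * (p : ℝ) ^ (-s) ≤ K - Real.log (s - 1) := by
  obtain ⟨K, hK, -, hK2⟩ := exists_prod_le f hT h1
  refine ⟨Real.log K + 16 * ∑' n : ℕ, (n : ℝ) ^ (-2 : ℝ), fun P hP s hs hs2 => ?_⟩
  have hx : ∀ p ∈ P, ‖qCoeff f p‖ ^ 2 * (p : ℝ) ^ (-s)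
      ≤ Real.log (1 + ‖qCoeff f p‖ ^ 2 * (p : ℝ) ^ (-s)) + 16 * (p : ℝ) ^ (-2 : ℝ) := by
    intro p hp
    set x := ‖qCoeff f p‖ ^ 2 * (p : ℝ) ^ (-s) with hxdef
    have hx0 : 0 ≤ x := by positivity
    have hp1 : (1 : ℝ) ≤ p := by exact_mod_cast (hP p hp).1.one_le
    have hl : x - x ^ 2 ≤ Real.log (1 + x) := by
      have := Real.one_sub_inv_le_log_of_pos (by linarith : (0 : ℝ) < 1 + x)
      refine le_trans ?_ this
      rw [show 1 - (1 + x)⁻¹ = x / (1 + x) by field_simp; ring, le_div_iff₀ (by linarith)]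
      nlinarith [pow_nonneg hx0 3]
    have hx4 : x ≤ 4 * (p : ℝ) ^ (-1 : ℝ) := by
      refine mul_le_mul ?_ (Real.rpow_le_rpow_of_exponent_le hp1 (by linarith))
        (by positivity) (by norm_num)
      nlinarith [hb p (hP p hp).1 (hP p hp).2, norm_nonneg (qCoeff f p)]
    have hsq : x ^ 2 ≤ 16 * (p : ℝ) ^ (-2 : ℝ) := by
      calc x ^ 2 ≤ (4 * (p : ℝ) ^ (-1 : ℝ)) ^ 2 := pow_le_pow_left₀ hx0 hx4 2
        _ = _ := by
          rw [mul_pow, ← Real.rpow_mul_natCast (by linarith)]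
          norm_num
    linarith
  calc ∑ p ∈ P, ‖qCoeff f p‖ ^ 2 * (p : ℝ) ^ (-s)
      ≤ Real.log (∏ p ∈ P, (1 + ‖qCoeff f p‖ ^ 2 * (p : ℝ) ^ (-s)))
        + 16 * ∑ p ∈ P, (p : ℝ) ^ (-2 : ℝ) := by
        rw [Real.log_prod fun p _ => by positivity, Finset.mul_sum, ← Finset.sum_add_distrib]
        exact Finset.sum_le_sum hx
    _ ≤ Real.log (K / (s - 1)) + 16 * ∑' n : ℕ, (n : ℝ) ^ (-2 : ℝ) := by
        refine add_le_add (Real.log_le_log (Finset.prod_pos fun p _ => by positivity)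
          (hK2 P hP s hs hs2)) (mul_le_mul_of_nonneg_left ?_ (by norm_num))
        exact (Real.summable_nat_rpow.2 (by norm_num)).sum_le_tsum _ fun n _ => by positivity
    _ = _ := by rw [Real.log_div (by linarith) (by linarith)]; ring

end Fermat.Agent.DeligneSerre
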