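import Mathlib.RingTheory.Nullstellensatz
import Mathlib.LinearAlgebra.Matrix.Charpoly.Eigs
import Mathlib.RingTheory.Polynomial.Cyclotomic.Basic
import Mathlib.Topology.Algebra.Polynomial
import Fermat.Agent.DeligneSerre.AlgSeries

/-!
# Algebraic integers modulo infinitely many primes

An algebraic integer in primes over infinitely many rational primes vanishes; representations of
a finite group which exist modulo infinitely many primes exist over `ℂ`.
-/

set_option autoImplicit false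

noncomputable section

namespace Fermat.Agent.DeligneSerre

open Polynomial

/-- The ring of all algebraic integers. -/
abbrev ZBar : Type := integralClosure ℤ ℂ

theorem isIntegral_ringEquiv (σ : ℂ ≃+* ℂ) {x : ℂ} (hx : IsIntegral ℤ x) :
    IsIntegral ℤ (σ x) :=
  hx.map σ.toRingHom.toIntAlgHom

theorem finite_orbit_of_isIntegral {x : ℂ} (hx : IsIntegral ℤ x) :
    {y : ℂ | ∃ σ : ℂ ≃+* ℂ, σ x = y}.Finite := by
  refine ((minpoly ℤ x).rootSet_finite ℂ).subset ?_
  rintro y ⟨σ, rfl⟩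
  rw [Polynomial.mem_rootSet]
  refine ⟨minpoly.ne_zero hx, ?_⟩
  have h := (minpoly ℤ x).aeval_algHom_apply σ.toRingHom.toIntAlgHom x
  rw [minpoly.aeval, map_zero] at h
  exact h

/-- A nonzero algebraic integer forces a nonzero integer into every ideal containing it,
uniformly. -/
theorem exists_int_ne_zero_mem {x : ZBar} (hx : x ≠ 0) :
    ∃ c : ℤ, c ≠ 0 ∧ ∀ I : Ideal ZBar, x ∈ I → (c : ZBar) ∈ I := by
  have hxi : IsIntegral ℤ (x : ℂ) := x.2
  refine ⟨(minpoly ℤ (x : ℂ)).coeff 0, ?_, fun I hI => ?_⟩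
  · intro h0
    have h1 := minpoly.coeff_zero_ne_zero (A := ℚ) (x := (x : ℂ)) hxi.tower_top (by simpa using hx)
    rw [minpoly.isIntegrallyClosed_eq_field_fractions' ℚ hxi, Polynomial.coeff_map, h0, map_zero]
      at h1
    exact h1 rfl
  · have h0 : Polynomial.aeval x (minpoly ℤ (x : ℂ)) = 0 := by
      refine Subtype.ext ?_
      exact (Polynomial.aeval_subalgebra_coe _ (integralClosure ℤ ℂ) x).trans (minpoly.aeval _ _)
    rw [← Polynomial.X_mul_divX_add (minpoly ℤ (x : ℂ)), map_add, map_mul, Polynomial.aeval_X,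
      Polynomial.aeval_C, add_eq_zero_iff_eq_neg'] at h0
    rw [show (algebraMap ℤ ZBar) ((minpoly ℤ (x : ℂ)).coeff 0)
      = ((minpoly ℤ (x : ℂ)).coeff 0 : ZBar) from eq_intCast _ _] at h0
    rw [h0]
    exact I.neg_mem (I.mul_mem_right _ hI)

/-- An algebraic integer in proper ideals over infinitely many primes is zero. -/
theorem eq_zero_of_mem_infinite {x : ZBar} {L : Set ℕ} (hL : L.Infinite)
    (h : ∀ ℓ ∈ L, ℓ.Prime ∧ ∃ I : Ideal ZBar, I ≠ ⊤ ∧ (ℓ : ZBar) ∈ I ∧ x ∈ I) : x = 0 := by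
  by_contra hx
  obtain ⟨c, hc, hcI⟩ := exists_int_ne_zero_mem hx
  obtain ⟨ℓ, hℓ, hlt⟩ := hL.exists_gt c.natAbs
  obtain ⟨hp, I, hI, hℓI, hxI⟩ := h ℓ hℓ
  apply hI
  rw [Ideal.eq_top_iff_one]
  have hcop : IsCoprime (ℓ : ℤ) c := by
    rw [Int.isCoprime_iff_nat_coprime, Int.natAbs_natCast, hp.coprime_iff_not_dvd]
    exact fun hd => (Nat.le_of_dvd (Int.natAbs_pos.2 hc) hd).not_gt hlt
  obtain ⟨u, v, huv⟩ := hcop
  have h1 := congrArg (Int.cast : ℤ → ZBar) huv
  push_cast at h1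
  rw [← h1]
  exact I.add_mem (I.mul_mem_left _ hℓI) (I.mul_mem_left _ (hcI I hxI))

/-- Equality from congruences modulo infinitely many primes. -/
theorem eq_of_map_eq_infinite {x y : ZBar} {L : Set ℕ} (hL : L.Infinite)
    (h : ∀ ℓ ∈ L, ℓ.Prime ∧ ∃ (k : Type) (_ : Field k) (φ : ZBar →+* k),
      φ ℓ = 0 ∧ φ x = φ y) : x = y := by
  refine sub_eq_zero.1 (eq_zero_of_mem_infinite hL fun ℓ hℓ => ?_)
  obtain ⟨hp, k, _, φ, h0, he⟩ := h ℓ hℓ
  exact ⟨hp, RingHom.ker φ, RingHom.ker_ne_top φ, h0, by rw [RingHom.mem_ker, map_sub, he,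
    sub_self]⟩

/-- A natural number `0 < m < ℓ` is nonzero in a field in which the prime `ℓ` is zero. -/
theorem natCast_ne_zero_of_map_eq_zero {k : Type*} [Field k] {φ : ZBar →+* k} {ℓ m : ℕ}
    (hℓ : ℓ.Prime) (h0 : φ ℓ = 0) (hm : m ≠ 0) (hlt : m < ℓ) : (m : k) ≠ 0 := by
  rw [map_natCast] at h0
  have : CharP k ℓ := (CharP.charP_iff_prime_eq_zero hℓ).2 h0
  rw [Ne, CharP.cast_eq_zero_iff k ℓ]
  exact fun hd => hlt.not_ge (Nat.le_of_dvd (Nat.pos_of_ne_zero hm) hd)

/-! ### Bounded algebraic integers -/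

theorem finite_bounded_orbit (B : ℝ) (d : ℕ) :
    {x : ℂ | IsIntegral ℤ x ∧ {y : ℂ | ∃ σ : ℂ ≃+* ℂ, σ x = y}.ncard ≤ d ∧
      ∀ σ : ℂ ≃+* ℂ, ‖σ x‖ ≤ B}.Finite := by
  classical
  set M : ℤ := ⌈max B 1 ^ d * d.choose (d / 2)⌉
  let poly : (Fin (d + 1) → Set.Icc (-M) M) → ℤ[X] := fun c => ∑ i, C (c i : ℤ) * X ^ (i : ℕ)
  refine (Set.finite_iUnion fun c => (poly c).rootSet_finite ℂ).subset ?_
  rintro x ⟨hxi, hcard, hB⟩
  have horb := finite_orbit_of_isIntegral hxi
  -- The monic polynomial with roots the conjugates of `x` has integral rational coefficients.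
  obtain ⟨P, hP⟩ := exists_monic_of_finite_orbit horb
  have hmem : ∀ y ∈ horb.toFinset, IsIntegral ℤ y ∧ ‖y‖ ≤ B := by
    intro y hy
    obtain ⟨σ, rfl⟩ := horb.mem_toFinset.1 hy
    exact ⟨isIntegral_ringEquiv σ hxi, hB σ⟩
  have hmonic : P.Monic := Polynomial.monic_of_injective (algebraMap ℚ ℂ).injective
    (hP ▸ monic_prod_of_monic _ _ fun y _ => monic_X_sub_C y)
  have hdeg : P.natDegree = horb.toFinset.card := by
    rw [← natDegree_map (algebraMap ℚ ℂ), hP, natDegree_finsetProd_X_sub_C_eq_card]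
  have hcard' : horb.toFinset.card ≤ d := by
    rwa [← Set.ncard_eq_toFinset_card _ horb]
  have hcoeff : ∀ i, ∃ m : ℤ, (m : ℚ) = P.coeff i ∧ m ∈ Set.Icc (-M) M := by
    intro i
    have hlift : P.map (algebraMap ℚ ℂ) ∈ lifts (algebraMap ZBar ℂ) := by
      rw [hP]
      refine Subsemiring.prod_mem _ fun y hy => ?_
      exact ⟨X - C (⟨y, (hmem y hy).1⟩ : ZBar), by simp⟩
    obtain ⟨z, hz⟩ := (lifts_iff_coeff_lifts _).1 hlift i
    rw [coeff_map] at hz
    have hint : IsIntegral ℤ (P.coeff i) :=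
      (isIntegral_algebraMap_iff (B := ℂ) (algebraMap ℚ ℂ).injective).1 (hz ▸ z.2)
    obtain ⟨m, hm⟩ := IsIntegrallyClosed.isIntegral_iff.1 hint
    have hm' : (m : ℚ) = P.coeff i := by rw [← hm]; simp
    -- They are bounded by the bound on the roots, so only finitely many polynomials occur.
    have hbd : ‖(P.map (algebraMap ℚ ℂ)).coeff i‖ ≤ max B 1 ^ d * d.choose (d / 2) := by
      refine coeff_bdd_of_roots_le (algebraMap ℚ ℂ) hmonic (IsAlgClosed.splits _)
        (hdeg.le.trans hcard') (fun y hy => ?_) i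
      rw [hP, roots_prod_X_sub_C] at hy
      exact (hmem y hy).2
    rw [coeff_map, ← hm', map_intCast, Complex.norm_intCast] at hbd
    have habs : |m| ≤ M := by
      have h2 : (|m| : ℝ) ≤ (M : ℝ) := hbd.trans (Int.le_ceil _)
      exact_mod_cast h2
    exact ⟨m, hm', abs_le.1 habs⟩
  choose m hm hmIcc using hcoeff
  refine Set.mem_iUnion.2 ⟨fun i => ⟨m i, hmIcc i⟩, ?_⟩
  have hpoly : (poly fun i => ⟨m i, hmIcc i⟩).map (algebraMap ℤ ℚ) = P := by
    conv_rhs => rw [P.as_sum_range' (d + 1) (by omega), ← Fin.sum_univ_eq_sum_range]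
    simp only [poly, Polynomial.map_sum,
      C_mul_X_pow_eq_monomial]
    exact Finset.sum_congr rfl fun i _ => by simp [hm]
  rw [mem_rootSet]
  refine ⟨fun h0 => hmonic.ne_zero (by rw [← hpoly, h0, Polynomial.map_zero]), ?_⟩
  rw [← aeval_map_algebraMap ℚ x, hpoly, ← eval_map_algebraMap, hP, eval_prod]
  exact Finset.prod_eq_zero (horb.mem_toFinset.2 ⟨RingEquiv.refl ℂ, rfl⟩) (by simp)

/-! ### Matrices of finite order -/

/-- The sums of two `m`-th roots of unity. -/
def rootSums (m : ℕ) : Set ZBar := {x | ∃ z w : ZBar, z ^ m = 1 ∧ w ^ m = 1 ∧ x = z + w}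

theorem finite_rootSums {m : ℕ} (hm : m ≠ 0) : (rootSums m).Finite := by
  classical
  refine (((nthRootsFinset m (1 : ZBar)) ×ˢ (nthRootsFinset m (1 : ZBar))).image
    fun p => p.1 + p.2).finite_toSet.subset ?_
  rintro x ⟨z, w, hz, hw, rfl⟩
  simp only [Finset.coe_image, Set.mem_image, Finset.mem_coe, Finset.mem_product]
  exact ⟨(z, w), ⟨(mem_nthRootsFinset (Nat.pos_of_ne_zero hm) _).2 hz,
    (mem_nthRootsFinset (Nat.pos_of_ne_zero hm) _).2 hw⟩, rfl⟩

variable {k : Type*} [Field k]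

theorem exists_root_lift (φ : ZBar →+* k) {m : ℕ} (hm : m ≠ 0) {a : k} (ha : a ^ m = 1) :
    ∃ z : ZBar, z ^ m = 1 ∧ φ z = a := by
  have hζ := Complex.isPrimitiveRoot_exp m hm
  let ζ : ZBar := ⟨_, IsIntegral.of_pow (Nat.pos_of_ne_zero hm)
    (hζ.pow_eq_one.symm ▸ isIntegral_one)⟩
  have hζ' : IsPrimitiveRoot ζ m :=
    IsPrimitiveRoot.of_map_of_injective (f := algebraMap ZBar ℂ) hζ Subtype.val_injective
  have h := congrArg (Polynomial.eval₂ φ a)
    (Polynomial.X_pow_sub_one_eq_prod (Nat.pos_of_ne_zero hm) hζ')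
  rw [eval₂_sub, eval₂_pow, eval₂_X, eval₂_one, ha, sub_self, eval₂_finsetProd, eq_comm,
    Finset.prod_eq_zero_iff] at h
  obtain ⟨z, hz, h0⟩ := h
  rw [eval₂_sub, eval₂_X, eval₂_C, sub_eq_zero] at h0
  exact ⟨z, (mem_nthRootsFinset (Nat.pos_of_ne_zero hm) _).1 hz, h0.symm⟩

theorem exists_trace_eq_of_pow_eq_one (φ : ZBar →+* k) {U : Matrix (Fin 2) (Fin 2) k} {m : ℕ}
    (hm : m ≠ 0) (hU : U ^ m = 1) : ∃ x ∈ rootSums m, U.trace = φ x := by
  classical
  let ι := algebraMap k (AlgebraicClosure k)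
  set U' := U.map ι with hU'def
  have hU' : U' ^ m = 1 := by
    rw [hU'def, show U.map ι = ι.mapMatrix U from rfl, ← map_pow, hU, map_one]
  have hroot : ∀ a ∈ U'.charpoly.roots, a ^ m = 1 := by
    intro a ha
    have hdet : (Matrix.scalar (Fin 2) a - U').det = 0 := by
      rw [← Matrix.eval_charpoly]
      exact (mem_roots'.1 ha).2
    have hcomm : Commute (Matrix.scalar (Fin 2) a) U' :=
      Matrix.scalar_commute _ (fun _ => Commute.all _ _) _
    have h2 := congrArg Matrix.det (hcomm.geom_sum₂_mul m)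
    rw [Matrix.det_mul, hdet, mul_zero, hU', ← map_pow, ← map_one (Matrix.scalar (Fin 2)),
      ← map_sub, Matrix.scalar_apply, Matrix.det_diagonal] at h2
    simpa [sub_eq_zero] using h2.symm
  have hcard : U'.charpoly.roots.card = 2 := by
    rw [← (IsAlgClosed.splits U'.charpoly).natDegree_eq_card_roots,
      Matrix.charpoly_natDegree_eq_dim, Fintype.card_fin]
  obtain ⟨a, b, hab⟩ := Multiset.card_eq_two.1 hcard
  obtain ⟨z, hz, hza⟩ := exists_root_lift (ι.comp φ) hm (hroot a (by simp [hab]))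
  obtain ⟨w, hw, hwb⟩ := exists_root_lift (ι.comp φ) hm (hroot b (by simp [hab]))
  refine ⟨z + w, ⟨z, w, hz, hw, rfl⟩, ι.injective ?_⟩
  have htr := Matrix.trace_eq_sum_roots_charpoly U'
  rw [hab] at htr
  rw [show ι U.trace = U'.trace from AddMonoidHom.map_trace ι.toAddMonoidHom U, htr]
  simp [← hza, ← hwb]

/-- A matrix of order prime to the characteristic with characteristic polynomial `(X - 1)²` is
the identity. -/
theorem eq_one_of_unipotent {U : Matrix (Fin 2) (Fin 2) k} {m : ℕ} (hm : (m : k) ≠ 0)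
    (hU : U ^ m = 1) (htr : U.trace = 2) (hdet : U.det = 1) : U = 1 := by
  obtain ⟨V, rfl⟩ : ∃ V, U = 1 + V := ⟨U - 1, by abel⟩
  have hsq : V * V = 0 := by
    rw [Matrix.det_fin_two] at hdet
    simp [Matrix.trace_fin_two] at htr hdet
    ext i j
    rw [Matrix.mul_apply, Fin.sum_univ_two]
    fin_cases i <;> fin_cases j <;> simp
    · linear_combination (V 0 0 + 1) * htr - hdet
    · linear_combination V 0 1 * htr
    · linear_combination V 1 0 * htr
    · linear_combination (V 1 1 + 1) * htr - hdet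
  have hpow : ∀ i : ℕ, (1 + V) ^ i = 1 + (i : k) • V := by
    intro i
    induction i with
    | zero => simp
    | succ i ih =>
      rw [pow_succ, ih, add_mul, one_mul, mul_add, mul_one, smul_mul_assoc, hsq, smul_zero,
        add_zero, Nat.cast_succ, add_smul, one_smul]
      abel
  rw [hpow, add_eq_left, smul_eq_zero] at hU
  rw [hU.resolve_left hm, add_zero]

end Fermat.Agent.DeligneSerre

namespace Fermat.Agent.DeligneSerre

open MvPolynomial

/-! ### Lifting representations of finite groups -/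

/-- The inclusion of the algebraic integers into the algebraic numbers. -/
private def toAlgClosure : ZBar →+* algebraicClosure ℚ ℂ :=
  (algebraMap ZBar ℂ).codRestrict (algebraicClosure ℚ ℂ) fun z =>
    (mem_algebraicClosure_iff' (F := ℚ)).2 z.2.tower_top

/-- Denominators of a polynomial with algebraic coefficients can be cleared by a nonzero natural
number. -/
private theorem exists_natCast_mul_map_eq {α : Type*}
    (q : MvPolynomial α (algebraicClosure ℚ ℂ)) :
    ∃ n : ℕ, n ≠ 0 ∧ ∃ q₀ : MvPolynomial α ZBar, MvPolynomial.map toAlgClosure q₀ =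
      (n : MvPolynomial α (algebraicClosure ℚ ℂ)) * q := by
  induction q using MvPolynomial.induction_on with
  | C a =>
    obtain ⟨n, hn, hint⟩ := exists_nat_mul_isIntegral
      (x := (a : ℂ)) (isAlgebraic_iff_isIntegral.2 ((mem_algebraicClosure_iff' (F := ℚ)).1 a.2))
    refine ⟨n, hn, C ⟨_, hint⟩, ?_⟩
    rw [← map_natCast (C : algebraicClosure ℚ ℂ →+* MvPolynomial α (algebraicClosure ℚ ℂ)),
      ← map_mul]
    refine (MvPolynomial.map_C toAlgClosure _).trans (congrArg C (Subtype.ext ?_))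
    show (n : ℂ) * (a : ℂ) = (((n : algebraicClosure ℚ ℂ) * a : algebraicClosure ℚ ℂ) : ℂ)
    simp
  | add p q hp hq =>
    obtain ⟨n, hn, p₀, hp₀⟩ := hp
    obtain ⟨n', hn', q₀, hq₀⟩ := hq
    refine ⟨n * n', mul_ne_zero hn hn', n' * p₀ + n * q₀, ?_⟩
    rw [map_add, map_mul, map_mul, hp₀, hq₀, map_natCast, map_natCast]; push_cast; ring
  | mul_X p v hp =>
    obtain ⟨n, hn, p₀, hp₀⟩ := hp
    exact ⟨n, hn, p₀ * X v, by rw [map_mul, hp₀, MvPolynomial.map_X, mul_assoc]⟩

/-- If `f` hits every element up to a nonzero natural factor, then so does its restriction to an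
ideal for the extended ideal. -/
private theorem exists_natCast_mul_mem_of_mem_map {A B : Type*} [CommRing A] [CommRing B]
    (f : A →+* B) (hf : ∀ q : B, ∃ n : ℕ, n ≠ 0 ∧ ∃ q₀ : A, f q₀ = (n : B) * q) {I : Ideal A}
    {q : B} (hq : q ∈ I.map f) : ∃ n : ℕ, n ≠ 0 ∧ ∃ y ∈ I, f y = (n : B) * q := by
  unfold Ideal.map at hq
  induction hq using Submodule.span_induction with
  | mem x hx =>
    obtain ⟨r, hr, rfl⟩ := hx
    exact ⟨1, one_ne_zero, r, hr, by simp⟩
  | zero => exact ⟨1, one_ne_zero, 0, I.zero_mem, by simp⟩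
  | add p q _ _ hp hq =>
    obtain ⟨n, hn, p₀, hpI, hp₀⟩ := hp
    obtain ⟨n', hn', q₀, hqI, hq₀⟩ := hq
    exact ⟨n * n', mul_ne_zero hn hn', n' * p₀ + n * q₀,
      I.add_mem (I.mul_mem_left _ hpI) (I.mul_mem_left _ hqI), by
        rw [map_add, map_mul, map_mul, hp₀, hq₀, map_natCast, map_natCast]; push_cast; ring⟩
  | smul c p _ hp =>
    obtain ⟨n, hn, p₀, hpI, hp₀⟩ := hp
    obtain ⟨n', hn', c₀, hc₀⟩ := hf c
    exact ⟨n' * n, mul_ne_zero hn' hn, c₀ * p₀, I.mul_mem_left _ hpI, by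
      rw [map_mul, hc₀, hp₀, smul_eq_mul]; push_cast; ring⟩

variable {G : Type*} [Group G] [Finite G]

/-- The generic matrix at `g`. -/
private def genMat (g : G) :
    Matrix (Fin 2) (Fin 2) (MvPolynomial (G × Fin 2 × Fin 2) ZBar) :=
  Matrix.of fun i j => X (g, i, j)

/-- The relations saying that the generic matrices form a representation with traces `t` and
determinants `d`. -/
private def repRels (t d : G → ZBar) : Set (MvPolynomial (G × Fin 2 × Fin 2) ZBar) :=
  {r | (∃ i j, r = genMat (1 : G) i j - (1 : Matrix (Fin 2) (Fin 2) _) i j) ∨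
    (∃ g g' i j, r = genMat (g * g') i j - (genMat g * genMat g') i j) ∨
    (∃ g, r = (genMat g).trace - C (t g)) ∨ ∃ g, r = (genMat g).det - C (d g)}

omit [Finite G] in
/-- Evaluation at a representation with traces `φ ∘ t` and determinants `φ ∘ d` kills the
relations. -/
private theorem span_repRels_le_ker {k : Type*} [Field k] (t d : G → ZBar) (φ : ZBar →+* k)
    (σ : G →* Matrix (Fin 2) (Fin 2) k)
    (hσ : ∀ g, (σ g).trace = φ (t g) ∧ (σ g).det = φ (d g)) :
    Ideal.span (repRels t d) ≤ RingHom.ker (eval₂Hom φ fun v => σ v.1 v.2.1 v.2.2) := by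
  set ev := eval₂Hom φ fun v : G × Fin 2 × Fin 2 => σ v.1 v.2.1 v.2.2 with hev
  have hevU : ∀ g, ev.mapMatrix (genMat g) = σ g := fun g => by
    ext i j
    exact eval₂Hom_X' φ (fun v : G × Fin 2 × Fin 2 => σ v.1 v.2.1 v.2.2) (g, i, j)
  refine Ideal.span_le.2 ?_
  rintro r (⟨i, j, rfl⟩ | ⟨g, g', i, j, rfl⟩ | ⟨g, rfl⟩ | ⟨g, rfl⟩) <;> show ev (_ - _) = 0
  · rw [map_sub, show ev (genMat (1 : G) i j) = ev.mapMatrix (genMat 1) i j from rfl,
      show ev ((1 : Matrix (Fin 2) (Fin 2) _) i j) = ev.mapMatrix 1 i j from rfl,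
      hevU, map_one, map_one, sub_self]
  · rw [map_sub, show ev (genMat (g * g') i j) = ev.mapMatrix (genMat (g * g')) i j from rfl,
      show ev ((genMat g * genMat g') i j) = ev.mapMatrix (genMat g * genMat g') i j from rfl,
      map_mul, hevU, hevU, hevU, map_mul, sub_self]
  · rw [map_sub, show ev (genMat g).trace = (ev.mapMatrix (genMat g)).trace from
      AddMonoidHom.map_trace ev.toAddMonoidHom _, hevU, (hσ g).1]
    exact sub_eq_zero.2 (eval₂Hom_C φ _ _).symm
  · rw [map_sub, RingHom.map_det, hevU, (hσ g).2]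
    exact sub_eq_zero.2 (eval₂Hom_C φ _ _).symm

omit [Finite G] in
/-- A complex zero of the relations is a representation with traces `t` and determinants `d`. -/
private theorem exists_rep_of_eval (t d : G → ZBar)
    (ev : MvPolynomial (G × Fin 2 × Fin 2) ZBar →+* ℂ)
    (hev : ∀ r ∈ repRels t d, ev r = 0) (hevC : ∀ z : ZBar, ev (C z) = (z : ℂ)) :
    ∃ σ : G →* GL (Fin 2) ℂ, ∀ g, ((σ g : GL (Fin 2) ℂ) : Matrix (Fin 2) (Fin 2) ℂ).trace = t g ∧
      ((σ g : GL (Fin 2) ℂ) : Matrix (Fin 2) (Fin 2) ℂ).det = d g := by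
  have hev' : ∀ {a b}, a - b ∈ repRels t d → ev a = ev b := fun hab =>
    sub_eq_zero.1 (by rw [← map_sub]; exact hev _ hab)
  let σ : G →* Matrix (Fin 2) (Fin 2) ℂ :=
    { toFun := fun g => ev.mapMatrix (genMat g)
      map_one' := by
        rw [← map_one ev.mapMatrix]
        ext i j
        exact hev' (Or.inl ⟨i, j, rfl⟩)
      map_mul' := fun g g' => by
        rw [← map_mul]
        ext i j
        exact hev' (Or.inr (Or.inl ⟨g, g', i, j, rfl⟩)) }
  refine ⟨σ.toHomUnits, fun g => ⟨?_, ?_⟩⟩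
  · show (ev.mapMatrix (genMat g)).trace = _
    rw [← hevC, ← hev' (Or.inr (Or.inr (Or.inl ⟨g, rfl⟩)))]
    exact (AddMonoidHom.map_trace ev.toAddMonoidHom _).symm
  · show (ev.mapMatrix (genMat g)).det = _
    rw [← hevC, ← hev' (Or.inr (Or.inr (Or.inr ⟨g, rfl⟩)))]
    exact (RingHom.map_det ev _).symm

/-- A finite group with a two-dimensional representation of given traces and determinants modulo
infinitely many primes has one over `ℂ`. -/
theorem exists_rep_of_residual (t d : G → ZBar) {L : Set ℕ} (hL : L.Infinite)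
    (h : ∀ ℓ ∈ L, ℓ.Prime ∧ ∃ (k : Type) (_ : Field k) (φ : ZBar →+* k)
      (σ : G →* Matrix (Fin 2) (Fin 2) k), φ ℓ = 0 ∧
        ∀ g, (σ g).trace = φ (t g) ∧ (σ g).det = φ (d g)) :
    ∃ σ : G →* GL (Fin 2) ℂ, ∀ g, ((σ g : GL (Fin 2) ℂ) : Matrix (Fin 2) (Fin 2) ℂ).trace = t g ∧
      ((σ g : GL (Fin 2) ℂ) : Matrix (Fin 2) (Fin 2) ℂ).det = d g := by
  classical
  let K := algebraicClosure ℚ ℂ
  have : IsAlgClosed K := (algebraicClosure.isAlgClosure ℚ ℂ).isAlgClosed
  let R := MvPolynomial (G × Fin 2 × Fin 2) ZBar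
  let J : Ideal R := Ideal.span (repRels t d)
  let f : R →+* MvPolynomial (G × Fin 2 × Fin 2) K := MvPolynomial.map toAlgClosure
  have hf : Function.Injective f := map_injective toAlgClosure fun a b hab =>
    Subtype.ext (congrArg (fun z : K => (z : ℂ)) hab)
  have hne : Ideal.map f J ≠ ⊤ := by
    intro htop
    obtain ⟨n, hn, y, hy, hy'⟩ := exists_natCast_mul_mem_of_mem_map f exists_natCast_mul_map_eq
      (htop.symm ▸ trivial : (1 : MvPolynomial (G × Fin 2 × Fin 2) K) ∈ Ideal.map f J)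
    rw [mul_one, ← map_natCast f] at hy'
    have hnJ : (n : R) ∈ J := hf hy' ▸ hy
    have hz : (n : ZBar) = 0 := by
      refine eq_zero_of_mem_infinite hL fun ℓ hℓ => ?_
      obtain ⟨hp, k, _, φ, σ, h0, hσ⟩ := h ℓ hℓ
      refine ⟨hp, RingHom.ker φ, RingHom.ker_ne_top φ, h0, ?_⟩
      rw [RingHom.mem_ker, ← RingHom.mem_ker.1 (span_repRels_le_ker t d φ σ hσ hnJ), map_natCast,
        map_natCast]
    exact hn (by exact_mod_cast congrArg (fun z : ZBar => (z : ℂ)) hz)
  obtain ⟨x, hx⟩ : (zeroLocus K (Ideal.map f J)).Nonempty := by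
    rw [Set.nonempty_iff_ne_empty]
    intro he
    apply hne
    have := vanishingIdeal_zeroLocus_eq_radical (K := K) (Ideal.map f J)
    rw [he, vanishingIdeal_empty] at this
    exact Ideal.radical_eq_top.1 this.symm
  refine exists_rep_of_eval t d ((algebraMap K ℂ).comp ((MvPolynomial.aeval x).toRingHom.comp f))
    (fun r hr => ?_) fun z => ?_
  · have h0 := hx (f r) (Ideal.mem_map_of_mem f (Ideal.subset_span hr))
    simp only [RingHom.comp_apply]
    exact (congrArg (algebraMap K ℂ) h0).trans (map_zero _)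
  · simp only [f, RingHom.comp_apply]
    rw [AlgHom.toRingHom_eq_coe, RingHom.coe_coe]
    rw [MvPolynomial.map_C, MvPolynomial.aeval_C]
    rfl

end Fermat.Agent.DeligneSerre
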