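import Mathlib.RingTheory.IntegralDomain
import Mathlib.RepresentationTheory.Irreducible
import Fermat.Agent.Arith.Chebotarev.Main
import Fermat.Agent.DeligneSerre.Algebraic
import Fermat.Agent.DeligneSerre.Rankin
import Fermat.Agent.DeligneSerre.GroupBound
import Fermat.Agent.DeligneSerre.Residue
import Fermat.Prelude.Def_GaloisRep_Residual
import Fermat.Prelude.Def_Deformations_MatrixRepresentation

/-!
# The Deligne–Serre argument

For a depleted weight one eigenform the residual two-dimensional representations in characteristic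
`≠ 2` have image of bounded exponent (`exists_pow_eq_one`), and a reducible complex representation
of a finite group has mean square trace at least two. `DeligneSerre/Assembly` concludes from these
that there is an irreducible complex representation of finite image.
-/

set_option autoImplicit false

noncomputable section

namespace Fermat.Agent.DeligneSerre

open CongruenceSubgroup ModularFormClass Filter
open Fermat.Agent.Arith Fermat.Agent.Arith.Density Fermat.Agent.Arith.Chebotarev
open scoped Topology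

variable {N : ℕ} [NeZero N]

/-- A residual representation over a field in which `ℓ = 0` attached to eigenvalues `a`: of finite
level, diagonal or spanning all matrices, unramified at the primes not dividing `N ℓ`. -/
structure ResRep (ε : DirichletCharacter ℂ N) (a : ℕ → ℂ) (ℓ : ℕ) : Type 1 where
  k : Type
  [field : Field k]
  φ : ZBar →+* k
  map_eq_zero : φ ℓ = 0
  ρ : GQ →* Matrix (Fin 2) (Fin 2) k
  finite_level : GaloisFactorsThroughFiniteLevel ρ
  shape : Submodule.span k (Set.range ρ) = ⊤ ∨ ∀ g, ρ g 0 1 = 0 ∧ ρ g 1 0 = 0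
  inertia : ∀ p : ℕ, p.Prime → ¬ p ∣ N → p ≠ ℓ → ∀ A : ValuationSubring QBar,
    A.LiesOverPrime p → ∀ σ ∈ A.inertiaSubgroupIn ℚ, ρ σ = 1
  frobenius : ∀ p : ℕ, p.Prime → ¬ p ∣ N → p ≠ ℓ → ∀ A : ValuationSubring QBar,
    A.LiesOverPrime p → ∀ σ : GQ, A.IsFrobeniusAt σ p → ∀ x y : ZBar, (x : ℂ) = a p →
      (y : ℂ) = ε (p : ZMod N) → (ρ σ).trace = φ x ∧ (ρ σ).det = φ y

attribute [instance] ResRep.field

/-- Residual representations exist for almost all primes. -/
def HasResidualReps (ε : DirichletCharacter ℂ N) (a : ℕ → ℂ) : Prop :=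
  ∃ S : Finset ℕ, ∀ ℓ : ℕ, ℓ.Prime → ℓ ∉ S → Nonempty (ResRep ε a ℓ)

/-! ### Finite levels and averaging -/

theorem exists_galois_level {M : Type} [Monoid M] {ρ : GQ →* M}
    (h : GaloisFactorsThroughFiniteLevel ρ) :
    ∃ (L : IntermediateField ℚ QBar) (_ : FiniteDimensional ℚ L) (_ : IsGalois ℚ L)
      (ρ' : Gal(L/ℚ) →* M), ∀ σ : GQ, ρ' (AlgEquiv.restrictNormalHom L σ) = ρ σ := by
  obtain ⟨L₀, hfd, hL₀⟩ := h
  let L : IntermediateField ℚ QBar := IntermediateField.normalClosure ℚ L₀ QBar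
  have : Normal ℚ L := normalClosure.normal ℚ L₀ QBar
  have hgal : IsGalois ℚ L := ⟨⟩
  have hsurj := AlgEquiv.restrictNormalHom_surjective (F := ℚ) (K₁ := L) QBar
  have hwd : ∀ σ τ : GQ, AlgEquiv.restrictNormalHom L σ = AlgEquiv.restrictNormalHom L τ →
      ρ σ = ρ τ := fun σ τ he => by
    have h1 : ρ (τ⁻¹ * σ) = 1 := hL₀ _ fun x hx =>
      (restrictNormalHom_eq_one_iff L).mp (by rw [map_mul, map_inv, he, inv_mul_cancel]) x
        (L₀.le_normalClosure hx)
    rw [← mul_inv_cancel_left τ σ, map_mul, h1, mul_one]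
  refine ⟨L, inferInstance, hgal,
    { toFun := fun x => ρ (Function.surjInv hsurj x)
      map_one' := (hwd _ 1 (by rw [Function.surjInv_eq hsurj, map_one])).trans (map_one ρ)
      map_mul' := fun x y => (hwd _ (Function.surjInv hsurj x * Function.surjInv hsurj y)
        (by simp only [map_mul, Function.surjInv_eq hsurj])).trans (map_mul ρ _ _) },
    fun σ => hwd _ _ (Function.surjInv_eq hsurj _)⟩

/-- Chebotarev: the average of a class function is bounded by the density of its values at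
Frobenius elements. -/
theorem sum_le_of_chebotarev (L : IntermediateField ℚ QBar) [FiniteDimensional ℚ L] [IsGalois ℚ L]
    [Fintype Gal(L/ℚ)] {F : Gal(L/ℚ) → ℝ} (hF : ∀ x, 0 ≤ F x)
    (hclass : ∀ x y, F (x⁻¹ * y * x) = F y) {C κ : ℝ}
    (h : ∀ P : Finset ℕ, (∀ p ∈ P, p.Prime) → ∀ s : ℝ, 1 < s → s ≤ 2 →
      ∑ p ∈ P, F (frobL L p) * (p : ℝ) ^ (-s) ≤ C - κ * Real.log (s - 1)) :
    ∑ x, F x ≤ κ * Fintype.card Gal(L/ℚ) := by
  classical
  set c := (Fintype.card Gal(L/ℚ) : ℝ) with hc
  -- The density of each class makes the average the limit of the left side.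
  have hlim : Tendsto (fun s => ∑ x, F x * ratio L x s) (𝓝[>] 1) (𝓝 (∑ x, F x)) := by
    simpa using tendsto_finsetSum Finset.univ
      fun x (_ : x ∈ Finset.univ) => (tendsto_ratio L x).const_mul (F x)
  have hup : Tendsto (fun s : ℝ => c * (C / (-Real.log (s - 1)) + κ)) (𝓝[>] 1) (𝓝 (κ * c)) := by
    have := ((tendsto_const_nhds (x := C)).div_atTop tendsto_neg_log_sub_one).add_const κ
    simpa [mul_comm κ c] using this.const_mul c
  refine le_of_tendsto_of_tendsto hlim hup ?_
  filter_upwards [eventually_all.mpr fun x : Gal(L/ℚ) => summable_conjCount L x,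
    tendsto_neg_log_sub_one.eventually_gt_atTop 0, self_mem_nhdsWithin,
    eventually_nhdsWithin_of_eventually_nhds (eventually_le_nhds (show (1 : ℝ) < 2 by norm_num))]
    with s hsum hpos hs hs2
  unfold ratio
  simp_rw [mul_div_assoc', ← Finset.sum_div, ← tsum_mul_left]
  rw [← Summable.tsum_finsetSum fun x _ => (hsum x).mul_left (F x)]
  -- Group the sum over primes by conjugacy class.
  have hpt : ∀ n : ℕ, ∑ x, F x * (conjCount L x n * (n : ℝ) ^ (-s)) =
      if n.Prime then c * (F (frobL L n) * (n : ℝ) ^ (-s)) else 0 := by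
    intro n
    split_ifs with hn
    · have hx : ∀ x, F x * conjCount L x n = F (frobL L n) * conjCount L x n := by
        intro x
        by_cases he : ∃ y, y⁻¹ * frobL L n * y = x
        · obtain ⟨y, rfl⟩ := he
          rw [hclass]
        · have : IsEmpty {y : Gal(L/ℚ) // y⁻¹ * frobL L n * y = x} :=
            ⟨fun ⟨y, hy⟩ => he ⟨y, hy⟩⟩
          simp [conjCount]
      simp_rw [← mul_assoc, hx, mul_assoc, ← Finset.mul_sum, ← Finset.sum_mul]
      rw [sum_conjCount, if_pos hn]
      ring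
    · simp [conjCount, hn]
  rw [div_le_iff₀ hpos, show c * (C / -Real.log (s - 1) + κ) * -Real.log (s - 1)
    = c * (C - κ * Real.log (s - 1)) by rw [mul_assoc, add_mul, div_mul_cancel₀ _ hpos.ne']; ring]
  refine Real.tsum_le_of_sum_le (fun n => Finset.sum_nonneg fun x _ => mul_nonneg (hF x)
    (mul_nonneg (conjCount_nonneg L x n) (Real.rpow_nonneg (Nat.cast_nonneg n) _))) fun u => ?_
  simp_rw [hpt]
  rw [← Finset.sum_filter, ← Finset.mul_sum]
  exact mul_le_mul_of_nonneg_left
    (h _ (fun p hp => (Finset.mem_filter.1 hp).2) s hs hs2) (Nat.cast_nonneg _)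

theorem trace_map_conj {G : Type*} [Group G] {R : Type*} [CommRing R]
    (ρ : G →* Matrix (Fin 2) (Fin 2) R) (x y : G) :
    (ρ (x⁻¹ * y * x)).trace = (ρ y).trace := by
  rw [map_mul, Matrix.trace_mul_comm, ← map_mul]
  congr 2
  group

/-- A sum along a surjective homomorphism is the order of the kernel times the sum on the image. -/
theorem sum_comp_surjective {A B : Type*} [Group A] [Group B] [Fintype A] [Fintype B] (π : A →* B)
    (hπ : Function.Surjective π) (f : B → ℝ) :
    ∑ x, f (π x) = (Nat.card π.ker : ℝ) * ∑ y, f y := by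
  classical
  rw [← Finset.sum_fiberwise (Finset.univ : Finset A) π, Finset.mul_sum]
  refine Finset.sum_congr rfl fun y _ => ?_
  obtain ⟨a, rfl⟩ := hπ y
  rw [Finset.sum_congr rfl fun x hx => congrArg f (Finset.mem_filter.1 hx).2, Finset.sum_const,
    nsmul_eq_mul, MonoidHom.card_fiber_eq_of_mem_range π ⟨a, rfl⟩ ⟨1, map_one _⟩,
    Nat.card_eq_fintype_card, Fintype.card_subtype]
  simp [MonoidHom.mem_ker]

/-! ### Bounded image -/

/-- A representation spanning all matrices or diagonal, of which at least seven eighths of the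
elements of a finite level have trace in `Y`, is killed by `A !` for `A ≥ 2 |Y| ^ 4`. -/
theorem pow_eq_one_of_few_traces {k : Type} [Field k] {L : IntermediateField ℚ QBar}
    [FiniteDimensional ℚ L] [IsGalois ℚ L] [Fintype Gal(L/ℚ)]
    (ρ' : Gal(L/ℚ) →* Matrix (Fin 2) (Fin 2) k) (h2 : (2 : k) ≠ 0)
    {ρ : GQ →* Matrix (Fin 2) (Fin 2) k}
    (hρ' : ∀ σ, ρ' (AlgEquiv.restrictNormalHom L σ) = ρ σ)
    (hshape : Submodule.span k (Set.range ρ) = ⊤ ∨ ∀ g, ρ g 0 1 = 0 ∧ ρ g 1 0 = 0)
    (Y : Finset k) [DecidableEq k] {A : ℕ} (hA : 2 * Y.card ^ 4 ≤ A)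
    (hdens : ∑ x, (if (ρ' x).trace ∈ Y then (0 : ℝ) else 1) ≤ 1 / 8 * Fintype.card Gal(L/ℚ))
    (σ₀ : GQ) : ρ σ₀ ^ A.factorial = 1 := by
  classical
  -- Pass to the image group of `ρ`.
  let ρu : Gal(L/ℚ) →* (Matrix (Fin 2) (Fin 2) k)ˣ := ρ'.toHomUnits
  let σG : ρu.range →* Matrix (Fin 2) (Fin 2) k := (Units.coeHom _).comp ρu.range.subtype
  have hrange : Set.range σG = Set.range ρ := by
    ext M
    constructor
    · rintro ⟨⟨_, x, rfl⟩, rfl⟩
      obtain ⟨σ, rfl⟩ := AlgEquiv.restrictNormalHom_surjective (F := ℚ) (K₁ := L) QBar x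
      exact ⟨σ, (hρ' σ).symm⟩
    · rintro ⟨σ, rfl⟩
      exact ⟨⟨_, AlgEquiv.restrictNormalHom L σ, rfl⟩, hρ' σ⟩
  have : Fintype ρu.range := Fintype.ofFinite _
  have hshape' : Submodule.span k (Set.range σG) = ⊤ ∨ ∀ y, σG y 0 1 = 0 ∧ σG y 1 0 = 0 := by
    rcases hshape with hs | hd
    · exact Or.inl (by rw [hrange, hs])
    · refine Or.inr fun y => ?_
      obtain ⟨σ, hσ⟩ : σG y ∈ Set.range ρ := hrange ▸ Set.mem_range_self y
      rw [← hσ]
      exact hd σ
  have hker : Fintype.card Gal(L/ℚ) = Nat.card ρu.ker * Fintype.card ρu.range := by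
    rw [← Nat.card_eq_fintype_card, ← Nat.card_eq_fintype_card, ← Subgroup.index_ker ρu,
      Subgroup.card_mul_index]
  -- All fibres over it have the size of the kernel, so traces in `Y` are as frequent there.
  have hfib : ∀ y, (Finset.univ.filter fun x => ρu.rangeRestrict x = y).card
      = Nat.card ρu.ker := by
    intro y
    obtain ⟨x, rfl⟩ := ρu.rangeRestrict_surjective y
    rw [MonoidHom.card_fiber_eq_of_mem_range ρu.rangeRestrict ⟨x, rfl⟩ ⟨1, map_one _⟩,
      Nat.card_eq_fintype_card, Fintype.card_subtype]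
    simp [MonoidHom.mem_ker, Subtype.ext_iff]
  have hcount : (∑ x, (if (ρ' x).trace ∈ Y then (0 : ℝ) else 1)) =
      (Nat.card ρu.ker : ℝ) * Nat.card {y : ρu.range // (σG y).trace ∉ Y} := by
    rw [← Finset.sum_fiberwise (Finset.univ : Finset Gal(L/ℚ)) ρu.rangeRestrict,
      Nat.card_eq_fintype_card (α := {y : ρu.range // _}), Fintype.card_subtype, Finset.card_filter,
      Nat.cast_sum, Finset.mul_sum]
    refine Finset.sum_congr rfl fun y _ => ?_
    have hy : ∀ x ∈ Finset.univ.filter (fun x => ρu.rangeRestrict x = y),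
        (if (ρ' x).trace ∈ Y then (0 : ℝ) else 1) = if (σG y).trace ∈ Y then 0 else 1 := by
      intro x hx
      rw [← (Finset.mem_filter.1 hx).2]
      rfl
    rw [Finset.sum_congr rfl hy, Finset.sum_const, hfib, nsmul_eq_mul]
    split_ifs <;> simp
  have hkerpos : (0 : ℝ) < Nat.card ρu.ker := by exact_mod_cast Nat.card_pos
  have h8 : 8 * Nat.card {y : ρu.range // (σG y).trace ∉ Y} ≤ Fintype.card ρu.range := by
    rw [hcount, hker, Nat.cast_mul] at hdens
    have : (8 * Nat.card {y : ρu.range // (σG y).trace ∉ Y} : ℝ) ≤ Fintype.card ρu.range := by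
      refine le_of_mul_le_mul_left ?_ hkerpos
      linarith
    exact_mod_cast this
  -- The image then has at most `A` elements.
  have hcard : Fintype.card ρu.range ≤ A :=
    (card_le_of_few_traces σG (fun y z h => Subtype.ext (Units.ext h)) h2 hshape' Y h8).trans hA
  obtain ⟨y, hy⟩ : ρ σ₀ ∈ Set.range σG := hrange ▸ Set.mem_range_self σ₀
  rw [← hy, ← map_pow]
  have hdvd : orderOf y ∣ A.factorial :=
    Nat.dvd_factorial (orderOf_pos y) (orderOf_le_card_univ.trans hcard)
  rw [orderOf_dvd_iff_pow_eq_one.1 hdvd, map_one]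

/-- The mean square bound holds for every conjugate of the coefficients of `g`. -/
private theorem exists_conj_sum_le {ε : DirichletCharacter ℂ N} {g : CuspForm (Gamma1 N) 1}
    (hg : IsDepleted ε (qCoeff g)) (σ : ℂ ≃+* ℂ) :
    ∃ K : ℝ, 0 ≤ K ∧ ∀ P : Finset ℕ, (∀ p ∈ P, p.Prime ∧ ¬ p ∣ N) → ∀ s : ℝ, 1 < s → s ≤ 2 →
      ∑ p ∈ P, ‖σ (qCoeff g p)‖ ^ 2 * (p : ℝ) ^ (-s) ≤ K * (1 - Real.log (s - 1)) := by
  obtain ⟨g', -, hq⟩ :=
    exists_conj_weightOne σ.toRingHom (hg.hecke.odd hg.one) g hg.hecke.nebentypus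
  have hq' : qCoeff g' = fun n => σ (qCoeff g n) := by
    funext n
    show (UpperHalfPlane.qExpansion 1 ⇑g').coeff n = _
    rw [hq, PowerSeries.coeff_map]
    rfl
  have hdep : IsDepleted (ε.ringHomComp σ.toRingHom) (qCoeff g') := by
    rw [hq']; exact hg.conj σ.toRingHom
  obtain ⟨K, hK0, hK⟩ := exists_sum_primes_le g' hdep.hecke hdep.one
  exact ⟨K, hK0, fun P hP s hs hs2 => by simpa [hq'] using hK P hP s hs hs2⟩

omit [NeZero N] in
/-- If a coefficient is outside the finite set of algebraic integers of bounded conjugates, some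
conjugate sequence is larger than `B` there. -/
private theorem sq_le_sum_conj {g : CuspForm (Gamma1 N) 1} {S : Finset (ℕ → ℂ)}
    (hS : ∀ b, b ∈ S ↔ ∃ σ : ℂ ≃+* ℂ, (fun n => σ (qCoeff g n)) = b) {B : ℝ} (hB : 0 ≤ B)
    (p : ℕ) {x : ZBar} (hx : (x : ℂ) = qCoeff g p)
    (hxY : ¬ (IsIntegral ℤ (x : ℂ) ∧ {y : ℂ | ∃ σ : ℂ ≃+* ℂ, σ (x : ℂ) = y}.ncard ≤ S.card ∧
      ∀ σ : ℂ ≃+* ℂ, ‖σ (x : ℂ)‖ ≤ B)) :
    B ^ 2 ≤ ∑ b ∈ S, ‖b p‖ ^ 2 := by
  classical
  have horb : {y : ℂ | ∃ σ : ℂ ≃+* ℂ, σ (x : ℂ) = y}.ncard ≤ S.card := by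
    rw [← Set.ncard_coe_finset]
    refine le_trans (Set.ncard_le_ncard ?_ ((Finset.finite_toSet S).image fun b : ℕ → ℂ => b p))
      (Set.ncard_image_le (f := fun b : ℕ → ℂ => b p) (Finset.finite_toSet S))
    rintro y ⟨σ, rfl⟩
    exact ⟨fun n => σ (qCoeff g n), (hS _).2 ⟨σ, rfl⟩, by rw [hx]⟩
  obtain ⟨σ, hσ⟩ : ∃ σ : ℂ ≃+* ℂ, B < ‖σ (x : ℂ)‖ := by
    by_contra hne
    push Not at hne
    exact hxY ⟨x.2, horb, hne⟩
  refine le_trans ?_ (Finset.single_le_sum (f := fun b : ℕ → ℂ => ‖b p‖ ^ 2)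
    (fun b _ => sq_nonneg _) ((hS _).2 ⟨σ, rfl⟩))
  rw [hx] at hσ
  exact pow_le_pow_left₀ hB hσ.le 2

/-- One exponent kills the images of all residual representations of a depleted eigenform in
characteristic `≠ 2`. -/
theorem exists_pow_eq_one {ε : DirichletCharacter ℂ N} {g : CuspForm (Gamma1 N) 1}
    (hg : IsDepleted ε (qCoeff g)) :
    ∃ m : ℕ, m ≠ 0 ∧ ∀ (ℓ : ℕ) (R : ResRep ε (qCoeff g) ℓ), (2 : R.k) ≠ 0 →
      ∀ σ, R.ρ σ ^ m = 1 := by
  classical
  have hfin := finite_conjugates hg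
  have hconj : ∀ b ∈ hfin.toFinset, ∃ K : ℝ, 0 ≤ K ∧ ∀ P : Finset ℕ,
      (∀ p ∈ P, p.Prime ∧ ¬ p ∣ N) → ∀ s : ℝ, 1 < s → s ≤ 2 →
      ∑ p ∈ P, ‖b p‖ ^ 2 * (p : ℝ) ^ (-s) ≤ K * (1 - Real.log (s - 1)) := by
    intro b hb
    obtain ⟨σ, rfl⟩ := hfin.mem_toFinset.1 hb
    exact exists_conj_sum_le hg σ
  choose! K hK0 hK using hconj
  -- `Y` consists of the algebraic integers with no more conjugates than there are conjugate
  -- sequences, all of absolute value `≤ B`. It is finite, and if `a_p ∉ Y` the sum of `|b_p|²`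
  -- over the conjugate sequences `b` is at least `B²` (`hbad`).
  set B : ℝ := 8 * (∑ b ∈ hfin.toFinset, K b) + 1 with hB
  have hKs : 0 ≤ ∑ b ∈ hfin.toFinset, K b := Finset.sum_nonneg hK0
  set Y : Finset ZBar := ((finite_bounded_orbit B hfin.toFinset.card).preimage
    Subtype.val_injective.injOn).toFinset with hY
  set A := 2 * Y.card ^ 4 with hA
  refine ⟨A.factorial, Nat.factorial_ne_zero A, fun ℓ R h2 σ₀ => ?_⟩
  have hbad : ∀ p : ℕ, ∀ x : ZBar, (x : ℂ) = qCoeff g p → x ∉ Y →
      B ^ 2 ≤ ∑ b ∈ hfin.toFinset, ‖b p‖ ^ 2 := by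
    intro p x hx hxY
    simp only [hY, Set.Finite.mem_toFinset, Set.mem_preimage, Set.mem_ofPred_eq] at hxY
    exact sq_le_sum_conj (fun b => hfin.mem_toFinset) (by linarith) p hx hxY
  -- By the mean square bounds and Chebotarev at most an eighth of the image has trace outside
  -- the reduction of `Y`, which bounds the order of the image in terms of `|Y|` alone.
  obtain ⟨L, _, _, ρ', hρ'⟩ := exists_galois_level R.finite_level
  have := Fintype.ofFinite Gal(L/ℚ)
  let T : Gal(L/ℚ) → ℝ := fun x => if (ρ' x).trace ∈ Y.image R.φ then 0 else 1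
  have hdens : ∑ x, T x ≤ (1 / 8 : ℝ) * Fintype.card Gal(L/ℚ) := by
    refine sum_le_of_chebotarev L (C := ((insert ℓ N.primeFactors).card : ℝ) + 1 / 8)
      (fun x => by dsimp only [T]; split_ifs <;> norm_num)
      (fun x y => by simp only [T, trace_map_conj]) fun P hP s hs hs2 => ?_
    rw [← Finset.sum_filter_add_sum_filter_not P (fun p => p ∈ insert ℓ N.primeFactors)]
    rw [add_sub_assoc]
    refine add_le_add ?_ ?_
    · refine (Finset.sum_le_card_nsmul _ _ 1 fun p hp => ?_).trans ?_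
      · refine mul_le_one₀ (by dsimp only [T]; split_ifs <;> norm_num)
          (Real.rpow_nonneg (Nat.cast_nonneg p) _) (Real.rpow_le_one_of_one_le_of_nonpos
            (by exact_mod_cast (hP p (Finset.mem_filter.1 hp).1).one_le) (by linarith))
      · rw [nsmul_eq_mul, mul_one, Nat.cast_le]
        exact Finset.card_le_card fun p hp => (Finset.mem_filter.1 hp).2
    · set P' := P.filter fun p => p ∉ insert ℓ N.primeFactors with hP'
      have hP'g : ∀ p ∈ P', p.Prime ∧ ¬ p ∣ N ∧ p ≠ ℓ := by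
        intro p hp
        obtain ⟨hp, hnot⟩ := Finset.mem_filter.1 hp
        simp only [Finset.mem_insert, not_or, Nat.mem_primeFactors] at hnot
        exact ⟨hP p hp, fun hd => hnot.2 ⟨hP p hp, hd, NeZero.ne N⟩, hnot.1⟩
      have hterm : ∀ p ∈ P', T (frobL L p) * B ^ 2 ≤ ∑ b ∈ hfin.toFinset, ‖b p‖ ^ 2 := by
        intro p hp
        obtain ⟨hpp, hpN, hpℓ⟩ := hP'g p hp
        dsimp only [T]
        split_ifs with hT
        · rw [zero_mul]; exact Finset.sum_nonneg fun b _ => sq_nonneg _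
        · rw [one_mul]
          refine hbad p ⟨_, isIntegral_coeff hg p⟩ rfl fun hx => hT ?_
          rw [frobL, hρ', (R.frobenius p hpp hpN hpℓ _ (exists_liesOverPrime hpp).choose_spec _
            (frobAt_spec hpp) ⟨_, isIntegral_coeff hg p⟩ ⟨_, isIntegral_character ε (p : ZMod N)⟩
            rfl rfl).1]
          exact Finset.mem_image_of_mem _ hx
      have hB1 : 1 ≤ B := by linarith
      have hsum : (∑ p ∈ P', T (frobL L p) * (p : ℝ) ^ (-s)) * B ^ 2 ≤
          (∑ b ∈ hfin.toFinset, K b) * (1 - Real.log (s - 1)) := by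
        rw [Finset.sum_mul, Finset.sum_mul]
        calc _ ≤ ∑ p ∈ P', ∑ b ∈ hfin.toFinset, ‖b p‖ ^ 2 * (p : ℝ) ^ (-s) :=
              Finset.sum_le_sum fun p hp => by
                rw [mul_right_comm, ← Finset.sum_mul]
                exact mul_le_mul_of_nonneg_right (hterm p hp)
                  (Real.rpow_nonneg (Nat.cast_nonneg p) _)
          _ ≤ _ := by
              rw [Finset.sum_comm]
              exact Finset.sum_le_sum fun b hb => hK b hb P'
                (fun p hp => ⟨(hP'g p hp).1, (hP'g p hp).2.1⟩) s hs hs2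
      have hlog : 0 ≤ -Real.log (s - 1) := by
        linarith [Real.log_nonpos (by linarith : (0 : ℝ) ≤ s - 1) (by linarith)]
      have hBK : 8 * (∑ b ∈ hfin.toFinset, K b) ≤ B ^ 2 := by nlinarith
      refine le_of_mul_le_mul_right (hsum.trans ?_) (show (0 : ℝ) < B ^ 2 by positivity)
      nlinarith
  exact pow_eq_one_of_few_traces ρ' h2 (hρ' := fun σ => hρ' σ) R.shape (Y.image R.φ)
    (hA ▸ Nat.mul_le_mul_left 2 (Nat.pow_le_pow_left Finset.card_image_le 4)) hdens σ₀

/-! ### Reducible representations have mean square trace at least two -/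

/-- The sum of two characters of a finite group has mean square absolute value at least two. -/
theorem two_mul_card_le_sum_sq {H : Type*} [Group H] [Fintype H] (χ₁ χ₂ : H →* ℂ) :
    2 * (Fintype.card H : ℝ) ≤ ∑ h, ‖χ₁ h + χ₂ h‖ ^ 2 := by
  classical
  have hunit : ∀ (χ : H →* ℂ) (h : H), ‖χ h‖ = 1 := fun χ h =>
    Complex.norm_eq_one_of_pow_eq_one (by rw [← map_pow, pow_card_eq_one, map_one])
      Fintype.card_ne_zero
  let ψ : H →* ℂ :=
    { toFun := fun h => χ₁ h * (starRingEnd ℂ) (χ₂ h)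
      map_one' := by simp
      map_mul' := fun a b => by simp only [map_mul]; ring }
  have hexp : ∀ h, ‖χ₁ h + χ₂ h‖ ^ 2 = 2 + 2 * (ψ h).re := by
    intro h
    have h1 := Complex.normSq_add (χ₁ h) (χ₂ h)
    simp only [Complex.normSq_eq_norm_sq, hunit] at h1
    rw [h1]
    show _ = _ + 2 * (χ₁ h * (starRingEnd ℂ) (χ₂ h)).re
    ring
  have hψ : (0 : ℝ) ≤ (∑ h, ψ h).re := by
    rw [sum_hom_units ψ]
    split_ifs <;> simp
  rw [Complex.re_sum] at hψ
  simp_rw [hexp, Finset.sum_add_distrib, ← Finset.mul_sum, Finset.sum_const, Finset.card_univ,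
    nsmul_eq_mul]
  linarith

/-- The trace of a `2 × 2` matrix with eigenvalue `c ≠ 0`. -/
theorem trace_eq_of_fixed_line {K : Type*} [Field K] {M : Matrix (Fin 2) (Fin 2) K}
    {v : Fin 2 → K} (hv : v ≠ 0) {c : K} (hc : c ≠ 0) (h : M.mulVec v = c • v) :
    M.trace = c + M.det * c⁻¹ := by
  have hdet : (M - c • (1 : Matrix (Fin 2) (Fin 2) K)).det = 0 :=
    Matrix.exists_mulVec_eq_zero_iff.1 ⟨v, hv, by
      rw [Matrix.sub_mulVec, h, Matrix.smul_mulVec, Matrix.one_mulVec, sub_self]⟩
  simp [Matrix.det_fin_two] at hdet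
  rw [Matrix.trace_fin_two, Matrix.det_fin_two]
  field_simp
  linear_combination -hdet

/-- The trace of a reducible two-dimensional representation is a sum of two characters. -/
theorem exists_characters_of_not_irreducible {H : Type} [Group H]
    (σ : H →* GL (Fin 2) ℂ) (h : ¬ (Deformation.matrixRepresentation σ).IsIrreducible) :
    ∃ χ₁ χ₂ : H →* ℂ, ∀ y, (σ y : Matrix (Fin 2) (Fin 2) ℂ).trace = χ₁ y + χ₂ y := by
  set r := Deformation.matrixRepresentation σ
  have : Nontrivial (Subrepresentation r) := by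
    refine ⟨⊥, ⊤, fun he => ?_⟩
    have h1 : (⊥ : Submodule ℂ (Fin 2 → ℂ)) = ⊤ := congrArg Subrepresentation.toSubmodule he
    exact bot_ne_top h1
  -- A proper invariant subspace is a line, acted on by a character.
  obtain ⟨W, hW0, hW1⟩ : ∃ W : Subrepresentation r, W ≠ ⊥ ∧ W ≠ ⊤ := by
    by_contra hne
    push Not at hne
    exact h ⟨fun W => or_iff_not_imp_left.2 (hne W)⟩
  have hdim : Module.finrank ℂ W.toSubmodule = 1 := by
    have h2 : Module.finrank ℂ W.toSubmodule ≤ 2 :=
      (Submodule.finrank_le _).trans_eq (Module.finrank_fin_fun ℂ)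
    rcases Nat.lt_or_ge (Module.finrank ℂ W.toSubmodule) 1 with h0 | h1
    · exact absurd (Subrepresentation.toSubmodule_injective
        ((Submodule.finrank_eq_zero.1 (by omega)).trans rfl)) hW0
    · by_contra hne
      exact hW1 (Subrepresentation.toSubmodule_injective
        ((Submodule.eq_top_of_finrank_eq (by rw [Module.finrank_fin_fun]; omega)).trans rfl))
  obtain ⟨⟨v, hvW⟩, hv0, hspan⟩ := finrank_eq_one_iff'.1 hdim
  have hv : v ≠ 0 := fun h0 => hv0 (Subtype.ext h0)
  have hline : ∀ y, ∃ c : ℂ, (σ y : Matrix (Fin 2) (Fin 2) ℂ).mulVec v = c • v := fun y => by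
    obtain ⟨c, hc⟩ := hspan ⟨_, W.apply_mem_toSubmodule y hvW⟩
    refine ⟨c, ?_⟩
    simpa [r] using (congrArg Subtype.val hc).symm
  choose c hc using hline
  have hinj : ∀ a b : ℂ, a • v = b • v → a = b := fun a b hab => smul_left_injective ℂ hv hab
  have hc1 : c 1 = 1 := hinj _ _ (by rw [← hc, map_one, Units.val_one, Matrix.one_mulVec, one_smul])
  have hcm : ∀ a b, c (a * b) = c a * c b := fun a b => hinj _ _ (by
    rw [← hc, map_mul, Units.val_mul, ← Matrix.mulVec_mulVec, hc, Matrix.mulVec_smul, hc, smul_smul,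
      mul_comm])
  let χ₁ : H →* ℂ := { toFun := c, map_one' := hc1, map_mul' := hcm }
  -- The other character is the determinant divided by it.
  refine ⟨χ₁,
    { toFun := fun y => (σ y : Matrix (Fin 2) (Fin 2) ℂ).det * χ₁ y⁻¹
      map_one' := by simp
      map_mul' := fun a b => by
        simp only [map_mul, Units.val_mul, Matrix.det_mul, mul_inv_rev]; ring },
    fun y => ?_⟩
  have hne : c y ≠ 0 := fun h0 => by
    have := hcm y y⁻¹
    rw [mul_inv_cancel, hc1, h0, zero_mul] at this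
    exact one_ne_zero this
  rw [trace_eq_of_fixed_line hv hne (hc y)]
  show _ = c y + _ * c y⁻¹
  congr 2
  refine inv_eq_of_mul_eq_one_right ?_
  rw [← hcm, mul_inv_cancel, hc1]

/-! ### Pull-back along a surjection -/

/-- Irreducibility is preserved by composition with a surjection. -/
theorem isIrreducible_comp {H K : Type} [Group H] [Group K] {π : H →* K}
    (hπ : Function.Surjective π) (σ : K →* GL (Fin 2) ℂ)
    (h : (Deformation.matrixRepresentation σ).IsIrreducible) :
    (Deformation.matrixRepresentation (σ.comp π)).IsIrreducible := by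
  have : Nontrivial (Subrepresentation (Deformation.matrixRepresentation (σ.comp π))) :=
    ⟨⊥, ⊤, fun he => bot_ne_top
      (congrArg Subrepresentation.toSubmodule he : (⊥ : Submodule ℂ (Fin 2 → ℂ)) = ⊤)⟩
  refine ⟨fun W => ?_⟩
  let W' : Subrepresentation (Deformation.matrixRepresentation σ) :=
    ⟨W.toSubmodule, fun k v hv => by
      obtain ⟨x, rfl⟩ := hπ k
      exact W.apply_mem_toSubmodule x hv⟩
  refine (h.eq_bot_or_eq_top W').imp (fun he => ?_) fun he => ?_ <;>
  · refine Subrepresentation.toSubmodule_injective ?_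
    exact (congrArg Subrepresentation.toSubmodule he : _)

end Fermat.Agent.DeligneSerre
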