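import Fermat.Agent.DeligneSerre.ConnectedRam
import Fermat.Agent.DeligneSerre.ArchVal
import Fermat.Agent.DeligneSerre.ModelAdjoin

/-!
# Lifting powers from the reduction of a curve with good reduction

If a function has divisor divisible by a prime `ℓ` other than the residue characteristic and the
reduction of the function is a nonzero `ℓ`-th power, then the function is an `ℓ`-th power: otherwise
its `ℓ`-th root generates an unramified cyclic cover, whose reduction would be disconnected. The
curve is a cover of the `j`-line with ramification bounded as for modular curves, over an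
archimedean valuation ring.
-/

set_option autoImplicit false

noncomputable section

open scoped Classical
open Polynomial AlgebraicCurve

namespace Fermat.Agent.DeligneSerre

open Fermat.Agent.EichlerShimura Fermat.Agent.FF

section Unramified

variable {K F F' : Type*} [Field K] [IsAlgClosed K] [Field F] [Field F'] [Algebra K F]
  [Algebra K F'] [Algebra F F'] [IsScalarTower K F F'] [FiniteDimensional F F']
  [IsFunctionField K F] [IsFunctionField K F']

theorem exists_ne_zero_sub_mem (w : Place K F') {f : F'} (hf : f ≠ 0) (h0 : w.ord f = 0) :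
    ∃ b : K, b ≠ 0 ∧ f - algebraMap K F' b ∈ ordGe w 1 := by
  have hm : f ∈ w.toValuationSubring := (mem_iff_ord w hf).mpr h0.ge
  refine ⟨valAtP w ⟨f, hm⟩, fun hb => ?_, sub_valAtP_mem w hm⟩
  have h1 := sub_valAtP_mem w hm
  rw [hb, map_zero, sub_zero] at h1
  have := le_ord_of_mem_ordGe w hf h1
  omega

/-- An extension generated by an `n`-th root of a function with divisor divisible by `n`, with
all the automorphisms `u ↦ ζ u`, is unramified. -/
theorem ramificationIndex_eq_one_of_pow {n : ℕ} [NeZero (n : K)] {z : F} (hz : z ≠ 0) {u : F'}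
    (hu : u ^ n = algebraMap F F' z) (hdeg : Module.finrank F F' = n)
    (hdvd : ∀ P : Place K F, (n : ℤ) ∣ P.ord z)
    (haut : ∀ ζ : K, ζ ^ n = 1 → ∃ τ : F' ≃ₐ[F] F', τ u = algebraMap K F' ζ * u)
    (w : Place K F') : w.ramificationIndex F = 1 := by
  have hn0 : n ≠ 0 := fun h => NeZero.ne (n : K) (by rw [h, Nat.cast_zero])
  set v := w.restrict F with hv
  obtain ⟨k, hk⟩ := hdvd v
  obtain ⟨t, ht0, ht⟩ := FF.exists_ord_eq v k
  have hu0 : u ≠ 0 := fun h =>
    (_root_.map_ne_zero (algebraMap F F')).mpr hz (by rw [← hu, h, zero_pow hn0])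
  have htn : algebraMap F F' t ≠ 0 := (_root_.map_ne_zero _).mpr ht0
  set u' := u / algebraMap F F' t with hu'
  have hu'0 : u' ≠ 0 := div_ne_zero hu0 htn
  have hord : w.ord u' = 0 := by
    have h1 : w.ord (u' ^ n) = 0 := by
      rw [hu', div_pow, hu, ← map_pow, ord_div w ((_root_.map_ne_zero _).mpr hz)
        ((_root_.map_ne_zero _).mpr (pow_ne_zero _ ht0)), w.ord_restrict (F := F),
        w.ord_restrict (F := F), ← hv, hk, FF.ord_pow, ht, sub_self]
    rw [FF.ord_pow] at h1
    exact (mul_eq_zero.mp h1).resolve_left (by exact_mod_cast hn0)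
  obtain ⟨b, hb0, hb⟩ := exists_ne_zero_sub_mem w hu'0 hord
  -- the conjugate places are distinguished by the value of `u'`
  obtain ⟨ζ₀, hζ₀⟩ := HasEnoughRootsOfUnity.exists_primitiveRoot K n
  have hz1 : ∀ i : Fin n, (ζ₀ ^ (i : ℕ)) ^ n = 1 := fun i => by
    rw [← pow_mul, mul_comm, pow_mul, hζ₀.pow_eq_one, one_pow]
  choose τ hτ using fun i => haut _ (hz1 i)
  let σ : Fin n → F' ≃ₐ[K] F' := fun i => (τ i).restrictScalars K
  have hσmem : ∀ (i : Fin n) (f : F') (m : ℤ), f ∈ ordGe w m → σ i f ∈ ordGe (σ i • w) m := by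
    intro i f m hf
    rcases (mem_ordGe w).mp hf with rfl | h
    · rw [map_zero]; exact zero_mem _
    · exact mem_ordGe_of_le _ (by rw [Place.ord_smul]; exact h)
  have hval : ∀ i : Fin n,
      u' - algebraMap K F' (b * (ζ₀ ^ (i : ℕ))⁻¹) ∈ ordGe (σ i • w) 1 := by
    intro i
    have hne : ζ₀ ^ (i : ℕ) ≠ 0 := pow_ne_zero _ (hζ₀.ne_zero hn0)
    have hσu : σ i u' = algebraMap K F' (ζ₀ ^ (i : ℕ)) * u' := by
      show τ i (u / algebraMap F F' t) = _
      rw [map_div₀, hτ, AlgEquiv.commutes, hu', mul_div_assoc]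
    have h := hσmem i _ 1 hb
    rw [map_sub, hσu, AlgEquiv.commutes] at h
    have h2 := Submodule.smul_mem _ (ζ₀ ^ (i : ℕ))⁻¹ h
    rw [Algebra.smul_def, mul_sub, ← mul_assoc, ← map_mul, inv_mul_cancel₀ hne, map_one, one_mul,
      ← map_mul, mul_comm _ b] at h2
    exact h2
  have hres : ∀ i, (σ i • w).restrict F = v := by
    intro i
    refine Place.ext (SetLike.ext fun f => ?_)
    rw [hv, Place.mem_restrict_iff, Place.mem_restrict_iff, Place.smul_toValuationSubring,
      ValuationSubring.mem_pointwise_smul_iff_inv_smul_mem]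
    show (σ i)⁻¹ (algebraMap F F' f) ∈ _ ↔ _
    rw [show (σ i)⁻¹ (algebraMap F F' f) = algebraMap F F' f from (τ i).symm.commutes f]
  have hinj : Function.Injective fun i => σ i • w := by
    intro i j hij
    have hi := hval i
    have hj := hval j
    simp only at hij
    rw [hij] at hi
    have he := disc_center_unique hi hj
    exact Fin.ext (hζ₀.pow_inj i.2 j.2 (inv_injective (mul_left_cancel₀ hb0 he)))
  -- the fundamental identity
  have hfib := fundamental_identity (F' := F') v
  have hsub : Finset.univ.image (fun i => σ i • w) ⊆ v.fiber F' := fun x hx => by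
    obtain ⟨i, -, rfl⟩ := Finset.mem_image.mp hx
    exact Place.mem_fiber.mpr (hres i)
  have hcard : (Finset.univ.image fun i => σ i • w).card = n := by
    rw [Finset.card_image_of_injective _ hinj, Finset.card_univ, Fintype.card_fin]
  simp only [FF.deg_eq_one, Nat.cast_one, mul_one, hdeg] at hfib
  have hge : ∀ x ∈ v.fiber F', (1 : ℤ) ≤ x.ramificationIndex F := fun x _ => by
    exact_mod_cast x.ramificationIndex_pos
  have hle : (v.fiber F').card ≤ n := by
    have := Finset.sum_le_sum hge
    rw [Finset.sum_const, nsmul_one, hfib] at this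
    exact_mod_cast this
  have hcard' : (v.fiber F').card = n :=
    le_antisymm hle (hcard.symm.le.trans (Finset.card_le_card hsub))
  have hall : ∀ x ∈ v.fiber F', (1 : ℤ) = x.ramificationIndex F :=
    (Finset.sum_eq_sum_iff_of_le hge).mp (by
      rw [hfib, Finset.sum_const, hcard', nsmul_one])
  exact_mod_cast (hall w (Place.mem_fiber.mpr hv.symm)).symm

end Unramified

variable {L : Type*} [Field L] [IsAlgClosed L] [CharZero L] {A : ValuationSubring L}
  [IsAlgClosed (Kappa A)] {ι : Type*} [Fintype ι] [DecidableEq ι]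
variable {E : Type*} [Field E] [Algebra (RatFunc L) E] [Algebra L E] [IsScalarTower L (RatFunc L) E]
  [FiniteDimensional (RatFunc L) E] [IsFunctionField L E]
variable {Eb : Type*} [Field Eb] [Algebra (RatFunc (Kappa A)) Eb]
  [Algebra.IsSeparable (RatFunc (Kappa A)) Eb]

/-- **Powers lift from the reduction.** -/
theorem exists_pow_eq_of_red (M : Model A ι E Eb) (harch : IsArchVal A) {x : E}
    (hx : algebraMap (RatFunc L) E RatFunc.X = x) {N : ℕ} (hN : N ≠ 0)
    (h0 : ∀ P : Place L E, 0 < P.ord x → P.ord x ∣ 3)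
    (h1728 : ∀ P : Place L E, 0 < P.ord (x - algebraMap L E 1728) →
      P.ord (x - algebraMap L E 1728) ∣ 2)
    (hgen : ∀ a : L, a ≠ 0 → a ≠ 1728 → ∀ P : Place L E, 0 < P.ord (x - algebraMap L E a) →
      P.ord (x - algebraMap L E a) ∣ 1)
    (hpole : ∀ P : Place L E, P.ord x < 0 → P.ord x ∣ (N : ℤ))
    {ℓ : ℕ} (hℓ : ℓ.Prime) (hℓA : (ℓ : Kappa A) ≠ 0) (z : M.S) {g : Eb} (hg0 : g ≠ 0)
    (hg : M.red z = g ^ ℓ) (hdvd : ∀ P : Place L E, (ℓ : ℤ) ∣ P.ord (z : E)) :
    ∃ w : E, w ^ ℓ = (z : E) := by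
  by_contra hno
  push Not at hno
  have hz : (z : E) ≠ 0 := fun h => pow_ne_zero ℓ hg0 (by
    rw [← hg, show z = 0 from Subtype.ext h, map_zero])
  -- Otherwise an `ℓ`-th root `u` of `z` generates an extension `E1` of degree `ℓ`. It has a model
  -- `M1` with reduction `Eb[X]/(X^ℓ - g^ℓ)`, a separable algebra.
  have hirr : Irreducible (X ^ ℓ - C (z : E)) := X_pow_sub_C_irreducible_of_prime hℓ hno
  have := Fact.mk hirr
  set Φ : M.S[X] := X ^ ℓ - C z with hΦ
  have hmon : Φ.Monic := monic_X_pow_sub_C _ hℓ.ne_zero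
  have hM : Nontrivial M.S := M.red.domain_nontrivial
  have hnd : Φ.natDegree = ℓ := natDegree_X_pow_sub_C
  set E1 := AdjoinRoot (X ^ ℓ - C (z : E))
  have hmonE : (X ^ ℓ - C (z : E)).Monic := monic_X_pow_sub_C _ hℓ.ne_zero
  let b1 : Module.Basis (Fin ℓ) E E1 :=
    (AdjoinRoot.powerBasis hmonE.ne_zero).basis.reindex
      (finCongr (by simp))
  set u : E1 := AdjoinRoot.root _ with hu
  have hb1 : ∀ i : Fin ℓ, b1 i = u ^ (i : ℕ) := fun i => by
    simp [b1, hu, PowerBasis.coe_basis]
  have hupow : u ^ ℓ = algebraMap E E1 (z : E) := by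
    have h := AdjoinRoot.eval₂_root (X ^ ℓ - C (z : E))
    rw [eval₂_sub, eval₂_X_pow, eval₂_C, sub_eq_zero] at h
    exact h
  have hroot : evU M u Φ = 0 := by
    simp [evU, hΦ, hupow]
  have hΦb : Φ.map M.red = X ^ ℓ - C (g ^ ℓ) := by
    simp [hΦ, hg]
  have hℓb : (ℓ : Eb) ≠ 0 := by
    rw [← map_natCast ((algebraMap (RatFunc (Kappa A)) Eb).comp
      (algebraMap (Kappa A) (RatFunc (Kappa A))))]
    exact (_root_.map_ne_zero _).mpr hℓA
  have hsep : (Φ.map M.red).Separable := by
    rw [hΦb]; exact separable_X_pow_sub_C _ hℓb (pow_ne_zero _ hg0)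
  set M1 := adjoinModel (M := M) (U := u) hb1 hmon hnd hroot hsep
  have : FiniteDimensional E E1 := Module.Finite.of_basis b1
  have : FiniteDimensional (RatFunc L) E1 := Module.Finite.trans E E1
  have : IsScalarTower L (RatFunc L) E1 := IsScalarTower.of_algebraMap_eq fun c => by
    rw [IsScalarTower.algebraMap_apply L E E1, IsScalarTower.algebraMap_apply (RatFunc L) E E1,
      ← IsScalarTower.algebraMap_apply L (RatFunc L) E]
  have : IsFunctionField L E1 := isFunctionField_extension L E E1
  have : NeZero (ℓ : L) := ⟨Nat.cast_ne_zero.mpr hℓ.ne_zero⟩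
  have hfr : Module.finrank E E1 = ℓ := by
    rw [Module.finrank_eq_card_basis b1, Fintype.card_fin]
  have hu0 : u ≠ 0 := fun h => (_root_.map_ne_zero (algebraMap E E1)).mpr hz
    (by rw [← hupow, h, zero_pow hℓ.ne_zero])
  -- `E1/E` is unramified, so elements of `E` have the same orders at a place of `E1` as below it,
  -- and the ramification over the `j`-line is bounded as before.
  have haut : ∀ ζ : L, ζ ^ ℓ = 1 → ∃ τ : E1 ≃ₐ[E] E1, τ u = algebraMap L E1 ζ * u := by
    intro ζ hζ
    let f : E1 →ₐ[E] E1 := AdjoinRoot.liftAlgHom _ (Algebra.ofId E E1) (algebraMap L E1 ζ * u) (by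
      show eval₂ (algebraMap E E1) (algebraMap L E1 ζ * u) _ = 0
      rw [eval₂_sub, eval₂_X_pow, eval₂_C, mul_pow, ← map_pow, hζ, map_one, one_mul, hupow,
        sub_self])
    exact ⟨AlgEquiv.ofBijective f (AlgHom.bijective f),
      by rw [AlgEquiv.ofBijective_apply]; exact eval₂_X (algebraMap E E1) _⟩
  have he : ∀ w : Place L E1, w.ramificationIndex E = 1 :=
    fun w => ramificationIndex_eq_one_of_pow hz hupow hfr hdvd haut w
  have hord : ∀ (w : Place L E1) (f : E), w.ord (algebraMap E E1 f) = (w.restrict E).ord f :=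
    fun w f => by rw [w.ord_restrict (F := E), he w, Nat.cast_one, one_mul]
  set x1 : E1 := algebraMap E E1 x
  have hx1 : algebraMap (RatFunc L) E1 RatFunc.X = x1 := by
    rw [IsScalarTower.algebraMap_apply (RatFunc L) E E1, hx]
  have hsubc : ∀ a : L, x1 - algebraMap L E1 a = algebraMap E E1 (x - algebraMap L E a) :=
    fun a => by rw [map_sub, ← IsScalarTower.algebraMap_apply L E E1]
  have : Nontrivial (AdjoinRoot (Φ.map M.red)) := AdjoinRoot.nontrivial _ (by
    rw [hmon.degree_map, degree_eq_natDegree hmon.ne_zero, hnd]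
    exact_mod_cast hℓ.ne_zero)
  -- So the reduction of `M1` is connected, hence a field and `X^ℓ - g^ℓ` irreducible, although it
  -- has the root `g`.
  have hidem : ∀ e : AdjoinRoot (Φ.map M.red), IsIdempotentElem e → e = 0 ∨ e = 1 := fun e hee =>
    idem_eq_zero_or_one_of_ord M1 harch hx1 hN
      (fun P hP => by rw [hord] at hP ⊢; exact h0 _ hP)
      (fun P hP => by rw [hsubc, hord] at hP ⊢; exact h1728 _ hP)
      (fun a ha ha' P hP => by rw [hsubc, hord] at hP ⊢; exact hgen a ha ha' _ hP)
      (fun P hP => by rw [hord] at hP ⊢; exact hpole _ hP) hee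
  have : IsReduced (AdjoinRoot (Φ.map M.red)) :=
    isReduced_of_discr_ne_zero M1.bb M1.disc_ne
  have : Module.Finite (RatFunc (Kappa A)) (AdjoinRoot (Φ.map M.red)) :=
    Module.Finite.of_basis M1.bb
  have : IsArtinianRing (AdjoinRoot (Φ.map M.red)) :=
    IsArtinianRing.of_finite (RatFunc (Kappa A)) _
  have hfield := isField_of_idem hidem
  have hPne : Φ.map M.red ≠ 0 := (hmon.map _).ne_zero
  have hirrb : Irreducible (Φ.map M.red) := by
    have hmax : (Ideal.span ({Φ.map M.red} : Set Eb[X])).IsMaximal :=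
      Ideal.Quotient.maximal_of_isField _ hfield
    exact ((Ideal.span_singleton_prime hPne).mp hmax.isPrime).irreducible
  have hrootb : (Φ.map M.red).IsRoot g := by
    simp [hΦb]
  have hone := natDegree_eq_of_degree_eq_some
    (degree_eq_one_of_irreducible_of_root hirrb hrootb)
  rw [hmon.natDegree_map, hnd] at hone
  exact hℓ.one_lt.ne' hone

end Fermat.Agent.DeligneSerre
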