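import Fermat.Agent.RedTorsion.Series
import Fermat.Agent.EichlerShimura.HeckeNorm

/-!
# Reduction of series up to a constant

`IsRed A f r`: some scalar multiple of `f` is a quotient of primitive integral series whose
reduction is `r`.
-/

set_option autoImplicit false

noncomputable section

open IsLocalRing ModularCurve

namespace Fermat.Agent.DeligneSerre

open Fermat.Agent.RedTorsion

variable {L : Type*} [Field L] (A : ValuationSubring L)

/-- `r` is a reduction of a scalar multiple of `f`. -/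
def IsRed (f : LaurentSeries L) (r : LaurentSeries (ResidueField A)) : Prop :=
  ∃ c : L, c ≠ 0 ∧ ∃ d e : serInt A, serRed A d ≠ 0 ∧ serRed A e ≠ 0 ∧
    f * (d : LaurentSeries L) = algebraMap L (LaurentSeries L) c * (e : LaurentSeries L) ∧
    r * serRed A d = serRed A e

variable {A}

theorem coe_ne_zero_of_serRed_ne_zero {d : serInt A} (h : serRed A d ≠ 0) :
    (d : LaurentSeries L) ≠ 0 := fun h0 => h (by rw [show d = 0 from Subtype.ext h0, map_zero])

namespace IsRed

variable {f g : LaurentSeries L} {r s : LaurentSeries (ResidueField A)}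

theorem red_ne_zero (h : IsRed A f r) : r ≠ 0 := by
  obtain ⟨c, -, d, e, -, he, -, hr⟩ := h
  exact fun h0 => he (by rw [← hr, h0, zero_mul])

theorem ne_zero (h : IsRed A f r) : f ≠ 0 := by
  obtain ⟨c, hc, d, e, -, he, hf, -⟩ := h
  intro h0
  rw [h0, zero_mul] at hf
  exact mul_ne_zero ((_root_.map_ne_zero _).mpr hc) (coe_ne_zero_of_serRed_ne_zero he) hf.symm

theorem of_frac {f : LaurentSeries L} {d e : serInt A} (hd : serRed A d ≠ 0) (he : serRed A e ≠ 0)
    (h : f * (d : LaurentSeries L) = e) : IsRed A f (serRed A e / serRed A d) :=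
  ⟨1, one_ne_zero, d, e, hd, he, by simpa using h, div_mul_cancel₀ _ hd⟩

theorem const {c : L} (hc : c ≠ 0) : IsRed A (algebraMap L (LaurentSeries L) c) 1 :=
  ⟨c, hc, 1, 1, by rw [map_one]; exact one_ne_zero, by rw [map_one]; exact one_ne_zero,
    by simp, by simp⟩

protected theorem one : IsRed A (1 : LaurentSeries L) 1 := by
  simpa using IsRed.const (A := A) (one_ne_zero (α := L))

protected theorem mul (h : IsRed A f r) (h' : IsRed A g s) : IsRed A (f * g) (r * s) := by
  obtain ⟨c, hc, d, e, hd, he, hf, hr⟩ := h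
  obtain ⟨c', hc', d', e', hd', he', hg, hs⟩ := h'
  refine ⟨c * c', mul_ne_zero hc hc', d * d', e * e', by rw [map_mul]; exact mul_ne_zero hd hd',
    by rw [map_mul]; exact mul_ne_zero he he', ?_, ?_⟩
  · rw [Subring.coe_mul, Subring.coe_mul, map_mul, mul_mul_mul_comm, hf, hg]; ring
  · rw [map_mul, map_mul, mul_mul_mul_comm, hr, hs]

protected theorem inv (h : IsRed A f r) : IsRed A f⁻¹ r⁻¹ := by
  have hf0 := h.ne_zero
  have hr0 := h.red_ne_zero
  obtain ⟨c, hc, d, e, hd, he, hf, hr⟩ := h
  refine ⟨c⁻¹, inv_ne_zero hc, e, d, he, hd, ?_, ?_⟩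
  · refine mul_left_cancel₀ hf0 ?_
    rw [mul_inv_cancel_left₀ hf0, mul_left_comm, hf, ← mul_assoc, ← map_mul, inv_mul_cancel₀ hc,
      map_one, one_mul]
  · rw [← hr, inv_mul_cancel_left₀ hr0]

protected theorem pow (h : IsRed A f r) : ∀ n : ℕ, IsRed A (f ^ n) (r ^ n)
  | 0 => by simpa using IsRed.one (A := A)
  | n + 1 => by simpa [pow_succ] using (h.pow n).mul h

protected theorem prod {ι : Type*} (S : Finset ι) {F : ι → LaurentSeries L}
    {R : ι → LaurentSeries (ResidueField A)} (h : ∀ i ∈ S, IsRed A (F i) (R i)) :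
    IsRed A (∏ i ∈ S, F i) (∏ i ∈ S, R i) := by
  classical
  induction S using Finset.induction with
  | empty => simpa using IsRed.one (A := A)
  | insert i S hi ih =>
    rw [Finset.prod_insert hi, Finset.prod_insert hi]
    exact (h i (Finset.mem_insert_self _ _)).mul
      (ih fun j hj => h j (Finset.mem_insert_of_mem hj))

/-- The reduction is only defined up to a constant. -/
theorem const_mul (h : IsRed A f r) {k : ResidueField A} (hk : k ≠ 0) :
    IsRed A f (algebraMap _ (LaurentSeries (ResidueField A)) k * r) := by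
  obtain ⟨c, hc, d, e, hd, he, hf, hr⟩ := h
  obtain ⟨a, rfl⟩ := residue_surjective (R := A) k
  have ha : (a : L) ≠ 0 := fun h0 => hk (by rw [show a = 0 from Subtype.ext h0, map_zero])
  have ha' : serRed A (⟨_, algebraMap_mem_serInt a.2⟩ : serInt A) ≠ 0 := by
    rw [serRed_algebraMap a.2]; exact (_root_.map_ne_zero _).mpr hk
  refine ⟨c / a, div_ne_zero hc ha, d, ⟨_, algebraMap_mem_serInt a.2⟩ * e, hd,
    by rw [map_mul]; exact mul_ne_zero ha' he, ?_, ?_⟩
  · rw [Subring.coe_mul, hf, ← mul_assoc, ← map_mul, div_mul_cancel₀ _ ha]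
  · rw [mul_assoc, hr, map_mul, serRed_algebraMap a.2]

theorem unique (h : IsRed A f r) (h' : IsRed A f s) :
    ∃ k : ResidueField A, k ≠ 0 ∧
      s = algebraMap _ (LaurentSeries (ResidueField A)) k * r := by
  obtain ⟨c, hc, d, e, hd, he, hf, hr⟩ := h
  obtain ⟨c', hc', d', e', hd', he', hf', hs⟩ := h'
  -- scalars: `c e d' = c' e' d`
  set a : L := c / c' with ha
  have key : algebraMap L (LaurentSeries L) a * ((e * d' : serInt A) : LaurentSeries L) =
      ((e' * d : serInt A) : LaurentSeries L) := by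
    refine mul_left_cancel₀ ((_root_.map_ne_zero (algebraMap L (LaurentSeries L))).mpr hc') ?_
    rw [← mul_assoc, ← map_mul, ha, mul_div_cancel₀ _ hc', Subring.coe_mul, Subring.coe_mul,
      ← mul_assoc, ← hf, ← mul_assoc, ← hf']
    ring
  have hx : serRed A (e * d') ≠ 0 := by rw [map_mul]; exact mul_ne_zero he hd'
  have hy : serRed A (e' * d) ≠ 0 := by rw [map_mul]; exact mul_ne_zero he' hd
  have haA : a ∈ A := by
    by_contra hna
    have hinv := ((ValuationSubring.mem_or_inv_mem A a).resolve_left hna)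
    have hres : residue A ⟨a⁻¹, hinv⟩ = 0 := by
      rw [residue_eq_zero_iff, mem_maximalIdeal, mem_nonunits_iff]
      intro hu
      obtain ⟨b, hb⟩ := hu.exists_left_inv
      have ha0 : a ≠ 0 := div_ne_zero hc hc'
      have : (b : L) = a := by
        have h1 : (b : L) * a⁻¹ = 1 := congrArg Subtype.val hb
        rwa [mul_inv_eq_one₀ ha0] at h1
      exact hna (this ▸ b.2)
    refine hx ?_
    have : e * d' = ⟨_, algebraMap_mem_serInt hinv⟩ * (e' * d) := Subtype.ext (by
      show ((e * d' : serInt A) : LaurentSeries L) =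
        algebraMap L (LaurentSeries L) a⁻¹ * ((e' * d : serInt A) : LaurentSeries L)
      rw [← key, ← mul_assoc, ← map_mul,
        inv_mul_cancel₀ (div_ne_zero hc hc'), map_one, one_mul])
    rw [this, map_mul, serRed_algebraMap hinv, hres, map_zero, zero_mul]
  set k := residue A ⟨a, haA⟩ with hk
  have hred : algebraMap _ (LaurentSeries (ResidueField A)) k * serRed A (e * d') =
      serRed A (e' * d) := by
    rw [hk, ← serRed_algebraMap haA, ← map_mul]
    exact congrArg _ (Subtype.ext key)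
  refine ⟨k, fun h0 => hy (by rw [← hred, h0, map_zero, zero_mul]), ?_⟩
  refine mul_right_cancel₀ (mul_ne_zero hd hd') ?_
  rw [mul_assoc _ r, ← mul_assoc r, hr, mul_comm (serRed A d), ← mul_assoc s, hs]
  rw [map_mul, map_mul] at hred
  exact hred.symm

/-- Reduction commutes with automorphisms of the coefficients preserving the valuation ring. -/
theorem coeffMap (h : IsRed A f r) (σ : L →+* L) (hσ : ∀ x ∈ A, σ x ∈ A)
    (τ : ResidueField A →+* ResidueField A)
    (hτ : ∀ x : A, τ (residue A x) = residue A ⟨σ x, hσ x x.2⟩) :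
    IsRed A (ModularCurve.coeffMap σ f) (ModularCurve.coeffMap τ r) := by
  obtain ⟨c, hc, d, e, hd, he, hf, hr⟩ := h
  have hmem : ∀ d : serInt A, ModularCurve.coeffMap σ (d : LaurentSeries L) ∈ serInt A := fun d =>
    mem_serInt.mpr fun k => by rw [coeffMap_coeff]; exact hσ _ (mem_serInt.mp d.2 k)
  have hred : ∀ d : serInt A, serRed A ⟨_, hmem d⟩ = ModularCurve.coeffMap τ (serRed A d) := by
    intro d
    ext n
    refine (coeff_serRed _ n).trans ?_
    refine Eq.trans ?_ ((coeffMap_coeff τ _ n).trans (congrArg τ (coeff_serRed d n))).symm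
    rw [hτ]
    exact congrArg (residue A) (Subtype.ext (coeffMap_coeff σ _ n))
  refine ⟨σ c, (_root_.map_ne_zero σ).mpr hc, ⟨_, hmem d⟩, ⟨_, hmem e⟩, ?_, ?_, ?_, ?_⟩
  · rw [hred]; exact (_root_.map_ne_zero _).mpr hd
  · rw [hred]; exact (_root_.map_ne_zero _).mpr he
  · show ModularCurve.coeffMap σ f * ModularCurve.coeffMap σ (d : LaurentSeries L) = _
    rw [← map_mul, hf, map_mul]
    congr 1
    ext k
    simp [algebraMap_laurentSeries_eq_single, HahnSeries.coeff_single]
  · rw [hred, hred, ← map_mul, hr]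

theorem qExpand (h : IsRed A f r) (n : ℕ) [NeZero n] :
    IsRed A (ModularCurve.qExpand L n f) (ModularCurve.qExpand (ResidueField A) n r) := by
  obtain ⟨c, hc, d, e, hd, he, hf, hr⟩ := h
  have hex : ∀ d : serInt A, ∃ d' : serInt A,
      (d' : LaurentSeries L) = ModularCurve.qExpand L n (d : LaurentSeries L) ∧
      serRed A d' = ModularCurve.qExpand (ResidueField A) n (serRed A d) := by
    intro d
    obtain ⟨y, hy⟩ := d.2
    refine ⟨⟨ModularCurve.coeffMap A.subtype (ModularCurve.qExpand A n y), ⟨_, rfl⟩⟩, ?_, ?_⟩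
    · show ModularCurve.coeffMap A.subtype (ModularCurve.qExpand A n y) = _
      rw [coeffMap_qExpand, hy]
    · refine (serRed_coeffMap _ ⟨_, rfl⟩).trans ?_
      rw [coeffMap_qExpand]
      refine congrArg _ ((serRed_coeffMap y ⟨y, rfl⟩).symm.trans ?_)
      exact congrArg _ (Subtype.ext hy)
  obtain ⟨d', hd', hd''⟩ := hex d
  obtain ⟨e', he', he''⟩ := hex e
  refine ⟨c, hc, d', e', by rw [hd'']; exact (_root_.map_ne_zero _).mpr hd,
    by rw [he'']; exact (_root_.map_ne_zero _).mpr he, ?_, ?_⟩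
  · rw [hd', he', ← map_mul, hf, map_mul]
    congr 1
    rw [algebraMap_laurentSeries_eq_single, qExpand_single, mul_zero]
  · rw [hd'', he'', ← map_mul, hr]

end IsRed

section Twist

variable {B : ValuationSubring (AlgebraicClosure ℚ)}

/-- Twisting by a root of unity congruent to one. -/
theorem IsRed.twist {f : LaurentSeries (AlgebraicClosure ℚ)}
    {r : LaurentSeries (ResidueField B)} (h : IsRed B f r) {p : ℕ} [NeZero p]
    [CharP (ResidueField B) p] (hp : p.Prime) (u : (AlgebraicClosure ℚ)ˣ) (hu : u ^ p = 1) :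
    IsRed B (ModFun.twist u f) r := by
  obtain ⟨c, hc, d, e, hd, he, hf, hr⟩ := h
  have hex : ∀ d : serInt B, ∃ d' : serInt B,
      (d' : LaurentSeries (AlgebraicClosure ℚ)) = ModFun.twist u (d : LaurentSeries _) ∧
      serRed B d' = serRed B d := by
    intro d
    obtain ⟨y, hy⟩ := d.2
    obtain ⟨z, hz, hz'⟩ := EichlerShimura.exists_twist_lift (residue B) hp u hu y
    refine ⟨⟨_, ⟨z, rfl⟩⟩, by rw [← hy]; exact hz, ?_⟩
    refine ((serRed_coeffMap _ ⟨_, rfl⟩).trans hz').trans
      ((serRed_coeffMap y ⟨y, rfl⟩).symm.trans ?_)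
    exact congrArg _ (Subtype.ext hy)
  obtain ⟨d', hd', hd''⟩ := hex d
  obtain ⟨e', he', he''⟩ := hex e
  refine ⟨c, hc, d', e', hd''.symm ▸ hd, he''.symm ▸ he, ?_, by rw [hd'', he'', hr]⟩
  rw [hd', he', ← map_mul, hf, map_mul]
  congr 1
  rw [algebraMap_laurentSeries_eq_single, ModFun.twist_single, zpow_zero, Units.val_one, one_mul]

end Twist

end Fermat.Agent.DeligneSerre
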