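import Mathlib.Analysis.Complex.LocallyUniformLimit
import Mathlib.Analysis.Complex.Liouville
import Mathlib.Analysis.Complex.RemovableSingularity
import Mathlib.Analysis.SpecialFunctions.Elliptic.Weierstrass

/-!
# The logarithmic derivative of the theta product

`kerK w τ` is the Lambert series of the logarithmic derivative in `w` of
`sin (π w) ∏ (1 - qⁿ u)(1 - qⁿ / u)`. It has period `1`, changes by `-2πi` under `w ↦ w + τ`, and
satisfies the transformation law under `τ ↦ -1/τ`, proved by Liouville's theorem.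

Main result: `kerK_S`.
-/

set_option autoImplicit false

noncomputable section

open Complex Filter Set Topology
open scoped Real

namespace Fermat.Agent.DeligneSerre

/-! ## Lambert series -/

/-- `x / (1 - x)`. -/
def geomL (x : ℂ) : ℂ := x / (1 - x)

theorem geomL_inv {x : ℂ} (h0 : x ≠ 0) (h1 : x ≠ 1) : geomL x⁻¹ = -1 - geomL x := by
  have h2 : 1 - x ≠ 0 := sub_ne_zero.2 (Ne.symm h1)
  have h3 : x - 1 ≠ 0 := sub_ne_zero.2 h1
  unfold geomL
  field_simp
  ring

theorem norm_geomL_le {x : ℂ} (h : ‖x‖ ≤ 1 / 2) : ‖geomL x‖ ≤ 2 * ‖x‖ := by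
  have h' : 1 / 2 ≤ ‖1 - x‖ := by
    calc (1 : ℝ) / 2 ≤ ‖(1 : ℂ)‖ - ‖x‖ := by rw [norm_one]; linarith
      _ ≤ _ := norm_sub_norm_le _ _
  rw [geomL, norm_div, div_le_iff₀ (by linarith)]
  nlinarith [norm_nonneg x]

theorem differentiableAt_geomL {x : ℂ} (h : x ≠ 1) : DifferentiableAt ℂ geomL x :=
  differentiableAt_id.div ((differentiableAt_const _).sub differentiableAt_id)
    (sub_ne_zero.2 (Ne.symm h))

/-- `∑_{n ≥ 1} L(qⁿ v)`. -/
def lambert (q v : ℂ) : ℂ := ∑' n : ℕ, geomL (q ^ (n + 1) * v)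

theorem summable_lambert {q : ℂ} (hq : ‖q‖ < 1) (v : ℂ) :
    Summable fun n : ℕ => geomL (q ^ (n + 1) * v) := by
  refine Summable.of_norm_bounded_eventually_nat
    (g := fun n => 2 * (‖v‖ * ‖q‖) * ‖q‖ ^ n)
    ((summable_geometric_of_lt_one (norm_nonneg q) hq).mul_left _) ?_
  have hlim : Tendsto (fun n : ℕ => ‖v‖ * ‖q‖ * ‖q‖ ^ n) atTop (𝓝 0) := by
    simpa using (tendsto_pow_atTop_nhds_zero_of_lt_one (norm_nonneg q) hq).const_mul (‖v‖ * ‖q‖)
  filter_upwards [hlim.eventually (eventually_le_nhds (show (0 : ℝ) < 1 / 2 by norm_num))] with n hn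
  have e : ‖q ^ (n + 1) * v‖ = ‖v‖ * ‖q‖ * ‖q‖ ^ n := by rw [norm_mul, norm_pow]; ring
  calc ‖geomL (q ^ (n + 1) * v)‖ ≤ 2 * ‖q ^ (n + 1) * v‖ := norm_geomL_le (e ▸ hn)
    _ = _ := by rw [e]; ring

theorem lambert_shift {q : ℂ} (hq : ‖q‖ < 1) (v : ℂ) :
    lambert q v = geomL (q * v) + lambert q (q * v) := by
  rw [lambert, (summable_lambert hq v).tsum_eq_zero_add]
  simp only [lambert, zero_add, pow_one]
  congr 1
  exact tsum_congr fun n => by ring_nf

theorem norm_lambert_le {q v : ℂ} (hq : ‖q‖ < 1) (hv : ‖q * v‖ ≤ 1 / 2) :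
    ‖lambert q v‖ ≤ 2 * ‖q * v‖ / (1 - ‖q‖) := by
  have hg : HasSum (fun n : ℕ => 2 * ‖q * v‖ * ‖q‖ ^ n) (2 * ‖q * v‖ / (1 - ‖q‖)) := by
    simpa [div_eq_mul_inv] using
      (hasSum_geometric_of_lt_one (norm_nonneg q) hq).mul_left (2 * ‖q * v‖)
  refine tsum_of_norm_bounded hg fun n => ?_
  have e : ‖q ^ (n + 1) * v‖ = ‖q * v‖ * ‖q‖ ^ n := by simp only [norm_mul, norm_pow]; ring
  rw [mul_assoc, ← e]
  exact norm_geomL_le (e ▸ (mul_le_of_le_one_right (norm_nonneg _)
    (pow_le_one₀ (norm_nonneg _) hq.le)).trans hv)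

theorem differentiableAt_lambert {q v : ℂ → ℂ} {z₀ : ℂ} (hqd : ∀ᶠ z in 𝓝 z₀, DifferentiableAt ℂ q z)
    (hvd : ∀ᶠ z in 𝓝 z₀, DifferentiableAt ℂ v z) (hq : ‖q z₀‖ < 1)
    (hne : ∀ n : ℕ, q z₀ ^ (n + 1) * v z₀ ≠ 1) :
    DifferentiableAt ℂ (fun z => lambert (q z) (v z)) z₀ := by
  obtain ⟨r, hr1, hr2⟩ := exists_between hq
  have hr0 : 0 ≤ r := (norm_nonneg _).trans hr1.le
  set R := ‖v z₀‖ + 1 with hR
  -- Near the point the terms are eventually small, uniformly.
  obtain ⟨U, hU, hUo, hzU⟩ := eventually_nhds_iff.1 (hqd.and (hvd.and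
    (((hqd.self_of_nhds.continuousAt.norm.eventually_lt_const hr1).and
      (hvd.self_of_nhds.continuousAt.norm.eventually_lt_const
        (show ‖v z₀‖ < R by rw [hR]; linarith))))))
  have hlim : Tendsto (fun n : ℕ => r ^ n * R) atTop (𝓝 0) := by
    simpa using (tendsto_pow_atTop_nhds_zero_of_lt_one hr0 hr2).mul_const R
  obtain ⟨n₀, hn₀⟩ := eventually_atTop.1
    (hlim.eventually (eventually_le_nhds (show (0 : ℝ) < 1 / 2 by norm_num)))
  have hbound : ∀ (n : ℕ) (z : ℂ), z ∈ U → ‖q z ^ (n + n₀ + 1) * v z‖ ≤ r ^ (n + n₀ + 1) * R := by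
    intro n z hz
    rw [norm_mul, norm_pow]
    gcongr
    · exact (hU z hz).2.2.1.le
    · exact (hU z hz).2.2.2.le
  have hhalf : ∀ (n : ℕ), r ^ (n + n₀ + 1) * R ≤ 1 / 2 := fun n => hn₀ _ (by omega)
  -- The tail converges uniformly to a differentiable function.
  have htail : DifferentiableOn ℂ (fun z => ∑' n : ℕ, geomL (q z ^ (n + n₀ + 1) * v z)) U := by
    refine differentiableOn_tsum_of_summable_norm
      (u := fun n : ℕ => 2 * (r ^ (n₀ + 1) * R) * r ^ n)
      ((summable_geometric_of_lt_one hr0 hr2).mul_left _) (fun n z hz => ?_) hUo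
      (fun n z hz => ?_)
    · have hne1 : q z ^ (n + n₀ + 1) * v z ≠ 1 := fun h => by
        have := (hbound n z hz).trans (hhalf n)
        rw [h, norm_one] at this
        norm_num at this
      exact ((differentiableAt_geomL hne1).comp (f := fun z => q z ^ (n + n₀ + 1) * v z) z
        (((hU z hz).1.pow _).mul (hU z hz).2.1)).differentiableWithinAt
    · calc ‖geomL (q z ^ (n + n₀ + 1) * v z)‖ ≤ 2 * ‖q z ^ (n + n₀ + 1) * v z‖ :=
            norm_geomL_le ((hbound n z hz).trans (hhalf n))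
        _ ≤ 2 * (r ^ (n + n₀ + 1) * R) := by gcongr; exact hbound n z hz
        _ = _ := by ring
  -- Add the finitely many first terms.
  have heq : ∀ᶠ z in 𝓝 z₀, lambert (q z) (v z)
      = ∑ n ∈ Finset.range n₀, geomL (q z ^ (n + 1) * v z)
        + ∑' n : ℕ, geomL (q z ^ (n + n₀ + 1) * v z) :=
    eventually_nhds_iff.2 ⟨U, fun z hz => ((summable_lambert ((hU z hz).2.2.1.trans hr2) (v z)
      ).sum_add_tsum_nat_add n₀).symm, hUo, hzU⟩
  refine DifferentiableAt.congr_of_eventuallyEq ?_ heq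
  exact (DifferentiableAt.fun_sum fun n _ => (differentiableAt_geomL (hne n)).comp
    (f := fun z => q z ^ (n + 1) * v z) z₀ ((hqd.self_of_nhds.pow _).mul hvd.self_of_nhds)).add
    (htail.differentiableAt (hUo.mem_nhds hzU))

/-! ## The kernel and its periods -/

/-- `e(w) = exp(2πi w)`. -/
def eC (w : ℂ) : ℂ := exp (2 * π * I * w)

theorem eC_add (a b : ℂ) : eC (a + b) = eC a * eC b := by simp [eC, mul_add, exp_add]

theorem eC_ne_zero (w : ℂ) : eC w ≠ 0 := exp_ne_zero _

theorem eC_neg (w : ℂ) : eC (-w) = (eC w)⁻¹ := by simp [eC, exp_neg]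

theorem eC_zero : eC 0 = 1 := by simp [eC]

theorem eC_nat_mul (n : ℕ) (w : ℂ) : eC (n * w) = eC w ^ n := by
  rw [eC, eC, ← exp_nat_mul]; ring_nf

theorem eC_intCast (m : ℤ) : eC m = 1 := by
  rw [eC, mul_comm]; exact exp_int_mul_two_pi_mul_I m

theorem eC_eq_one_iff {w : ℂ} : eC w = 1 ↔ ∃ m : ℤ, w = m := by
  constructor
  · intro h
    obtain ⟨m, hm⟩ := exp_eq_one_iff.1 h
    exact ⟨m, mul_left_cancel₀ two_pi_I_ne_zero (hm.trans (mul_comm _ _))⟩
  · rintro ⟨m, rfl⟩; exact eC_intCast m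

theorem norm_eC (w : ℂ) : ‖eC w‖ = Real.exp (-2 * π * w.im) := by
  simp [eC, norm_exp, mul_re, mul_im]

theorem norm_eC_lt_one {τ : ℂ} (hτ : 0 < τ.im) : ‖eC τ‖ < 1 := by
  rw [norm_eC, Real.exp_lt_one_iff]; nlinarith [Real.pi_pos]

@[fun_prop]
theorem differentiable_eC : Differentiable ℂ eC := by
  unfold eC; fun_prop

/-- `π cot(π w) + 2πi ∑_{n≥1} (L(qⁿ/u) - L(qⁿ u))`. -/
def kerK (w τ : ℂ) : ℂ :=
  -π * I - 2 * π * I * geomL (eC w) +
    2 * π * I * (lambert (eC τ) (eC w)⁻¹ - lambert (eC τ) (eC w))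

/-- The lattice `ℤ τ + ℤ`. -/
def InLat (τ w : ℂ) : Prop := ∃ a b : ℤ, w = a * τ + b

theorem kerK_add_one (w τ : ℂ) : kerK (w + 1) τ = kerK w τ := by
  have : eC (w + 1) = eC w := by
    rw [eC_add, show eC 1 = 1 by simpa using eC_intCast 1, mul_one]
  simp [kerK, this]

theorem kerK_add_intCast (w τ : ℂ) (m : ℤ) : kerK (w + m) τ = kerK w τ := by
  have : eC (w + m) = eC w := by rw [eC_add, eC_intCast, mul_one]
  simp [kerK, this]

theorem kerK_right_add_one (w τ : ℂ) : kerK w (τ + 1) = kerK w τ := by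
  have : eC (τ + 1) = eC τ := by
    rw [eC_add, show eC 1 = 1 by simpa using eC_intCast 1, mul_one]
  simp [kerK, this]

theorem kerK_neg {w τ : ℂ} (hw : eC w ≠ 1) : kerK (-w) τ = -kerK w τ := by
  rw [kerK, kerK, eC_neg, inv_inv, geomL_inv (eC_ne_zero w) hw]
  ring

theorem kerK_add_self {w τ : ℂ} (hτ : 0 < τ.im) (hw : eC w ≠ 1) :
    kerK (w + τ) τ = kerK w τ - 2 * π * I := by
  have hq := norm_eC_lt_one hτ
  have e1 : eC τ * (eC w * eC τ)⁻¹ = (eC w)⁻¹ := by
    field_simp [eC_ne_zero w, eC_ne_zero τ]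
  have h1 := lambert_shift hq (eC w * eC τ)⁻¹
  rw [e1] at h1
  have h2 := lambert_shift hq (eC w)
  rw [mul_comm (eC τ) (eC w)] at h2
  rw [kerK, kerK, eC_add, h1, h2, geomL_inv (eC_ne_zero w) hw]
  ring

theorem eC_ne_one_of_not_inLat {τ w : ℂ} (hw : ¬ InLat τ w) : eC w ≠ 1 := fun h => by
  obtain ⟨m, hm⟩ := eC_eq_one_iff.1 h
  exact hw ⟨0, m, by simp [hm]⟩

theorem pow_mul_eC_ne_one {τ w : ℂ} (hw : ¬ InLat τ w) (n : ℕ) :
    eC τ ^ n * eC w ≠ 1 ∧ eC τ ^ n * (eC w)⁻¹ ≠ 1 := by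
  constructor <;> intro h
  · rw [← eC_nat_mul, ← eC_add] at h
    obtain ⟨m, hm⟩ := eC_eq_one_iff.1 h
    exact hw ⟨-n, m, by push_cast; linear_combination hm⟩
  · rw [← eC_nat_mul, ← eC_neg, ← eC_add] at h
    obtain ⟨m, hm⟩ := eC_eq_one_iff.1 h
    exact hw ⟨n, -m, by push_cast; linear_combination -hm⟩

/-- Differentiability of `z ↦ kerK (w z) (τ z)` away from the lattice. -/
theorem differentiableAt_kerK {w τ : ℂ → ℂ} {z₀ : ℂ} (hwd : Differentiable ℂ w)
    (hτd : Differentiable ℂ τ) (hτ : 0 < (τ z₀).im) (hw : ¬ InLat (τ z₀) (w z₀)) :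
    DifferentiableAt ℂ (fun z => kerK (w z) (τ z)) z₀ := by
  have hu : Differentiable ℂ fun z => eC (w z) := differentiable_eC.comp hwd
  have hq : Differentiable ℂ fun z => eC (τ z) := differentiable_eC.comp hτd
  have hu' : Differentiable ℂ fun z => (eC (w z))⁻¹ := hu.inv fun z => eC_ne_zero _
  unfold kerK
  exact (((differentiableAt_geomL (eC_ne_one_of_not_inLat hw)).comp (f := fun z => eC (w z)) z₀
    (hu z₀)).const_mul _).const_sub _ |>.add
    (((differentiableAt_lambert (.of_forall hq) (.of_forall hu') (norm_eC_lt_one hτ)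
      fun n => (pow_mul_eC_ne_one hw (n + 1)).2).sub
    (differentiableAt_lambert (.of_forall hq) (.of_forall hu) (norm_eC_lt_one hτ)
      fun n => (pow_mul_eC_ne_one hw (n + 1)).1)).const_mul _)

/-! ## Regularity at `w = 0` -/

/-- `kerK w τ - 1/w`, continued to `w = 0`. -/
def kerKReg (τ w : ℂ) : ℂ :=
  dslope (fun w => 2 * π * I * eC w - dslope eC 0 w) 0 w / dslope eC 0 w - π * I +
    2 * π * I * (lambert (eC τ) (eC w)⁻¹ - lambert (eC τ) (eC w))

theorem dslope_eC_zero : dslope eC 0 0 = 2 * π * I := by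
  rw [dslope_same]
  have : HasDerivAt eC (2 * π * I) 0 := by
    unfold eC
    simpa using ((hasDerivAt_id (0 : ℂ)).const_mul (2 * π * I)).cexp
  exact this.deriv

theorem differentiableAt_kerKReg {τ : ℂ} (hτ : 0 < τ.im) : DifferentiableAt ℂ (kerKReg τ) 0 := by
  have h1 : Differentiable ℂ (dslope eC 0) := differentiableOn_univ.1
    ((differentiableOn_dslope (Filter.univ_mem)).2 differentiable_eC.differentiableOn)
  have h2 : Differentiable ℂ (dslope (fun w => 2 * π * I * eC w - dslope eC 0 w) 0) :=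
    differentiableOn_univ.1 ((differentiableOn_dslope (Filter.univ_mem)).2
      ((differentiable_eC.const_mul _).sub h1).differentiableOn)
  have hne : ∀ n : ℕ, eC τ ^ (n + 1) * eC 0 ≠ 1 ∧ eC τ ^ (n + 1) * (eC 0)⁻¹ ≠ 1 := fun n => by
    have : ‖eC τ‖ ^ (n + 1) < 1 := pow_lt_one₀ (norm_nonneg _) (norm_eC_lt_one hτ) n.succ_ne_zero
    rw [eC_zero, inv_one, mul_one]
    exact ⟨fun h => by rw [← norm_pow, h, norm_one] at this; exact lt_irrefl _ this,
      fun h => by rw [← norm_pow, h, norm_one] at this; exact lt_irrefl _ this⟩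
  unfold kerKReg
  exact (((h2 0).div (h1 0) (by rw [dslope_eC_zero]; exact two_pi_I_ne_zero)).sub_const _).add
    (((differentiableAt_lambert (v := fun w => (eC w)⁻¹) (.of_forall (differentiable_const _))
      (.of_forall (differentiable_eC.inv eC_ne_zero)) (norm_eC_lt_one hτ) fun n => (hne n).2).sub
    (differentiableAt_lambert (v := eC) (.of_forall (differentiable_const _))
      (.of_forall differentiable_eC) (norm_eC_lt_one hτ) fun n => (hne n).1)).const_mul _)

theorem kerK_eq_reg (τ : ℂ) : ∀ᶠ w in 𝓝[≠] (0 : ℂ), kerK w τ = 1 / w + kerKReg τ w := by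
  have h1 : Differentiable ℂ (dslope eC 0) := differentiableOn_univ.1
    ((differentiableOn_dslope (Filter.univ_mem)).2 differentiable_eC.differentiableOn)
  have hev : ∀ᶠ w in 𝓝 (0 : ℂ), dslope eC 0 w ≠ 0 := (h1 0).continuousAt.eventually_ne
    (by rw [dslope_eC_zero]; exact two_pi_I_ne_zero)
  filter_upwards [hev.filter_mono nhdsWithin_le_nhds, self_mem_nhdsWithin] with w hd hw
  have hw' : w ≠ 0 := hw
  have hphi : eC w - 1 = w * dslope eC 0 w := by
    have := sub_smul_dslope eC 0 w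
    simp only [eC_zero, smul_eq_mul, sub_zero] at this
    exact this.symm
  have hnum : w * dslope (fun w => 2 * π * I * eC w - dslope eC 0 w) 0 w
      = 2 * π * I * eC w - dslope eC 0 w := by
    have := sub_smul_dslope (fun w => 2 * π * I * eC w - dslope eC 0 w) 0 w
    simpa [eC_zero, dslope_eC_zero, (dslope_same eC 0).symm.trans dslope_eC_zero] using this
  have hu : 1 - eC w ≠ 0 := by
    rw [← neg_sub, hphi]; exact neg_ne_zero.2 (mul_ne_zero hw' hd)
  rw [kerK, kerKReg]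
  have : -(2 * π * I * geomL (eC w))
      = 1 / w + dslope (fun w => 2 * π * I * eC w - dslope eC 0 w) 0 w / dslope eC 0 w := by
    rw [geomL]
    field_simp
    linear_combination (eC w - 1) * hnum + (2 * π * I * eC w) * hphi
  linear_combination this

/-! ## The transformation law -/

theorem im_neg_inv_pos {τ : ℂ} (hτ : 0 < τ.im) : 0 < (-1 / τ).im := by
  have h0 : τ ≠ 0 := fun h => by simp [h] at hτ
  rw [div_eq_mul_inv, neg_one_mul, neg_im, inv_im, neg_div, neg_neg]
  exact div_pos hτ (normSq_pos.2 h0)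

theorem inLat_div_iff {τ w : ℂ} (hτ : τ ≠ 0) : InLat (-1 / τ) (w / τ) ↔ InLat τ w := by
  constructor
  · rintro ⟨a, b, h⟩
    refine ⟨b, -a, ?_⟩
    field_simp at h
    push_cast
    linear_combination h
  · rintro ⟨a, b, h⟩
    refine ⟨-b, a, ?_⟩
    field_simp
    push_cast
    linear_combination h

theorem inLat_add_iff {τ w : ℂ} {l : ℂ} (hl : InLat τ l) : InLat τ (w + l) ↔ InLat τ w := by
  obtain ⟨a, b, rfl⟩ := hl
  constructor
  · rintro ⟨a', b', h⟩; exact ⟨a' - a, b' - b, by push_cast; linear_combination h⟩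
  · rintro ⟨a', b', h⟩; exact ⟨a' + a, b' + b, by push_cast; linear_combination h⟩

theorem periodPair_indep {τ : ℂ} (hτ : 0 < τ.im) : LinearIndependent ℝ ![(1 : ℂ), τ] := by
  rw [LinearIndependent.pair_iff]
  intro s t h
  have him := congrArg Complex.im h
  simp at him
  rcases him with ht | ht
  · subst ht
    simpa using h
  · exact absurd ht hτ.ne'

theorem isClosed_inLat {τ : ℂ} (hτ : 0 < τ.im) : IsClosed {w | InLat τ w} := by
  convert (PeriodPair.mk (1 : ℂ) τ (periodPair_indep hτ)).isClosed_lattice using 1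
  ext w
  simp only [Set.mem_ofPred_eq, SetLike.mem_coe, PeriodPair.mem_lattice, mul_one]
  exact ⟨fun ⟨a, b, h⟩ => ⟨b, a, by rw [h]; ring⟩, fun ⟨b, a, h⟩ => ⟨a, b, by rw [← h]; ring⟩⟩

/-- The defect of the transformation law under `τ ↦ -1/τ`. -/
def sDefect (τ w : ℂ) : ℂ := τ * kerK w τ + 2 * π * I * w - kerK (w / τ) (-1 / τ)

theorem sDefect_add_one {τ w : ℂ} (hτ : 0 < τ.im) (hw : ¬ InLat τ w) :
    sDefect τ (w + 1) = sDefect τ w := by
  have h0 : τ ≠ 0 := fun h => by simp [h] at hτ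
  have hw' : ¬ InLat τ (w + 1) := fun h => hw ((inLat_add_iff ⟨0, 1, by simp⟩).1 h)
  have hne : eC ((w + 1) / τ) ≠ 1 :=
    eC_ne_one_of_not_inLat (fun h => hw' ((inLat_div_iff h0).1 h))
  have h1 := kerK_add_self (im_neg_inv_pos hτ) hne
  rw [show (w + 1) / τ + -1 / τ = w / τ by ring] at h1
  rw [sDefect, sDefect, kerK_add_one, h1]
  ring

theorem sDefect_add_self {τ w : ℂ} (hτ : 0 < τ.im) (hw : ¬ InLat τ w) :
    sDefect τ (w + τ) = sDefect τ w := by
  have h0 : τ ≠ 0 := fun h => by simp [h] at hτ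
  rw [sDefect, sDefect, kerK_add_self hτ (eC_ne_one_of_not_inLat hw),
    show (w + τ) / τ = w / τ + 1 by field_simp, kerK_add_one]
  ring

open scoped Classical in
/-- The defect, continued over the lattice. -/
def sDefectExt (τ w : ℂ) : ℂ :=
  if InLat τ w then τ * kerKReg τ 0 - kerKReg (-1 / τ) 0 else sDefect τ w

theorem sDefectExt_periodic {τ : ℂ} (hτ : 0 < τ.im) {l : ℂ} (hl : InLat τ l) (w : ℂ) :
    sDefectExt τ (w + l) = sDefectExt τ w := by
  have key : ∀ l : ℂ, InLat τ l → (∀ w, ¬ InLat τ w → sDefect τ (w + l) = sDefect τ w) →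
      Function.Periodic (sDefectExt τ) l := by
    intro l hl h w
    by_cases hw : InLat τ w
    · simp only [sDefectExt, if_pos hw, if_pos ((inLat_add_iff hl).2 hw)]
    · simp only [sDefectExt, if_neg hw, if_neg fun h => hw ((inLat_add_iff hl).1 h)]
      exact h w hw
  have hone := key 1 ⟨0, 1, by simp⟩ fun w => sDefect_add_one hτ
  have htau := key τ ⟨1, 0, by simp⟩ fun w => sDefect_add_self hτ
  obtain ⟨a, b, rfl⟩ := hl
  have h1 := hone.int_mul b
  rw [mul_one] at h1
  rw [← add_assoc, h1]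
  exact htau.int_mul a w

theorem sDefectExt_differentiable {τ : ℂ} (hτ : 0 < τ.im) : Differentiable ℂ (sDefectExt τ) := by
  have h0 : τ ≠ 0 := fun h => by simp [h] at hτ
  -- Off the lattice it agrees with the defect.
  have hoff : ∀ w, ¬ InLat τ w → DifferentiableAt ℂ (sDefectExt τ) w := by
    intro w hw
    have hev : sDefectExt τ =ᶠ[𝓝 w] sDefect τ :=
      eventually_of_mem ((isClosed_inLat hτ).isOpen_compl.mem_nhds hw)
        fun x hx => if_neg hx
    refine DifferentiableAt.congr_of_eventuallyEq ?_ hev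
    unfold sDefect
    exact (((differentiableAt_kerK differentiable_id (differentiable_const τ) hτ hw).const_mul _
      ).add ((differentiableAt_id).const_mul _)).sub
      (differentiableAt_kerK (w := fun z => z / τ) (differentiable_id.div_const τ)
        (differentiable_const (-1 / τ)) (im_neg_inv_pos hτ)
        fun h => hw ((inLat_div_iff h0).1 h))
  -- At `0` the poles cancel, leaving a regular expression.
  have hzero : DifferentiableAt ℂ (sDefectExt τ) 0 := by
    set g := fun w => τ * kerKReg τ w + 2 * π * I * w - kerKReg (-1 / τ) (w / τ)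
    have hg : DifferentiableAt ℂ g 0 := by
      refine (((differentiableAt_kerKReg hτ).const_mul _).add (differentiableAt_id.const_mul _)).sub
        ?_
      exact DifferentiableAt.comp (f := fun w : ℂ => w / τ) 0
        (by simpa using differentiableAt_kerKReg (im_neg_inv_pos hτ))
        (differentiableAt_id.div_const τ)
    have hcl : IsClosed ({w | InLat τ w} \ {0}) := by
      exact (PeriodPair.mk (1 : ℂ) τ (periodPair_indep hτ)).isClosed_of_subset_lattice
        fun w ⟨⟨a, b, h⟩, _⟩ => PeriodPair.mem_lattice.2 ⟨b, a, by rw [h]; ring⟩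
    refine hg.congr_of_eventuallyEq ?_
    have hdiv : Tendsto (fun w : ℂ => w / τ) (𝓝[≠] 0) (𝓝[≠] 0) := by
      refine tendsto_nhdsWithin_iff.2 ⟨?_, ?_⟩
      · simpa using (tendsto_id.div_const τ).mono_left (nhdsWithin_le_nhds (a := (0 : ℂ)))
      · filter_upwards [self_mem_nhdsWithin] with w hw using div_ne_zero hw h0
    have hpunct : ∀ᶠ w in 𝓝[≠] (0 : ℂ), sDefectExt τ w = g w := by
      filter_upwards [kerK_eq_reg τ, hdiv.eventually (kerK_eq_reg (-1 / τ)),
        nhdsWithin_le_nhds (hcl.isOpen_compl.mem_nhds (fun h => h.2 rfl)), self_mem_nhdsWithin]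
        with w h1 h2 h3 h4
      rw [sDefectExt, if_neg (fun h : InLat τ w => h3 ⟨h, h4⟩), sDefect, h1, h2]
      simp only [g]
      field_simp
      ring
    have hzero' : sDefectExt τ 0 = g 0 := by
      rw [sDefectExt, if_pos ⟨0, 0, by simp⟩]; simp [g]
    rw [eventually_nhdsWithin_iff] at hpunct
    filter_upwards [hpunct] with w hw
    rcases eq_or_ne w 0 with rfl | hne
    · exact hzero'
    · exact hw hne
  -- By periodicity this covers all lattice points.
  intro w
  by_cases hw : InLat τ w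
  · have hper : sDefectExt τ = fun z => sDefectExt τ (z - w) := by
      funext z
      conv_lhs => rw [← sub_add_cancel z w]
      exact sDefectExt_periodic hτ hw _
    rw [hper]
    refine DifferentiableAt.comp (g := sDefectExt τ) (f := fun z => z - w) w ?_
      (differentiableAt_id.sub_const w)
    rwa [sub_self]
  · exact hoff w hw

/-- The transformation law `τ K(w, τ) + 2πi w = K(w/τ, -1/τ)`. -/
theorem kerK_S {τ w : ℂ} (hτ : 0 < τ.im) (hw : ¬ InLat τ w) :
    kerK (w / τ) (-1 / τ) = τ * kerK w τ + 2 * π * I * w := by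
  have h0 : τ ≠ 0 := fun h => by simp [h] at hτ
  have hd := sDefectExt_differentiable hτ
  have hb : Bornology.IsBounded (range (sDefectExt τ)) := by
    refine ((isCompact_Icc.prod isCompact_Icc).image
      (hd.continuous.comp (by fun_prop : Continuous fun ab : ℝ × ℝ => (ab.1 : ℂ) + ab.2 * τ))
      ).isBounded.subset ?_ (t := ((sDefectExt τ) ∘ fun ab : ℝ × ℝ => (ab.1 : ℂ) + ab.2 * τ) ''
        (Icc (0 : ℝ) 1 ×ˢ Icc (0 : ℝ) 1))
    rintro _ ⟨z, rfl⟩
    set b := z.im / τ.im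
    set a := z.re - b * τ.re
    refine ⟨(Int.fract a, Int.fract b), ⟨⟨Int.fract_nonneg _, (Int.fract_lt_one _).le⟩,
      ⟨Int.fract_nonneg _, (Int.fract_lt_one _).le⟩⟩, ?_⟩
    have hz : z = (Int.fract a : ℝ) + (Int.fract b : ℝ) * τ + ((⌊b⌋ : ℂ) * τ + (⌊a⌋ : ℂ)) := by
      have ha := Int.fract_add_floor a
      have hb := Int.fract_add_floor b
      apply Complex.ext
      · simp
        linear_combination -ha - τ.re * hb
      · have hbz : b * τ.im = z.im := div_mul_cancel₀ _ hτ.ne'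
        simp
        linear_combination -τ.im * hb - hbz
    conv_rhs => rw [hz, sDefectExt_periodic hτ ⟨⌊b⌋, ⌊a⌋, rfl⟩]
    rfl
  have hneg : ¬ InLat τ (-w) := fun ⟨a, b, h⟩ => hw ⟨-a, -b, by push_cast; linear_combination -h⟩
  have hc := hd.apply_eq_apply_of_bounded hb w (-w)
  rw [sDefectExt, sDefectExt, if_neg hw, if_neg hneg, sDefect, sDefect, neg_div τ w,
    kerK_neg (eC_ne_one_of_not_inLat hw),
    kerK_neg (eC_ne_one_of_not_inLat fun h => hw ((inLat_div_iff h0).1 h))] at hc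
  linear_combination (-1 / 2 : ℂ) * hc

end Fermat.Agent.DeligneSerre
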