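import Mathlib.NumberTheory.ModularForms.BoundedAtCusp
import Mathlib.NumberTheory.ModularForms.CongruenceSubgroups
import Mathlib.Analysis.SpecialFunctions.Complex.CircleAddChar
import Mathlib.NumberTheory.LegendreSymbol.AddCharacter
import Mathlib.NumberTheory.DirichletCharacter.Basic
import Mathlib.NumberTheory.TsumDivisorsAntidiagonal
import Mathlib.LinearAlgebra.Matrix.FixedDetMatrices
import Mathlib.NumberTheory.ModularForms.Basic
import Mathlib.NumberTheory.ModularForms.QExpansion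
import Mathlib.NumberTheory.DirichletCharacter.Bounds
import Fermat.Agent.DeligneSerre.EisensteinKernel

/-!
# Weight one Eisenstein series attached to an odd Dirichlet character

`eisOne ψ` has constant term `-(∑ t ψ(t)) / (2N)` and `n`-th coefficient `∑_{m ∣ n} ψ(m)`, and
satisfies `eisOne ψ | γ = ψ(d) eisOne ψ` on `Γ₀(N)`.
-/

set_option autoImplicit false

noncomputable section

open Complex CongruenceSubgroup Filter Matrix ModularGroup
open UpperHalfPlane hiding I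
open Matrix.SpecialLinearGroup (mapGL)
open scoped Real MatrixGroups ModularForm Manifold

namespace Fermat.Agent.DeligneSerre

/-- `G_v(τ) = K(v₀τ + v₁, τ) + 2πi v₀`. -/
def eisG (v : Fin 2 → ℝ) (τ : ℍ) : ℂ :=
  kerK ((v 0 : ℂ) * τ + v 1) τ + 2 * π * I * (v 0 : ℂ)

/-- `v ∉ ℤ²`. -/
def NotInt (v : Fin 2 → ℝ) : Prop := ¬ ∀ i, ∃ m : ℤ, v i = m

theorem not_inLat_of_notInt {v : Fin 2 → ℝ} (hv : NotInt v) (τ : ℍ) :
    ¬ InLat τ ((v 0 : ℂ) * τ + v 1) := by
  rintro ⟨a, b, h⟩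
  have him := congrArg Complex.im h
  simp [τ.im_pos.ne'] at him
  have hre := congrArg Complex.re h
  simp [him] at hre
  exact hv (Fin.forall_fin_two.2 ⟨⟨a, him⟩, ⟨b, hre⟩⟩)

theorem eisG_add_right (v : Fin 2 → ℝ) (m : ℤ) (τ : ℍ) :
    eisG ![v 0, v 1 + m] τ = eisG v τ := by
  simp only [eisG, Matrix.cons_val_zero, Matrix.cons_val_one, ofReal_add, ofReal_intCast]
  rw [← add_assoc, kerK_add_intCast]

theorem notInt_shift {v : Fin 2 → ℝ} (hv : NotInt v) (a b : ℤ) :
    NotInt ![v 0 + a, v 1 + b] := fun h => hv <| Fin.forall_fin_two.2 ⟨by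
      obtain ⟨m, hm⟩ := h 0
      simp at hm
      exact ⟨m - a, by push_cast; linarith⟩, by
      obtain ⟨m, hm⟩ := h 1
      simp at hm
      exact ⟨m - b, by push_cast; linarith⟩⟩

theorem eisG_add_left {v : Fin 2 → ℝ} (hv : NotInt v) (τ : ℍ) (m : ℤ) :
    eisG ![v 0 + m, v 1] τ = eisG v τ := by
  have step : ∀ w : Fin 2 → ℝ, NotInt w → eisG ![w 0 + 1, w 1] τ = eisG w τ := by
    intro w hw
    simp only [eisG, Matrix.cons_val_zero, Matrix.cons_val_one, ofReal_add, ofReal_one]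
    rw [show ((w 0 : ℂ) + 1) * τ + w 1 = ((w 0 : ℂ) * τ + w 1) + τ by ring,
      kerK_add_self τ.im_pos (eC_ne_one_of_not_inLat (not_inLat_of_notInt hw τ))]
    ring
  induction m using Int.induction_on with
  | zero => simp [eisG]
  | succ k ih =>
    rw [← ih]
    have h := step ![v 0 + (k : ℤ), v 1] (by simpa using notInt_shift hv k 0)
    simpa [add_assoc] using h
  | pred k ih =>
    rw [← ih]
    have h := step ![v 0 + ((-(k : ℤ) - 1 : ℤ) : ℝ), v 1]
      (by simpa using notInt_shift hv (-(k : ℤ) - 1) 0)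
    simp [add_assoc] at h ⊢
    exact h.symm

theorem eisG_congr {v w : Fin 2 → ℝ} (hv : NotInt v) (a b : ℤ) (h0 : w 0 = v 0 + a)
    (h1 : w 1 = v 1 + b) (τ : ℍ) : eisG w τ = eisG v τ := by
  have : w = ![v 0 + a, v 1 + b] := funext (Fin.forall_fin_two.2 ⟨h0, h1⟩)
  rw [this, ← eisG_add_left hv τ a]
  simpa using eisG_add_right ![v 0 + a, v 1] b τ

/-- Right multiplication of a row vector by an element of `SL(2, ℤ)`. -/
def rowMul (v : Fin 2 → ℝ) (γ : SL(2, ℤ)) : Fin 2 → ℝ :=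
  ![v 0 * γ 0 0 + v 1 * γ 1 0, v 0 * γ 0 1 + v 1 * γ 1 1]

theorem rowMul_mul (v : Fin 2 → ℝ) (γ δ : SL(2, ℤ)) :
    rowMul v (γ * δ) = rowMul (rowMul v γ) δ := by
  funext i
  fin_cases i <;> simp [rowMul, Matrix.mul_apply, Fin.sum_univ_two] <;> ring

theorem rowMul_one (v : Fin 2 → ℝ) : rowMul v 1 = v := by
  funext i
  fin_cases i <;> simp [rowMul]

theorem notInt_rowMul {v : Fin 2 → ℝ} (hv : NotInt v) (γ : SL(2, ℤ)) : NotInt (rowMul v γ) := by
  intro h
  have e : v = rowMul (rowMul v γ) γ⁻¹ := by rw [← rowMul_mul, mul_inv_cancel, rowMul_one]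
  obtain ⟨m0, h0⟩ := h 0
  obtain ⟨m1, h1⟩ := h 1
  refine hv (Fin.forall_fin_two.2 ⟨?_, ?_⟩)
  · exact ⟨m0 * (γ⁻¹ : SL(2, ℤ)) 0 0 + m1 * (γ⁻¹ : SL(2, ℤ)) 1 0, by
      conv_lhs => rw [e]
      simp only [rowMul, Matrix.cons_val_zero] at h0 h1 ⊢
      simp only [Matrix.cons_val_one] at h1 ⊢
      rw [h0, h1]; push_cast; rfl⟩
  · exact ⟨m0 * (γ⁻¹ : SL(2, ℤ)) 0 1 + m1 * (γ⁻¹ : SL(2, ℤ)) 1 1, by
      conv_lhs => rw [e]
      simp only [rowMul, Matrix.cons_val_zero] at h0 h1 ⊢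
      simp only [Matrix.cons_val_one, Matrix.cons_val_fin_one] at h1 ⊢
      rw [h0, h1]; push_cast; rfl⟩

theorem eisG_slash (γ : SL(2, ℤ)) :
    ∀ v, NotInt v → eisG v ∣[(1 : ℤ)] γ = eisG (rowMul v γ) := by
  have hγ : γ ∈ Subgroup.closure ({S, T} : Set SL(2, ℤ)) := by
    rw [SpecialLinearGroup.SL2Z_generators]; trivial
  induction hγ using Subgroup.closure_induction with
  | one => intro v _; rw [SlashAction.slash_one, rowMul_one]
  | mul x y _ _ hx hy =>
    intro v hv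
    rw [SlashAction.slash_mul, hx v hv, hy _ (notInt_rowMul hv x), rowMul_mul]
  | inv x _ hx =>
    intro v hv
    have h := hx _ (notInt_rowMul hv x⁻¹)
    rw [← rowMul_mul, inv_mul_cancel, rowMul_one] at h
    rw [← h, ← SlashAction.slash_mul, mul_inv_cancel, SlashAction.slash_one]
  | mem x hx =>
    intro v hv
    funext τ
    rcases hx with rfl | rfl
    · have hS : rowMul v S = ![v 1, -v 0] := by
        funext i; fin_cases i <;> simp [rowMul, ModularGroup.coe_S]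
      have hτ0 : (τ : ℂ) ≠ 0 := τ.ne_zero
      have hw : ¬ InLat τ ((v 1 : ℂ) * τ + ((-v 0 : ℝ) : ℂ)) := by
        have := not_inLat_of_notInt (notInt_rowMul hv S) τ
        rwa [hS] at this
      have hden : denom (S : GL (Fin 2) ℝ) τ = τ := by simp [denom, ModularGroup.coe_S]
      rw [ModularForm.SL_slash_apply, hS, hden]
      simp only [eisG, Matrix.cons_val_zero, Matrix.cons_val_one]
      rw [UpperHalfPlane.modular_S_smul]
      show (kerK ((v 0 : ℂ) * ((-(τ : ℂ))⁻¹) + v 1) ((-(τ : ℂ))⁻¹) + _) * _ = _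
      rw [show (v 0 : ℂ) * (-(τ : ℂ))⁻¹ + v 1
          = ((v 1 : ℂ) * τ + ((-v 0 : ℝ) : ℂ)) / τ by push_cast; field_simp; ring,
        show (-(τ : ℂ))⁻¹ = -1 / (τ : ℂ) by field_simp, kerK_S τ.im_pos hw, zpow_neg_one]
      field_simp
      push_cast
      ring
    · have hT : rowMul v T = ![v 0, v 0 + v 1] := by
        funext i; fin_cases i <;> simp [rowMul, ModularGroup.coe_T]
      have hden : denom (T : GL (Fin 2) ℝ) τ = 1 := by simp [denom, ModularGroup.coe_T]
      rw [ModularForm.SL_slash_apply, hT, hden, one_zpow, mul_one]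
      simp only [eisG, Matrix.cons_val_zero, Matrix.cons_val_one]
      rw [UpperHalfPlane.modular_T_smul, UpperHalfPlane.coe_vadd, ofReal_one, add_comm (1 : ℂ),
        kerK_right_add_one, ofReal_add]
      ring_nf

theorem mdifferentiable_eisG {v : Fin 2 → ℝ} (hv : NotInt v) : MDiff (eisG v) := by
  rw [UpperHalfPlane.mdifferentiable_iff]
  intro z hz
  have hd : DifferentiableAt ℂ
      (fun z => kerK ((v 0 : ℂ) * z + v 1) z + 2 * π * I * (v 0 : ℂ)) z :=
    (differentiableAt_kerK ((differentiable_id.const_mul _).add_const _) differentiable_id hz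
      (not_inLat_of_notInt hv ⟨z, hz⟩)).add_const _
  refine (hd.congr_of_eventuallyEq ?_).differentiableWithinAt
  filter_upwards [isOpen_upperHalfPlaneSet.mem_nhds hz] with w hw
  simp [eisG, ofComplex_apply_of_im_pos (show 0 < w.im from hw)]

theorem exists_small (c : ℝ) (hc : 0 < c) :
    ∃ A : ℝ, ∀ y : ℝ, A ≤ y → Real.exp (-2 * π * c * y) ≤ 1 / 2 := by
  refine ⟨1 / (2 * π * c), fun y hy => ?_⟩
  rw [div_le_iff₀ (by positivity)] at hy
  calc Real.exp (-2 * π * c * y) ≤ Real.exp (-1) := Real.exp_le_exp.2 (by nlinarith)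
    _ ≤ 1 / 2 := by
      rw [Real.exp_neg, one_div]
      exact inv_anti₀ two_pos (by linarith [Real.add_one_le_exp (1 : ℝ)])

theorem isBoundedAtImInfty_eisG {v : Fin 2 → ℝ} (hv : NotInt v) :
    IsBoundedAtImInfty (eisG v) := by
  -- Reduce the first coordinate modulo one.
  set x := Int.fract (v 0) with hx
  have key : ∀ τ, eisG v τ = eisG ![x, v 1] τ := fun τ => (eisG_congr hv (-⌊v 0⌋) 0
    (by simp [hx, Int.fract, sub_eq_add_neg]) (by simp) τ).symm
  obtain ⟨A1, hA1⟩ := exists_small (1 - x) (by linarith [Int.fract_lt_one (v 0)])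
  obtain ⟨A2, hA2⟩ := exists_small 1 one_pos
  obtain ⟨A3, hA3⟩ : ∃ A3 : ℝ, ∀ y : ℝ, A3 ≤ y → x = 0 ∨ Real.exp (-2 * π * x * y) ≤ 1 / 2 := by
    rcases eq_or_ne x 0 with h | h
    · exact ⟨0, fun y _ => Or.inl h⟩
    · obtain ⟨A, hA⟩ := exists_small x (lt_of_le_of_ne (Int.fract_nonneg _) (Ne.symm h))
      exact ⟨A, fun y hy => Or.inr (hA y hy)⟩
  rw [isBoundedAtImInfty_iff]
  refine ⟨‖(π : ℂ) * I‖ + ‖2 * π * I‖ * (‖geomL (eC (v 1))‖ + 1) + ‖2 * π * I‖ * (2 + 2)
    + ‖2 * π * I * (x : ℂ)‖, max (max A1 A2) A3, fun τ hτ => ?_⟩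
  simp only [max_le_iff] at hτ
  -- For large imaginary part all three arguments are small.
  have hq : ‖eC τ‖ ≤ 1 / 2 := by
    rw [norm_eC]; simpa using hA2 _ hτ.1.2
  have hu : ‖eC ((x : ℂ) * τ + v 1)‖ = Real.exp (-2 * π * x * τ.im) := by
    rw [norm_eC]; simp; ring
  have hu1 : ‖eC τ * (eC ((x : ℂ) * τ + v 1))⁻¹‖ ≤ 1 / 2 := by
    rw [norm_mul, norm_inv, hu, norm_eC, ← Real.exp_neg, ← Real.exp_add]
    refine le_of_eq_of_le ?_ (hA1 _ hτ.1.1)
    congr 1; simp; ring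
  have hule : ‖eC ((x : ℂ) * τ + v 1)‖ ≤ 1 := by
    rw [hu, Real.exp_le_one_iff]
    nlinarith [mul_nonneg (Int.fract_nonneg (v 0)) τ.im_pos.le, Real.pi_pos]
  have hu2 : ‖eC τ * eC ((x : ℂ) * τ + v 1)‖ ≤ 1 / 2 := by
    rw [norm_mul]
    calc ‖eC τ‖ * ‖eC ((x : ℂ) * τ + v 1)‖ ≤ 1 / 2 * 1 :=
          mul_le_mul hq hule (norm_nonneg _) (by norm_num)
      _ = 1 / 2 := mul_one _
  have hlam : ∀ w : ℂ, ‖eC τ * w‖ ≤ 1 / 2 → ‖lambert (eC τ) w‖ ≤ 2 := by
    intro w hw
    refine (norm_lambert_le (norm_eC_lt_one τ.im_pos) hw).trans ?_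
    rw [div_le_iff₀ (by linarith)]
    linarith
  have hgeom : ‖geomL (eC ((x : ℂ) * τ + v 1))‖ ≤ ‖geomL (eC (v 1))‖ + 1 := by
    rcases hA3 _ hτ.2 with h | h
    · rw [h]; simp
    · refine (norm_geomL_le (hu ▸ h)).trans ?_
      rw [hu]
      linarith [norm_nonneg (geomL (eC (v 1 : ℂ)))]
  -- So each term of the kernel is bounded.
  rw [key]
  simp only [eisG, kerK, Matrix.cons_val_zero, Matrix.cons_val_one]
  refine (norm_add_le _ _).trans (add_le_add ((norm_add_le _ _).trans (add_le_add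
    ((norm_sub_le _ _).trans (add_le_add (by simp) ?_)) ?_)) le_rfl)
  · rw [norm_mul]; exact mul_le_mul_of_nonneg_left hgeom (norm_nonneg _)
  · rw [norm_mul]
    exact mul_le_mul_of_nonneg_left
      ((norm_sub_le _ _).trans (add_le_add (hlam _ hu1) (hlam _ hu2))) (norm_nonneg _)

variable {N : ℕ} [NeZero N] (ψ : DirichletCharacter ℂ N)

/-- The finite Fourier transform of the character. -/
def eisWeight (a : ZMod N) : ℂ :=
  -(1 / (2 * (N : ℂ))) * ∑ t, ψ t * ZMod.stdAddChar (-(a * t))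

theorem sum_eisWeight_mul (x : ZMod N) :
    ∑ a, eisWeight ψ a * ZMod.stdAddChar (a * x) = -ψ x / 2 := by
  have hN : (N : ℂ) ≠ 0 := Nat.cast_ne_zero.2 (NeZero.ne N)
  have h : ∀ t, ∑ a : ZMod N, ZMod.stdAddChar (-(a * t)) * ZMod.stdAddChar (a * x)
      = if t = x then (N : ℂ) else 0 := by
    intro t
    have := AddChar.sum_mulShift (R := ZMod N) (R' := ℂ) (x - t) (ZMod.isPrimitive_stdAddChar N)
    rw [ZMod.card, Nat.cast_ite, Nat.cast_zero] at this
    simp only [sub_eq_zero, @eq_comm _ x t] at this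
    rw [← this]
    refine Finset.sum_congr rfl fun a _ => ?_
    rw [← AddChar.map_add_eq_mul]
    ring_nf
  simp only [eisWeight, Finset.sum_mul, Finset.mul_sum]
  rw [Finset.sum_comm]
  simp_rw [mul_assoc, ← Finset.mul_sum, h]
  simp only [mul_ite, mul_zero, Finset.sum_ite_eq', Finset.mem_univ, if_true]
  field_simp

variable {ψ}

omit [NeZero N] in
theorem map_zero_of_odd (hψ : ψ.Odd) : ψ 0 = 0 := by
  have h := map_mul ψ (-1) 0
  rw [mul_zero, hψ] at h
  linear_combination (1 / 2 : ℂ) * h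

theorem eisWeight_zero (hψ : ψ.Odd) : eisWeight ψ 0 = 0 := by
  have hsum : ∑ t, ψ t = 0 := by
    have h := Equiv.sum_comp (Equiv.neg (ZMod N)) fun t => ψ t
    simp only [Equiv.neg_apply] at h
    rw [show (fun t => ψ (-t)) = fun t => -ψ t from funext fun t => by
      rw [← neg_one_mul, map_mul, hψ, neg_one_mul], Finset.sum_neg_distrib] at h
    linear_combination (-1 / 2 : ℂ) * h
  simp [eisWeight, hsum]

theorem sum_eisWeight (hψ : ψ.Odd) : ∑ a, eisWeight ψ a = 0 := by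
  simpa [map_zero_of_odd hψ] using sum_eisWeight_mul ψ 0

theorem eisWeight_mul_unit (d : (ZMod N)ˣ) (a : ZMod N) :
    ψ d * eisWeight ψ (a * d) = eisWeight ψ a := by
  rw [eisWeight, eisWeight, mul_left_comm, Finset.mul_sum, ← Equiv.sum_comp (d.mulLeft)
    fun t => ψ t * ZMod.stdAddChar (-(a * t))]
  congr 1
  refine Finset.sum_congr rfl fun t _ => ?_
  simp only [Units.mulLeft_apply, map_mul]
  ring_nf

variable (ψ)

/-- The weight one Eisenstein series of `ψ`. -/
def eisOne : ℍ → ℂ :=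
  (2 * π * I)⁻¹ • ∑ a : ZMod N, eisWeight ψ a • eisG ![0, (a.val : ℝ) / N]

variable {ψ}

theorem notInt_of_ne_zero {a : ZMod N} (ha : a ≠ 0) : NotInt ![0, (a.val : ℝ) / N] := by
  intro h
  obtain ⟨m, hm⟩ := h 1
  have hN : (0 : ℝ) < N := Nat.cast_pos.2 (NeZero.pos N)
  simp only [Matrix.cons_val_one, Matrix.cons_val_fin_one] at hm
  rw [div_eq_iff hN.ne'] at hm
  have hlt : (a.val : ℝ) < N := by exact_mod_cast ZMod.val_lt a
  have hpos : (0 : ℝ) < a.val := by
    exact_mod_cast Nat.pos_of_ne_zero fun h => ha ((ZMod.val_eq_zero a).1 h)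
  have h1 : (0 : ℝ) < m := by nlinarith
  have h2 : (m : ℝ) < 1 := by nlinarith
  norm_cast at h1 h2
  omega

theorem slash_eisOne (hψ : ψ.Odd) (γ : SL(2, ℤ)) :
    eisOne ψ ∣[(1 : ℤ)] γ
      = (2 * π * I)⁻¹ • ∑ a : ZMod N, eisWeight ψ a • eisG (rowMul ![0, (a.val : ℝ) / N] γ) := by
  rw [eisOne, ModularForm.SL_smul_slash, ModularForm.SL_slash, SlashAction.sum_slash]
  congr 1
  refine Finset.sum_congr rfl fun a _ => ?_
  rcases eq_or_ne a 0 with rfl | ha
  · simp [eisWeight_zero hψ, SlashAction.zero_slash]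
  · rw [← eisG_slash γ _ (notInt_of_ne_zero ha)]
    exact ModularForm.SL_smul_slash _ _ _ _

/-- The Eisenstein series transforms under `Γ₀(N)` by its character. -/
theorem eisOne_slash_gamma0 (hψ : ψ.Odd) {γ : SL(2, ℤ)} (hγ : γ ∈ Gamma0 N) :
    eisOne ψ ∣[(1 : ℤ)] γ = ψ (γ 1 1 : ZMod N) • eisOne ψ := by
  have hu : IsUnit ((γ 1 1 : ℤ) : ZMod N) := by
    refine IsUnit.of_mul_eq_one ((γ 0 0 : ℤ) : ZMod N) ?_
    have hd := congrArg (Int.cast : ℤ → ZMod N) γ.det_coe
    rw [Matrix.det_fin_two] at hd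
    push_cast at hd
    rw [Gamma0_mem.1 hγ, mul_zero, sub_zero, mul_comm] at hd
    exact hd
  obtain ⟨d, hd⟩ := hu
  obtain ⟨c, hc⟩ := (ZMod.intCast_zmod_eq_zero_iff_dvd _ N).1 (Gamma0_mem.1 hγ)
  rw [slash_eisOne hψ, ← hd, eisOne, smul_comm (ψ (d : ZMod N))]
  congr 1
  rw [Finset.smul_sum, ← Equiv.sum_comp d.mulRight fun a => ψ (d : ZMod N) • eisWeight ψ a •
    eisG ![0, (a.val : ℝ) / N]]
  refine Finset.sum_congr rfl fun a _ => ?_
  simp only [Units.mulRight_apply]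
  rw [smul_smul, eisWeight_mul_unit]
  rcases eq_or_ne a 0 with rfl | ha
  · simp [eisWeight_zero hψ]
  congr 1
  funext τ
  have hN : (N : ℝ) ≠ 0 := Nat.cast_ne_zero.2 (NeZero.ne N)
  obtain ⟨e, he⟩ : (N : ℤ) ∣ (a.val : ℤ) * γ 1 1 - ((a * d).val : ℤ) := by
    rw [← ZMod.intCast_zmod_eq_zero_iff_dvd]
    push_cast
    rw [ZMod.natCast_zmod_val, ZMod.natCast_zmod_val, ← hd, sub_self]
  refine eisG_congr (notInt_of_ne_zero fun h => ha ((Units.mul_left_eq_zero d).1 h))
    ((a.val : ℤ) * c) e ?_ ?_ τ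
  · have hc' : (γ 1 0 : ℝ) = N * c := by exact_mod_cast hc
    simp [rowMul, hc']
    field_simp
  · have he' : (a.val : ℝ) * γ 1 1 - ((a * d).val : ℝ) = N * e := by exact_mod_cast he
    simp [rowMul, -ZMod.natCast_val]
    field_simp
    linarith

/-- The Eisenstein series is holomorphic on the upper half plane. -/
theorem mdifferentiable_eisOne (hψ : ψ.Odd) : MDiff (eisOne ψ) := by
  refine MDifferentiable.const_smul _ (Finset.sum_induction _ (fun g : ℍ → ℂ => MDiff g)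
    (fun _ _ ha hb => ha.add hb) mdifferentiable_const fun a _ => ?_)
  rcases eq_or_ne a 0 with rfl | ha
  · rw [eisWeight_zero hψ, zero_smul]; exact mdifferentiable_const
  · exact (mdifferentiable_eisG (notInt_of_ne_zero ha)).const_smul _

/-- The Eisenstein series is bounded at every cusp. -/
theorem isBoundedAtImInfty_slash_eisOne (hψ : ψ.Odd) (γ : SL(2, ℤ)) :
    IsBoundedAtImInfty (eisOne ψ ∣[(1 : ℤ)] γ) := by
  rw [slash_eisOne hψ]
  refine Filter.BoundedAtFilter.smul _ (Finset.sum_induction _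
    (fun g : ℍ → ℂ => IsBoundedAtImInfty g) (fun _ _ ha hb => ha.add hb)
    (Filter.const_boundedAtFilter _ (0 : ℂ)) fun a _ => ?_)
  rcases eq_or_ne a 0 with rfl | ha
  · rw [eisWeight_zero hψ, zero_smul]; exact Filter.const_boundedAtFilter _ (0 : ℂ)
  · exact Filter.BoundedAtFilter.smul _
      (isBoundedAtImInfty_eisG (notInt_rowMul (notInt_of_ne_zero ha) γ))

/-- `eisOne ψ` as a modular form on `Γ₁(N)`. -/
def eisOneForm (hψ : ψ.Odd) : ModularForm (Gamma1 N) 1 where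
  toFun := eisOne ψ
  slash_action_eq' := by
    rintro _ ⟨γ, hγ, rfl⟩
    have h := (Gamma1_mem N γ).1 hγ
    show eisOne ψ ∣[(1 : ℤ)] γ = eisOne ψ
    rw [eisOne_slash_gamma0 hψ (Gamma1_in_Gamma0 N hγ), h.2.1, map_one, one_smul]
  holo' := mdifferentiable_eisOne hψ
  bdd_at_cusps' := by
    intro c hc
    rw [OnePoint.isBoundedAt_iff_forall_SL2Z
      (Subgroup.IsArithmetic.isCusp_iff_isCusp_SL2Z _ |>.1 hc)]
    exact fun γ _ => isBoundedAtImInfty_slash_eisOne hψ γ

/-! ### The expansion at infinity -/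

theorem eC_val_div (a : ZMod N) : eC ((((a.val : ℝ) / N : ℝ) : ℂ)) = ZMod.stdAddChar a := by
  rw [ZMod.stdAddChar_apply, ZMod.toCircle_apply, eC]
  congr 1
  push_cast
  ring

variable (ψ)

/-- The Fourier coefficients of `eisOne ψ`. -/
def eisCoeff (n : ℕ) : ℂ :=
  if n = 0 then -(1 / (2 * (N : ℂ))) * ∑ t : ZMod N, (t.val : ℂ) * ψ t
  else ∑ m ∈ n.divisors, ψ (m : ZMod N)

/-- The constant term of the Eisenstein series, cleared of denominators. -/
theorem eisCoeff_zero_mul :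
    2 * (N : ℂ) * eisCoeff ψ 0 = -∑ t : ZMod N, (t.val : ℂ) * ψ t := by
  have hN : (N : ℂ) ≠ 0 := Nat.cast_ne_zero.2 (NeZero.ne N)
  rw [eisCoeff, if_pos rfl]
  field_simp

theorem eisCoeff_one : eisCoeff ψ 1 = 1 := by simp [eisCoeff]

variable {ψ}

theorem geomL_stdAddChar {a : ZMod N} (ha : a ≠ 0) :
    geomL (ZMod.stdAddChar a)
      = -1 - (1 / (N : ℂ)) * ∑ t : ZMod N, (t.val : ℂ) * ZMod.stdAddChar (a * t) := by
  set ζ : ℂ := ZMod.stdAddChar a with hζ
  have hN : (N : ℂ) ≠ 0 := Nat.cast_ne_zero.2 (NeZero.ne N)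
  have hne : ζ ≠ 1 := fun h => ha (ZMod.injective_stdAddChar (by
    rw [← hζ, h, AddChar.map_zero_eq_one]))
  have hzero : ∑ t : ZMod N, ZMod.stdAddChar (a * t) = (0 : ℂ) := by
    have := AddChar.sum_mulShift (R := ZMod N) (R' := ℂ) a (ZMod.isPrimitive_stdAddChar N)
    simpa [ha, mul_comm] using this
  have hkey : (ζ - 1) * ∑ t : ZMod N, (t.val : ℂ) * ZMod.stdAddChar (a * t) = N := by
    have hshift : ζ * ∑ t : ZMod N, (t.val : ℂ) * ZMod.stdAddChar (a * t)
        = ∑ t : ZMod N, ((t - 1).val : ℂ) * ZMod.stdAddChar (a * t) := by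
      rw [Finset.mul_sum, ← Equiv.sum_comp (Equiv.addRight (1 : ZMod N))
        fun t => ((t - 1).val : ℂ) * ZMod.stdAddChar (a * t)]
      refine Finset.sum_congr rfl fun t _ => ?_
      simp only [Equiv.coe_addRight, add_sub_cancel_right, mul_add, mul_one,
        AddChar.map_add_eq_mul, hζ]
      ring
    have hval : ∀ t : ZMod N, ((t - 1).val : ℂ) - t.val = (if t = 0 then (N : ℂ) else 0) - 1 := by
      intro t
      obtain ⟨M, rfl⟩ := Nat.exists_eq_succ_of_ne_zero (NeZero.ne N)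
      rcases eq_or_ne t 0 with rfl | h
      · rw [zero_sub, ZMod.val_neg_one, ZMod.val_zero]
        simp
      · rw [if_neg h]
        have h1 : 1 ≤ t.val := Nat.pos_of_ne_zero fun h' => h ((ZMod.val_eq_zero t).1 h')
        have hM : 1 < M + 1 := h1.trans_lt (ZMod.val_lt t)
        have : Fact (1 < M.succ) := ⟨hM⟩
        rw [ZMod.val_sub (by rwa [ZMod.val_one]), ZMod.val_one, Nat.cast_sub h1]
        push_cast
        ring
    rw [sub_mul, one_mul, hshift, ← Finset.sum_sub_distrib]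
    simp_rw [← sub_mul, hval, sub_mul, one_mul]
    rw [Finset.sum_sub_distrib, hzero, sub_zero]
    simp
  have h1 : 1 - ζ ≠ 0 := sub_ne_zero.2 (Ne.symm hne)
  rw [geomL]
  field_simp
  linear_combination -hkey

/-- The Eisenstein series is its constant term plus a weighted sum of Lambert series. -/
private theorem eisOne_eq_sum_lambert (hψ : ψ.Odd) (τ : ℍ) :
    eisOne ψ τ = eisCoeff ψ 0 + ∑ a : ZMod N, eisWeight ψ a
      * (lambert (eC τ) (ZMod.stdAddChar (-a)) - lambert (eC τ) (ZMod.stdAddChar a)) := by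
  rw [eisOne, Pi.smul_apply, Finset.sum_apply, smul_eq_mul]
  have hterm : ∀ a : ZMod N, (eisWeight ψ a • eisG ![0, (a.val : ℝ) / N]) τ
      = eisWeight ψ a * (-(π : ℂ) * I) - 2 * π * I * (eisWeight ψ a * geomL (ZMod.stdAddChar a))
        + 2 * π * I * (eisWeight ψ a
          * (lambert (eC τ) (ZMod.stdAddChar (-a)) - lambert (eC τ) (ZMod.stdAddChar a))) := by
    intro a
    rw [Pi.smul_apply, smul_eq_mul, eisG]
    simp only [Matrix.cons_val_zero, Matrix.cons_val_one, ofReal_zero, zero_mul, zero_add,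
      mul_zero, add_zero, kerK]
    rw [eC_val_div, ← AddChar.map_neg_eq_inv]
    ring
  simp_rw [hterm]
  rw [Finset.sum_add_distrib, Finset.sum_sub_distrib, ← Finset.sum_mul, sum_eisWeight hψ,
    zero_mul, zero_sub, ← Finset.mul_sum, ← Finset.mul_sum, mul_add, ← mul_assoc,
    inv_mul_cancel₀ two_pi_I_ne_zero, one_mul, mul_neg, ← mul_assoc,
    inv_mul_cancel₀ two_pi_I_ne_zero, one_mul]
  congr 1
  have hL : ∀ a : ZMod N, eisWeight ψ a * geomL (ZMod.stdAddChar a)
      = eisWeight ψ a * (-1)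
        - ∑ t : ZMod N, (1 / (N : ℂ)) * (t.val : ℂ)
            * (eisWeight ψ a * ZMod.stdAddChar (a * t)) := by
    intro a
    rcases eq_or_ne a 0 with rfl | ha
    · simp [eisWeight_zero hψ]
    · rw [geomL_stdAddChar ha, mul_sub, Finset.mul_sum, Finset.mul_sum]
      exact congrArg (_ - ·) (Finset.sum_congr rfl fun t _ => by ring)
  simp_rw [hL]
  rw [Finset.sum_sub_distrib, ← Finset.sum_mul, sum_eisWeight hψ, Finset.sum_comm]
  simp_rw [← Finset.mul_sum, sum_eisWeight_mul]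
  rw [eisCoeff, if_pos rfl, zero_mul, zero_sub, neg_neg, Finset.mul_sum]
  exact Finset.sum_congr rfl fun t _ => by ring

/-- The Eisenstein series is the sum of its `q`-expansion on the upper half plane. -/
theorem hasSum_eisOne (hψ : ψ.Odd) (τ : ℍ) :
    HasSum (fun n => eisCoeff ψ n * Function.Periodic.qParam 1 τ ^ n) (eisOne ψ τ) := by
  have hq0 : Function.Periodic.qParam 1 (τ : ℂ) = eC τ := by simp [Function.Periodic.qParam, eC]
  rw [hq0]
  set q := eC τ
  have hq : ‖q‖ < 1 := norm_eC_lt_one τ.im_pos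
  -- the double series
  set F : ℕ × ℕ → ℂ := fun x => ψ ((x.2 + 1 : ℕ) : ZMod N) * q ^ ((x.1 + 1) * (x.2 + 1))
  have hF : Summable F := by
    have h := (summable_prod_mul_pow (𝕜 := ℂ) 0 hq).norm
    have h' := (Equiv.pnatEquivNat.prodCongr Equiv.pnatEquivNat).symm.summable_iff.2 h
    refine Summable.of_norm_bounded h' fun x => ?_
    simp only [F, Function.comp_apply, norm_mul, pow_zero, one_mul]
    refine le_of_le_of_eq (mul_le_of_le_one_left (norm_nonneg _)
      (DirichletCharacter.norm_le_one _ _))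
      ?_
    simp [Equiv.prodCongr]
  -- the geometric series
  have hgeom : ∀ y : ℂ, ‖y‖ < 1 → HasSum (fun m : ℕ => y ^ (m + 1)) (geomL y) := fun y hy => by
    simpa [geomL, pow_succ', div_eq_mul_inv] using (hasSum_geometric_of_norm_lt_one hy).mul_left y
  have hnormχ : ∀ a : ZMod N, ‖(ZMod.stdAddChar a : ℂ)‖ = 1 := fun a => by
    rw [ZMod.stdAddChar_apply]; exact Circle.norm_coe _
  have hlt : ∀ (n : ℕ) (a : ZMod N), ‖q ^ (n + 1) * ZMod.stdAddChar a‖ < 1 := fun n a => by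
    rw [norm_mul, hnormχ, mul_one, norm_pow]
    exact pow_lt_one₀ (norm_nonneg _) hq n.succ_ne_zero
  have hinner : ∀ n : ℕ, HasSum (fun m => F (n, m))
      (∑ a : ZMod N, eisWeight ψ a * (geomL (q ^ (n + 1) * ZMod.stdAddChar (-a))
        - geomL (q ^ (n + 1) * ZMod.stdAddChar a))) := by
    intro n
    refine (hasSum_sum fun (a : ZMod N) _ => ((hgeom _ (hlt n (-a))).sub
      (hgeom _ (hlt n a))).mul_left (eisWeight ψ a)).congr_fun fun m => ?_
    have h1 : ∀ a : ZMod N, (ZMod.stdAddChar (-a) : ℂ) ^ (m + 1)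
        = ZMod.stdAddChar (a * -((m + 1 : ℕ) : ZMod N)) := fun a => by
      rw [← AddChar.map_nsmul_eq_pow, nsmul_eq_mul]; ring_nf
    have h2 : ∀ a : ZMod N, (ZMod.stdAddChar a : ℂ) ^ (m + 1)
        = ZMod.stdAddChar (a * ((m + 1 : ℕ) : ZMod N)) := fun a => by
      rw [← AddChar.map_nsmul_eq_pow, nsmul_eq_mul]; ring_nf
    have hneg : ψ (-((m + 1 : ℕ) : ZMod N)) = -ψ ((m + 1 : ℕ) : ZMod N) := by
      rw [← neg_one_mul, map_mul, hψ, neg_one_mul]
    calc F (n, m) = q ^ ((n + 1) * (m + 1))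
          * ((∑ a, eisWeight ψ a * ZMod.stdAddChar (a * -((m + 1 : ℕ) : ZMod N)))
            - ∑ a, eisWeight ψ a * ZMod.stdAddChar (a * ((m + 1 : ℕ) : ZMod N))) := by
            rw [sum_eisWeight_mul, sum_eisWeight_mul, hneg]; simp only [F]; ring
      _ = _ := by
        rw [← Finset.sum_sub_distrib, Finset.mul_sum]
        refine Finset.sum_congr rfl fun a _ => ?_
        rw [mul_pow, mul_pow, h1, h2, ← pow_mul]
        ring
  have htot : ∑ a : ZMod N, eisWeight ψ a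
      * (lambert q (ZMod.stdAddChar (-a)) - lambert q (ZMod.stdAddChar a)) = ∑' x, F x := by
    rw [hF.tsum_prod]
    simp_rw [fun n => (hinner n).tsum_eq]
    rw [Summable.tsum_finsetSum fun a _ =>
      ((summable_lambert hq _).sub (summable_lambert hq _)).mul_left _]
    refine Finset.sum_congr rfl fun a _ => ?_
    rw [tsum_mul_left, (summable_lambert hq _).tsum_sub (summable_lambert hq _)]
    rfl
  have hval : eisOne ψ τ = eisCoeff ψ 0 + ∑' x, F x := by
    rw [← htot]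
    exact eisOne_eq_sum_lambert hψ τ
  -- regroup by the product of the two indices
  have hsigma : HasSum (fun n : ℕ+ => eisCoeff ψ n * q ^ (n : ℕ)) (∑' x, F x) := by
    refine HasSum.sigma ((((sigmaAntidiagonalEquivProd.trans
      (Equiv.pnatEquivNat.prodCongr Equiv.pnatEquivNat)).hasSum_iff).2 hF.hasSum)) fun n => ?_
    have hn : eisCoeff ψ (n : ℕ) * q ^ (n : ℕ)
        = ∑ x : (n : ℕ).divisorsAntidiagonal, ψ (x.1.2 : ZMod N) * q ^ (n : ℕ) := by
      rw [eisCoeff, if_neg n.ne_zero, Finset.sum_mul, Finset.univ_eq_attach,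
        (n : ℕ).divisorsAntidiagonal.sum_attach (fun x => ψ (x.2 : ZMod N) * q ^ (n : ℕ)),
        Nat.sum_divisorsAntidiagonal' (fun _ m => ψ (m : ZMod N) * q ^ (n : ℕ))]
    rw [hn]
    refine (hasSum_fintype _).congr_fun fun x => ?_
    obtain ⟨⟨k, l⟩, hkl⟩ := x
    rw [Nat.mem_divisorsAntidiagonal] at hkl
    have hk : k ≠ 0 := fun h => hkl.2 (by simp [← hkl.1, h])
    have hl : l ≠ 0 := fun h => hkl.2 (by simp [← hkl.1, h])
    simp [F, sigmaAntidiagonalEquivProd, divisorsAntidiagonalFactors, Equiv.pnatEquivNat,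
      PNat.natPred, Nat.sub_add_cancel (Nat.pos_of_ne_zero hk),
      Nat.sub_add_cancel (Nat.pos_of_ne_zero hl), hkl.1]
    left
    obtain ⟨l', rfl⟩ := Nat.exists_eq_succ_of_ne_zero hl
    simp
  have hnat : HasSum (fun n : ℕ => eisCoeff ψ (n + 1) * q ^ (n + 1)) (∑' x, F x) :=
    (Equiv.pnatEquivNat.symm.hasSum_iff (f := fun n : ℕ+ => eisCoeff ψ n * q ^ (n : ℕ))).2 hsigma
  rw [hval]
  have h := (hasSum_nat_add_iff (f := fun n => eisCoeff ψ n * q ^ n) 1).1 hnat
  rw [Finset.sum_range_one, pow_zero, mul_one, add_comm] at h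
  exact h

end Fermat.Agent.DeligneSerre
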