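import Mathlib.LinearAlgebra.Matrix.Charpoly.Basic
import Mathlib.RingTheory.Artinian.Algebra
import Mathlib.RingTheory.Ideal.AssociatedPrime.Localization

/-!
# Common eigenvectors of commuting matrices
-/

set_option autoImplicit false

noncomputable section

namespace Fermat.Agent.DeligneSerre

open Matrix

variable {k : Type*} [Field k] {n ι : Type*} [Fintype n] [DecidableEq n]

/-- Either commuting matrices have a common eigenvector for the given eigenvalues, or every
subspace containing the shifted matrices and stable under them contains `1`. -/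
theorem exists_eigvec_or_one_mem (N : ι → Matrix n n k) (hc : ∀ i j, Commute (N i) (N j))
    (c : ι → k) (W : Submodule k (Matrix n n k)) (hgen : ∀ i, N i - c i • 1 ∈ W)
    (hmul : ∀ i, ∀ w ∈ W, N i * w ∈ W) :
    (∃ x : n → k, x ≠ 0 ∧ ∀ i, N i *ᵥ x = c i • x) ∨ 1 ∈ W := by
  let R := Algebra.adjoin k (Set.range N)
  have hcomm : IsMulCommutative R := Algebra.isMulCommutative_adjoin k (by
    rintro _ ⟨i, rfl⟩ _ ⟨j, rfl⟩
    exact hc i j)
  let : CommRing R :=
    { (inferInstance : Ring R) with mul_comm := fun a b => hcomm.is_comm.comm a b }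
  have hmul' : ∀ b ∈ R, ∀ w ∈ W, b * w ∈ W := by
    intro b hb
    induction hb using Algebra.adjoin_induction with
    | mem x hx =>
      obtain ⟨i, rfl⟩ := hx
      exact hmul i
    | algebraMap r => intro w hw; rw [Algebra.algebraMap_eq_smul_one, smul_one_mul]
                      exact W.smul_mem r hw
    | add x y _ _ hx hy => intro w hw; rw [add_mul]; exact W.add_mem (hx w hw) (hy w hw)
    | mul x y _ _ hx hy => intro w hw; rw [mul_assoc]; exact hx _ (hy w hw)
  -- The elements of the commutative algebra lying in `W` form an ideal.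
  let I : Ideal R :=
    { carrier := {b | (b : Matrix n n k) ∈ W}
      add_mem' := fun ha hb => W.add_mem ha hb
      zero_mem' := W.zero_mem
      smul_mem' := fun b a ha => hmul' _ b.2 _ ha }
  by_cases hI : I = ⊤
  · exact Or.inr ((Ideal.eq_top_iff_one I).1 hI)
  · refine Or.inl ?_
    -- If it is proper, a maximal ideal over it is associated, being minimal in an Artinian ring.
    obtain ⟨P, hP, hIP⟩ := Ideal.exists_le_maximal I hI
    have : IsArtinianRing R := IsArtinianRing.of_finite k R
    have : IsNoetherianRing R := isNoetherian_of_tower k inferInstance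
    obtain ⟨Q, hQ, hQP⟩ := Ideal.exists_minimalPrimes_le (I := Module.annihilator R R) (J := P)
      (fun a ha => by
        have h1 := Module.mem_annihilator.1 ha 1
        rw [smul_eq_mul, mul_one] at h1
        simp [h1])
    have hQ' : Q.IsPrime := hQ.isPrime
    obtain rfl : Q = P :=
      (IsArtinianRing.isMaximal_of_isPrime Q).eq_of_le hP.ne_top hQP
    obtain ⟨-, r, hr⟩ := isAssociatedPrime_iff.1
      (Module.associatedPrimes.minimalPrimes_annihilator_subset_associatedPrimes R R hQ)
    have hann : ∀ a ∈ Q, (a : Matrix n n k) * (r : Matrix n n k) = 0 := by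
      intro a ha
      rw [hr, Submodule.mem_colon_singleton, Submodule.mem_bot, smul_eq_mul] at ha
      exact congrArg Subtype.val ha
    have hr0 : (r : Matrix n n k) ≠ 0 := by
      intro h0
      refine hP.ne_top ((Ideal.eq_top_iff_one Q).2 ?_)
      rw [hr, Submodule.mem_colon_singleton, Submodule.mem_bot, smul_eq_mul, one_mul]
      exact Subtype.ext h0
    obtain ⟨j, hj⟩ : ∃ j, (r : Matrix n n k) *ᵥ Pi.single j 1 ≠ 0 := by
      by_contra h
      push Not at h
      exact hr0 (Matrix.ext_of_mulVec_single fun j => by rw [h j, zero_mulVec])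
    -- A nonzero column of an element it annihilates is the common eigenvector.
    refine ⟨(r : Matrix n n k) *ᵥ Pi.single j 1, hj, fun i => ?_⟩
    let b : R := ⟨N i - c i • 1, R.sub_mem (Algebra.subset_adjoin ⟨i, rfl⟩)
      (R.smul_mem R.one_mem _)⟩
    have hb : b ∈ Q := hIP (hgen i)
    have h := congrArg (fun A => A *ᵥ Pi.single j (1 : k)) (hann b hb)
    simp only [b, zero_mulVec, ← mulVec_mulVec, sub_mulVec, smul_mulVec, one_mulVec] at h
    exact sub_eq_zero.1 h

variable {O : Type*} [CommRing O]

/-- The lifted form: the subspace is the reduction of a submodule over `O`. -/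
theorem exists_eigvec_or_lift {π : O →+* k} (hπ : Function.Surjective π) (N : ι → Matrix n n O)
    (hc : ∀ i j, Commute (N i) (N j)) (a : ι → O) (J : Submodule O (Matrix n n O))
    (hgen : ∀ i, N i - a i • 1 ∈ J) (hmul : ∀ i, ∀ B ∈ J, N i * B ∈ J) :
    (∃ x : n → k, x ≠ 0 ∧ ∀ i, (N i).map π *ᵥ x = π (a i) • x) ∨
      ∃ B ∈ J, B.map π = 1 := by
  let W : Submodule k (Matrix n n k) :=
    { carrier := {A | ∃ B ∈ J, B.map π = A}
      zero_mem' := ⟨0, J.zero_mem, Matrix.map_zero _ (map_zero π)⟩
      add_mem' := by
        rintro _ _ ⟨B, hB, rfl⟩ ⟨C, hC, rfl⟩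
        exact ⟨B + C, J.add_mem hB hC, Matrix.map_add _ (map_add π) B C⟩
      smul_mem' := by
        rintro x _ ⟨B, hB, rfl⟩
        obtain ⟨y, rfl⟩ := hπ x
        exact ⟨y • B, J.smul_mem y hB, by ext s t; simp⟩ }
  refine exists_eigvec_or_one_mem (fun i => (N i).map π)
    (fun i j => (hc i j).map π.mapMatrix) (fun i => π (a i)) W
    (fun i => ⟨_, hgen i, ?_⟩) ?_
  · ext s t
    simp [Matrix.one_apply, apply_ite π]
  · rintro i _ ⟨B, hB, rfl⟩
    exact ⟨_, hmul i B hB, Matrix.map_mul⟩

/-- A matrix congruent to zero has characteristic polynomial congruent to `X ^ n`. -/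
theorem charpoly_map_eq_X_pow {π : O →+* k} {B : Matrix n n O} (h : B.map π = 0) :
    B.charpoly.map π = Polynomial.X ^ Fintype.card n := by
  rw [← Matrix.charpoly_map, h, Matrix.charpoly_zero]

end Fermat.Agent.DeligneSerre
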