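import Fermat.Agent.DeligneSerre.PeriodsOps
import Fermat.Agent.DeligneSerre.Conjugate
import Fermat.Agent.Periods.Congruence.Operators
import Fermat.Prelude.Sol.S_CuspFormClass_isZeroAt_heckeT
import Fermat.Prelude.Thm_ModularFormClass_qCoeff_heckeU

/-!
# Hecke operators on weight two forms of `Γ_{±1}(M)` with a nebentypus
-/

set_option autoImplicit false

noncomputable section

namespace Fermat.Agent.DeligneSerre

open CongruenceSubgroup ModularFormClass ModularForm
open UpperHalfPlane hiding I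
open Matrix.SpecialLinearGroup (mapGL)
open Fermat.Agent.RT.GammaH Fermat.Agent.Periods.Congruence
open scoped MatrixGroups Manifold

/-- An integral matrix of nonzero determinant comes from `GL₂(ℚ)`. -/
theorem exists_ratCast_of_isIntMat {g : GLR} {B : Matrix (Fin 2) (Fin 2) ℤ} (h : IsIntMat g B)
    (hd : B.det ≠ 0) :
    ∃ q : GL (Fin 2) ℚ, g = Matrix.GeneralLinearGroup.map (Rat.castHom ℝ) q := by
  refine ⟨Matrix.GeneralLinearGroup.mkOfDetNeZero (B.map (Int.castRingHom ℚ)) ?_, Units.ext ?_⟩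
  · rw [← RingHom.mapMatrix_apply, ← RingHom.map_det]
    simpa using hd
  · rw [h]
    ext i j
    simp [Matrix.GeneralLinearGroup.mkOfDetNeZero]

/-- A coset operator acts on cusp forms. -/
theorem exists_slashSum {Γ : Subgroup SL(2, ℤ)} [Γ.FiniteIndex] {ι : Type} [Fintype ι]
    {rep : ι → GLR} (h : Admissible Γ Γ rep)
    (hrat : ∀ i, ∃ q : GL (Fin 2) ℚ, rep i = Matrix.GeneralLinearGroup.map (Rat.castHom ℝ) q)
    {k : ℤ} (f : CuspForm Γ k) : ∃ g : CuspForm Γ k, ⇑g = ∑ i, ⇑f ∣[k] rep i := by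
  refine ⟨mkCuspForm Γ k (∑ i, ⇑f ∣[k] rep i) (fun γ hγ => ?_)
    (MDifferentiable.sum fun i _ => (CuspFormClass.holo f).slash k _) (fun γ => ?_), rfl⟩
  · obtain ⟨σ, hσ⟩ := h ⟨γ, hγ⟩
    rw [SL_slash, SlashAction.sum_slash]
    refine Fintype.sum_bijective σ hσ.1 _ _ fun i => ?_
    obtain ⟨c, hc⟩ := exists_of_mem_img (hσ.2 i)
    show (⇑f ∣[k] rep i) ∣[k] (mapGL ℝ γ : GLR) = _
    rw [← SlashAction.slash_mul,
      show rep i * mapGL ℝ γ = mapGL ℝ (c : SL(2, ℤ)) * rep (σ i) by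
        rw [hc, inv_mul_cancel_right],
      SlashAction.slash_mul]
    exact congrArg (· ∣[k] rep (σ i))
      (SlashInvariantFormClass.slash_action_eq f _ ⟨(c : SL(2, ℤ)), c.2, rfl⟩)
  · rw [SL_slash, SlashAction.sum_slash]
    refine Finset.sum_induction _ (fun F => IsZeroAtImInfty F) (fun _ _ => Filter.ZeroAtFilter.add)
      (Filter.zero_zeroAtFilter _) fun i _ => ?_
    obtain ⟨q, hq⟩ := hrat i
    have he : (mapGL ℝ γ : GLR) = Matrix.GeneralLinearGroup.map (Rat.castHom ℝ) (mapGL ℚ γ) := by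
      ext a b; simp [Matrix.GeneralLinearGroup.map_apply]
    show IsZeroAtImInfty ((⇑f ∣[k] rep i) ∣[k] (mapGL ℝ γ : GLR))
    rw [← SlashAction.slash_mul, hq, he, ← map_mul]
    exact OnePoint.isZeroAt_infty_iff.1
      (P2MW.S_CuspFormClass_isZeroAt_heckeT.ModularForm.S06W2.isZeroAt_slash_ratCast f _ Fact.out)

variable {M : ℕ} [NeZero M] {δ : DirichletCharacter ℂ M}

omit [NeZero M] in
theorem one_mem_strictPeriods_pmGroup :
    (1 : ℝ) ∈ ((pmGroup M : Subgroup SL(2, ℤ)) : Subgroup (GL (Fin 2) ℝ)).strictPeriods := by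
  rw [Subgroup.mem_strictPeriods_iff]
  refine ⟨ModularGroup.T, ⟨by simp [ModularGroup.coe_T], 1, one_mem _,
    by simp [ModularGroup.coe_T]⟩, ?_⟩
  ext a b
  fin_cases a <;> fin_cases b <;> simp [ModularGroup.coe_T]

omit [NeZero M] in
theorem gamma0Elt_lowerRight (u : (ZMod M)ˣ) :
    ((gamma0Elt u) 1 1 : ZMod M) = ((u⁻¹ : (ZMod M)ˣ) : ZMod M) := by
  have hd : ((gamma0Elt u 0 0 : ℤ) : ZMod M) * gamma0Elt u 1 1
      - gamma0Elt u 0 1 * gamma0Elt u 1 0 = 1 := by
    exact_mod_cast congrArg (Int.cast : ℤ → ZMod M) (Gamma0.det_eq (gamma0Elt u))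
  rw [gamma0Elt_lowerLeft, mul_zero, sub_zero, gamma0Elt_upperLeft] at hd
  exact (Units.inv_eq_of_mul_eq_one_right hd).symm

/-- The diamond operators act by `δ`. -/
def IsNebPM (δ : DirichletCharacter ℂ M) (g : CuspForm (pmGroup M) 2) : Prop :=
  ∀ u : (ZMod M)ˣ, ⇑g ∣[(2 : ℤ)] gamma0Elt u⁻¹ = δ (u : ZMod M) • ⇑g

omit [NeZero M] in
theorem IsNebPM.add {g h : CuspForm (pmGroup M) 2} (hg : IsNebPM δ g) (hh : IsNebPM δ h) :
    IsNebPM δ (g + h) := fun u => by
  rw [FunLike.coe_add, SlashAction.add_slash, hg u, hh u, smul_add]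

omit [NeZero M] in
theorem IsNebPM.zero : IsNebPM δ (0 : CuspForm (pmGroup M) 2) := fun u => by
  rw [FunLike.coe_zero, SlashAction.zero_slash, smul_zero]

omit [NeZero M] in
theorem IsNebPM.smul {g : CuspForm (pmGroup M) 2} (hg : IsNebPM δ g) (c : ℂ) :
    IsNebPM δ (c • g) := fun u => by
  rw [FunLike.coe_smul, SL_smul_slash, hg u, smul_comm]

theorem diamond_per {g : CuspForm (pmGroup M) 2} (hg : IsNebPM δ g) (u : (ZMod M)ˣ) :
    diamond M _ ℂ u (per g) = δ (u : ZMod M) • per g := by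
  have h := per_opOf (admissible_diaRep (K := Subgroup.zpowers (-1)) u)
    (fun _ => by simp [diaRep]) Gamma_le_gammaH g (δ (u : ZMod M) • g) (by
      rw [Fintype.sum_unique, FunLike.coe_smul, ← hg u, SL_slash]
      rfl)
  exact h.symm.trans (map_smul (perLin Gamma_le_gammaH) _ g)

/-- The Hecke operator at a good prime on forms with nebentypus `δ`. -/
theorem exists_heckeForm {g : CuspForm (pmGroup M) 2} (hg : IsNebPM δ g) {p : ℕ}
    [hp : Fact p.Prime] (hpM : ¬ p ∣ M) :
    ∃ g' : CuspForm (pmGroup M) 2, IsNebPM δ g' ∧ per g' = hecke M _ p ℂ (per g) ∧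
      ∀ n, qCoeff g' n = qCoeff g (n * p) +
        if p ∣ n then (p : ℂ) * δ (p : ZMod M) * qCoeff g (n / p) else 0 := by
  -- The slash sum has the right periods; periods determine the form.
  obtain ⟨g', hg'⟩ := exists_slashSum
    (admissible_hRep (M := M) (K := Subgroup.zpowers (-1)) (n := p))
    (fun i => by
      obtain ⟨B, hB, hd, -⟩ := hRep_mem_heckeSet (K := Subgroup.zpowers (-1)) i
      exact exists_ratCast_of_isIntMat hB (by rw [hd]; exact_mod_cast hp.out.ne_zero)) g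
  have hper : per g' = hecke M _ p ℂ (per g) :=
    per_opOf _ (fun i => det_pos_of_mem_heckeSet hp.out.pos
      (hRep_mem_heckeSet (K := Subgroup.zpowers (-1)) i)) Gamma_le_gammaH g g' hg'
  refine ⟨g', fun u => ?_, hper, fun n => ?_⟩
  -- The diamond operators commute with it, so the nebentypus is unchanged.
  · obtain ⟨h, hh⟩ := exists_slashSum (admissible_diaRep (K := Subgroup.zpowers (-1)) u)
      (fun _ => exists_ratCast_of_isIntMat (isIntMat_mapGL _) (by simp)) g'
    have h1 : per h = per (δ (u : ZMod M) • g') := by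
      rw [per_opOf (admissible_diaRep u) (fun _ => by simp [diaRep]) Gamma_le_gammaH g' h hh, hper]
      show diamond M _ ℂ u (hecke M _ p ℂ (per g)) = _
      rw [← hecke_diamond, diamond_per hg u, map_smul, ← hper]
      exact (map_smul (perLin Gamma_le_gammaH) _ g').symm
    have h2 : h = δ (u : ZMod M) • g' := by
      refine sub_eq_zero.1 (per_injective Gamma_le_gammaH ?_)
      show perLin Gamma_le_gammaH (h - δ (u : ZMod M) • g') = 0
      rw [map_sub, sub_eq_zero]
      exact h1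
    rw [SL_slash, ← FunLike.coe_smul, ← h2, hh, Fintype.sum_unique]
    rfl
  -- It is `U_p g + δ(p) g(pτ)`; read off the `q`-expansion.
  · set u₀ := ZMod.unitOfCoprime p ((Nat.Prime.coprime_iff_not_dvd hp.out).2 hpM)
    have hu₀ : ((u₀ : (ZMod M)ˣ) : ZMod M) = (p : ZMod M) := ZMod.coe_unitOfCoprime _ _
    let e : Option (Fin p) ≃ HIdx M p :=
      (Equiv.subtypeUnivEquiv fun _ _ => hpM).symm
    have hfun : ⇑g' = heckeU 2 p ⇑g + δ (p : ZMod M) • (⇑g ∣[(2 : ℤ)] heckeDiagMatrix p) := by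
      rw [hg', ← e.sum_comp, Fintype.sum_option, add_comm]
      congr 1
      · rw [heckeU_def, ← Fin.sum_univ_eq_sum_range (fun j => ⇑g ∣[(2 : ℤ)] heckeMatrix p j)]
        rfl
      · show ⇑g ∣[(2 : ℤ)] (mapGL ℝ (gamma0Elt u₀⁻¹) * heckeDiagMatrix p) = _
        rw [SlashAction.slash_mul, ← hu₀]
        show (⇑g ∣[(2 : ℤ)] gamma0Elt u₀⁻¹) ∣[(2 : ℤ)] heckeDiagMatrix p = _
        rw [hg u₀, ModularForm.smul_slash, σ_heckeDiagMatrix]
        rfl
    have hper1 : Function.Periodic (⇑g ∘ ofComplex) 1 :=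
      SlashInvariantFormClass.periodic_comp_ofComplex g one_mem_strictPeriods_pmGroup
    have hhol : MDiff ⇑g := CuspFormClass.holo g
    have hbdd : IsBoundedAtImInfty ⇑g := ModularFormClass.bdd_at_infty g
    refine (qExpansion_coeff_unique (c := fun m => qCoeff g (m * p) +
      if p ∣ m then (p : ℂ) * δ (p : ZMod M) * qCoeff g (m / p) else 0)
      (ContinuousMap.mk g' (CuspFormClass.holo g').continuous) one_pos
          (ModularFormClass.analyticAt_cuspFunction_zero g' one_pos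
        one_mem_strictPeriods_pmGroup) (fun τ => ?_) n).symm
    have h1 := P2MW.S_ModularFormClass_qCoeff_heckeU.M4cP1W2.hasSum_heckeU hp.out.ne_zero hper1
      hhol hbdd 2 τ
    have h2 := (P2MW.S_ModularFormClass_qCoeff_heckeU.M4cP1W2.hasSum_diag hp.out.ne_zero hper1
      hhol hbdd 2 τ).mul_left (δ (p : ZMod M))
    have hτ : g' τ = heckeU 2 p ⇑g τ +
        δ (p : ZMod M) * ((p : ℂ) ^ ((2 : ℤ) - 1) * g (heckeDiagMatrix p • τ)) := by
      rw [hfun, Pi.add_apply, Pi.smul_apply, slash_heckeDiagMatrix_apply 2 hp.out.ne_zero,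
        smul_eq_mul]
    show HasSum _ (g' τ)
    rw [hτ]
    refine (h1.add h2).congr_fun fun m => ?_
    simp only [coeffHeckeU_apply, smul_eq_mul]
    split_ifs <;> (try norm_num)
    ring

end Fermat.Agent.DeligneSerre
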