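import Mathlib.LinearAlgebra.Matrix.Trace
import Mathlib.LinearAlgebra.Matrix.Adjugate
import Mathlib.LinearAlgebra.Matrix.NonsingularInverse
import Mathlib.Tactic.LinearCombination
import Mathlib.Tactic.Ring

/-!
# Representations in which every element satisfies a quadratic equation with given norm

If `σ` is a representation of `G` spanning a matrix algebra over a field of characteristic `≠ 2`,
`χ` is multiplicative and `σ g + χ g • σ g⁻¹` is a scalar for every `g`, then `σ` has dimension at
most two, and in dimension two that scalar is the trace and `χ = det σ`.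
-/

set_option autoImplicit false

namespace Fermat.Agent.DeligneSerre

section Dim

variable {k : Type*} [Field k] {G : Type*} [Group G] {n : Type*} [Fintype n] [DecidableEq n]

variable (σ : G →* Matrix n n k) (χ : G → k)

/-- The span of the pairs `(σ g, χ g • σ g⁻¹)`. -/
noncomputable def pairSpan : Submodule k (Matrix n n k × Matrix n n k) :=
  Submodule.span k (Set.range fun g => (σ g, χ g • σ g⁻¹))

variable {σ χ}

theorem pairSpan_add_scalar (h : ∀ g, ∃ t : k, σ g + χ g • σ g⁻¹ = t • 1) {x y : Matrix n n k}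
    (hxy : (x, y) ∈ pairSpan σ χ) : ∃ t : k, x + y = t • 1 := by
  have key : ∀ z ∈ pairSpan σ χ, ∃ t : k, z.1 + z.2 = t • 1 := by
    intro z hz
    induction hz using Submodule.span_induction with
    | mem w hw => obtain ⟨g, rfl⟩ := hw; exact h g
    | zero => exact ⟨0, by simp⟩
    | add w w' _ _ hw hw' =>
      obtain ⟨t, ht⟩ := hw
      obtain ⟨t', ht'⟩ := hw'
      exact ⟨t + t', by rw [add_smul, ← ht, ← ht', Prod.fst_add, Prod.snd_add]; abel⟩
    | smul c w _ hw =>
      obtain ⟨t, ht⟩ := hw
      exact ⟨c * t, by rw [mul_smul, ← ht, smul_add]; rfl⟩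
  exact key _ hxy

theorem pairSpan_mul (hχ : ∀ g g', χ (g * g') = χ g * χ g') {z z' : Matrix n n k × Matrix n n k}
    (hz : z ∈ pairSpan σ χ) (hz' : z' ∈ pairSpan σ χ) :
    (z.1 * z'.1, z'.2 * z.2) ∈ pairSpan σ χ := by
  induction hz using Submodule.span_induction with
  | mem w hw =>
    obtain ⟨g, rfl⟩ := hw
    induction hz' using Submodule.span_induction with
    | mem w' hw' =>
      obtain ⟨g', rfl⟩ := hw'
      refine Submodule.subset_span ⟨g * g', ?_⟩
      ext1
      · simp
      · simp only [mul_inv_rev, map_mul, hχ, smul_mul_assoc, mul_smul_comm, smul_smul]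
    | zero => simp; exact Submodule.zero_mem _
    | add a b _ _ ha hb =>
      have := add_mem ha hb
      simpa [mul_add, add_mul] using this
    | smul c a _ ha =>
      have := Submodule.smul_mem _ c ha
      simpa [smul_comm c] using this
  | zero => simp; exact Submodule.zero_mem _
  | add a b _ _ ha hb =>
    have := add_mem ha hb
    simpa [mul_add, add_mul] using this
  | smul c a _ ha =>
    have := Submodule.smul_mem _ c ha
    simpa using this

theorem exists_pair (hspan : Submodule.span k (Set.range σ) = ⊤) (x : Matrix n n k) :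
    ∃ y, (x, y) ∈ pairSpan σ χ := by
  have hx : x ∈ (pairSpan σ χ).map (LinearMap.fst k (Matrix n n k) (Matrix n n k)) := by
    rw [pairSpan, Submodule.map_span, ← Set.range_comp]
    show x ∈ Submodule.span k (Set.range σ)
    rw [hspan]; trivial
  obtain ⟨⟨a, y⟩, hy, rfl⟩ := hx
  exact ⟨y, hy⟩

/-- The symmetrised product identity. -/
theorem scalar_jordan (hspan : Submodule.span k (Set.range σ) = ⊤)
    (hχ : ∀ g g', χ (g * g') = χ g * χ g')
    (h : ∀ g, ∃ t : k, σ g + χ g • σ g⁻¹ = t • 1) :
    ∀ x : Matrix n n k, ∃ t : k, (∃ y, (x, y) ∈ pairSpan σ χ ∧ x + y = t • 1) ∧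
      ∀ (x' y' : Matrix n n k) (t' : k), (x', y') ∈ pairSpan σ χ → x' + y' = t' • 1 →
        ∃ r : k, x * x' + x' * x - t' • x - t • x' = r • 1 := by
  intro x
  obtain ⟨y, hy⟩ := exists_pair hspan x
  obtain ⟨t, ht⟩ := pairSpan_add_scalar h hy
  refine ⟨t, ⟨y, hy, ht⟩, fun x' y' t' hy' ht' => ?_⟩
  obtain ⟨r, hr⟩ := pairSpan_add_scalar h (pairSpan_mul hχ hy hy')
  refine ⟨r - t * t', ?_⟩
  rw [eq_sub_of_add_eq' ht, eq_sub_of_add_eq' ht'] at hr
  rw [sub_smul, ← hr]
  simp only [sub_mul, mul_sub, smul_mul_assoc, mul_smul_comm, one_mul, mul_one]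
  rw [smul_sub, smul_smul]
  abel

theorem eq_one_of_single {a b : n} (hab : a ≠ b) (h2 : (2 : k) ≠ 0) {t r : k}
    (hr : Matrix.single a a (1 : k) * Matrix.single a a 1
      + Matrix.single a a 1 * Matrix.single a a 1 - t • Matrix.single a a 1
      - t • Matrix.single a a 1 = r • (1 : Matrix n n k)) : t = 1 := by
  have hbb := congrFun (congrFun hr b) b
  have haa := congrFun (congrFun hr a) a
  simp [hab] at hbb haa
  rw [← hbb] at haa
  exact mul_left_cancel₀ h2 (by linear_combination -haa)

/-- Dimension at most two. -/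
theorem card_le_two (h2 : (2 : k) ≠ 0) (hspan : Submodule.span k (Set.range σ) = ⊤)
    (hχ : ∀ g g', χ (g * g') = χ g * χ g')
    (h : ∀ g, ∃ t : k, σ g + χ g • σ g⁻¹ = t • 1) : Fintype.card n ≤ 2 := by
  classical
  by_contra hcard
  push Not at hcard
  obtain ⟨a, b, c, hab, hac, hbc⟩ := Fintype.two_lt_card_iff.1 hcard
  obtain ⟨t, ⟨y, hy, ht⟩, hmul⟩ := scalar_jordan hspan hχ h (Matrix.single a a (1 : k))
  obtain ⟨r, hr⟩ := hmul _ _ _ hy ht
  obtain rfl := eq_one_of_single hab h2 hr
  obtain ⟨s, ⟨y', hy', hs⟩, hmul'⟩ := scalar_jordan hspan hχ h (Matrix.single b b (1 : k))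
  obtain ⟨r', hr'⟩ := hmul' _ _ _ hy' hs
  obtain rfl := eq_one_of_single hab.symm h2 hr'
  obtain ⟨r'', hr''⟩ := hmul _ _ _ hy' hs
  have haa := congrFun (congrFun hr'' a) a
  have hcc := congrFun (congrFun hr'' c) c
  simp [hab, hab.symm, hac, hbc] at haa hcc
  rw [← hcc] at haa
  exact one_ne_zero (neg_eq_zero.1 haa : (1 : k) = 0)

end Dim

section Two

variable {k : Type*} [Field k] {G : Type*} [Group G] {σ : G →* Matrix (Fin 2) (Fin 2) k} {χ : G → k}

/-- In dimension two the scalar is the trace and `χ` is the determinant. -/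
theorem trace_det_eq (h2 : (2 : k) ≠ 0) (hspan : Submodule.span k (Set.range σ) = ⊤)
    (hχ : ∀ g g', χ (g * g') = χ g * χ g')
    (h : ∀ g, ∃ t : k, σ g + χ g • σ g⁻¹ = t • 1) (g : G) :
    σ g + χ g • σ g⁻¹ = (σ g).trace • 1 ∧ (σ g).det = χ g := by
  classical
  -- the functional is additive and agrees with the trace on a basis
  have key : ∀ x : Matrix (Fin 2) (Fin 2) k, ∃ y, (x, y) ∈ pairSpan σ χ ∧ x + y = x.trace • 1 := by
    have basis : ∀ a b : Fin 2, ∃ y, (Matrix.single a b (1 : k), y) ∈ pairSpan σ χ ∧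
        Matrix.single a b 1 + y = (if a = b then (1 : k) else 0) • 1 := by
      intro a b
      obtain ⟨c, hca⟩ : ∃ c : Fin 2, a ≠ c := ⟨1 - a, by fin_cases a <;> simp⟩
      obtain ⟨s, ⟨ys, hys, hs⟩, hmul'⟩ := scalar_jordan hspan hχ h (Matrix.single a a (1 : k))
      obtain ⟨r', hr'⟩ := hmul' _ _ _ hys hs
      obtain rfl := eq_one_of_single hca h2 hr'
      by_cases hab : a = b
      · subst hab
        exact ⟨ys, hys, by rw [if_pos rfl]; exact hs⟩
      · obtain ⟨t, ⟨y, hy, ht⟩, hmul⟩ := scalar_jordan hspan hχ h (Matrix.single a b (1 : k))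
        obtain ⟨r, hr⟩ := hmul _ _ _ hys hs
        refine ⟨y, hy, ?_⟩
        have haa := congrFun (congrFun hr a) a
        have hbb := congrFun (congrFun hr b) b
        simp [hab, Ne.symm hab] at haa hbb
        rw [← hbb] at haa
        rw [if_neg hab, ht]
        congr 1
        linear_combination -haa
    choose Y hY hY' using basis
    intro x
    refine ⟨∑ a, ∑ b, x a b • Y a b, ?_, ?_⟩
    · have hmem : (∑ a, ∑ b, x a b • (Matrix.single a b (1 : k), Y a b)) ∈ pairSpan σ χ :=
        sum_mem fun a _ => sum_mem fun b _ => Submodule.smul_mem _ _ (hY a b)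
      convert hmem using 1
      ext1
      · simp only [Prod.fst_sum, Prod.smul_fst]
        conv_lhs => rw [Matrix.matrix_eq_sum_single x]
        simp only [Matrix.smul_single, smul_eq_mul, mul_one]
      · simp only [Prod.snd_sum, Prod.smul_snd]
    · conv_lhs => arg 1; rw [Matrix.matrix_eq_sum_single x]
      rw [← Finset.sum_add_distrib, Matrix.trace, Finset.sum_smul]
      refine Finset.sum_congr rfl fun a _ => ?_
      rw [← Finset.sum_add_distrib]
      have e : ∀ b, Matrix.single a b (x a b) = x a b • Matrix.single a b (1 : k) := fun b => by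
        rw [Matrix.smul_single, smul_eq_mul, mul_one]
      rw [Finset.sum_eq_single a]
      · rw [e, ← smul_add, hY', if_pos rfl, one_smul]
        rfl
      · intro b _ hb
        rw [e, ← smul_add, hY', if_neg (Ne.symm hb), zero_smul, smul_zero]
      · simp
  -- the scalar attached to a given first component is unique
  have uniq : ∀ y : Matrix (Fin 2) (Fin 2) k, ((0 : Matrix (Fin 2) (Fin 2) k), y) ∈ pairSpan σ χ →
      y = 0 := by
    intro y hy
    obtain ⟨t, ht⟩ := pairSpan_add_scalar h hy
    obtain ⟨y', hy', hy''⟩ := key (Matrix.single 0 1 1)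
    obtain ⟨r, hr⟩ := pairSpan_add_scalar h (pairSpan_mul hχ hy' hy)
    rw [zero_add] at ht
    subst ht
    rw [eq_sub_of_add_eq' hy''] at hr
    have h01 := congrFun (congrFun hr 0) 1
    simp [Matrix.trace] at h01
    rw [h01, zero_smul]
  obtain ⟨y, hy, hty⟩ := key (σ g)
  have hg : (σ g, χ g • σ g⁻¹) ∈ pairSpan σ χ := Submodule.subset_span ⟨g, rfl⟩
  have hy_eq : χ g • σ g⁻¹ = y := by
    have := uniq (χ g • σ g⁻¹ - y) (by simpa using sub_mem hg hy)
    exact sub_eq_zero.1 this
  rw [hy_eq]
  refine ⟨hty, ?_⟩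
  have hadj : σ g + (σ g).adjugate = (σ g).trace • 1 := by
    rw [Matrix.adjugate_fin_two]
    ext i j
    fin_cases i <;> fin_cases j <;> simp [Matrix.trace, Fin.sum_univ_two]
    ring
  have h4 : χ g • σ g⁻¹ = (σ g).adjugate := by
    rw [hy_eq]; exact add_left_cancel (hty.trans hadj.symm)
  have h5 : (σ g).det • (1 : Matrix (Fin 2) (Fin 2) k) = χ g • (1 : Matrix (Fin 2) (Fin 2) k) := by
    rw [← Matrix.mul_adjugate, ← h4, mul_smul_comm, ← map_mul, mul_inv_cancel, map_one]
  have := congrFun (congrFun h5 0) 0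
  simpa using this

end Two

end Fermat.Agent.DeligneSerre
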