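import Fermat.Agent.DeligneSerre.Assembly

/-!
# Reduction of the Deligne–Serre theorem to residual representations

`exists_galoisRep_of_deplete` (S48), given residual representations (`DeligneSerre/Residual`):

1. The depletion of the eigenform, of level `N ^ 2`, gets a representation
   (`exists_galoisRep` of `DeligneSerre/Assembly`, where the argument is described).
2. At a prime `p ∤ N` its coefficient and character are those of the eigenform.
-/

set_option autoImplicit false

noncomputable section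

namespace Fermat.Agent.DeligneSerre

open CongruenceSubgroup ModularFormClass
open Fermat.Agent.Arith

/-- The theorem for a weight one eigenform follows from residual representations for its
depletion. -/
theorem exists_galoisRep_of_deplete {N : ℕ} [NeZero N] {ε : DirichletCharacter ℂ N}
    {f : CuspForm (Gamma1 N) 1} (hT : IsHeckeRecursion ε (qCoeff f)) (hf : qCoeff f 1 = 1)
    (hres : HasResidualReps (DirichletCharacter.changeLevel (Dvd.intro N rfl) ε)
      (qCoeff (deplete f))) :
    ∃ ρ : GQ →* GL (Fin 2) ℂ, GaloisFactorsThroughFiniteLevel ρ ∧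
      (Deformation.matrixRepresentation ρ).IsIrreducible ∧
      ∀ p : ℕ, p.Prime → ¬ p ∣ N →
        ∀ A : ValuationSubring QBar, A.LiesOverPrime p →
          (∀ σ ∈ A.inertiaSubgroupIn ℚ, ρ σ = 1) ∧
          ∀ σ : GQ, A.IsFrobeniusAt σ p →
            ((ρ σ : GL (Fin 2) ℂ) : Matrix (Fin 2) (Fin 2) ℂ).trace = qCoeff f p ∧
            ((ρ σ : GL (Fin 2) ℂ) : Matrix (Fin 2) (Fin 2) ℂ).det = ε (p : ZMod N) := by
  obtain ⟨ρ, hρf, hρi, hρ⟩ := exists_galoisRep (isDepleted_deplete hT hf) hres
  refine ⟨ρ, hρf, hρi, fun p hp hpN A hA => ?_⟩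
  have hpN2 : ¬ p ∣ N * N := fun hd => (hp.dvd_mul.1 hd).elim hpN hpN
  obtain ⟨hI, hF⟩ := hρ p hp hpN2 A hA
  refine ⟨hI, fun σ hσ => ?_⟩
  obtain ⟨ht, hd⟩ := hF σ hσ
  refine ⟨ht.trans (qCoeff_deplete_prime f hp hpN), hd.trans ?_⟩
  obtain ⟨u, hu⟩ := (ZMod.isUnit_prime_iff_not_dvd hp).2 hpN2
  rw [← hu, DirichletCharacter.changeLevel_eq_cast_of_dvd ε (Dvd.intro N rfl), hu,
    ZMod.cast_natCast (Dvd.intro N rfl)]

end Fermat.Agent.DeligneSerre
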