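import Mathlib.RepresentationTheory.AlgebraRepresentation.Basic
import Mathlib.RingTheory.SimpleModule.Basic
import Mathlib.LinearAlgebra.Matrix.ToLin
import Fermat.Agent.DeligneSerre.Quadratic

/-!
# Two-dimensional representations from a quadratic relation

Over an algebraically closed field of characteristic `≠ 2`, a nonzero finite-dimensional
representation satisfying `R g + χ g • R g⁻¹ = t_g`, for a character `χ`, has an irreducible
constituent of dimension at most two, and gives a two-dimensional representation with trace `t_g`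
and determinant `χ g`.
-/

set_option autoImplicit false

noncomputable section

namespace Fermat.Agent.DeligneSerre

variable {G : Type*} [Group G] {k : Type*} [Field k] [IsAlgClosed k]

/-- Burnside's theorem. -/
theorem span_range_eq_top_of_irreducible {W : Type*} [AddCommGroup W] [Module k W]
    [FiniteDimensional k W] [Nontrivial W] (ρ : G →* Module.End k W)
    (hirr : ∀ U : Submodule k W, (∀ g, ∀ w ∈ U, ρ g w ∈ U) → U = ⊥ ∨ U = ⊤) :
    Submodule.span k (Set.range ρ) = ⊤ := by
  set A := Algebra.adjoin k (Set.range ρ) with hA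
  have hspan : A.toSubmodule = Submodule.span k (Set.range ρ) := by
    rw [hA, Algebra.adjoin_eq_span, ← MonoidHom.coe_mrange, Submonoid.closure_eq]
  have : IsSimpleModule A W := by
    rw [isSimpleModule_iff]
    refine { exists_pair_ne := ⟨⊥, ⊤, bot_ne_top⟩, eq_bot_or_eq_top := fun U => ?_ }
    rcases hirr (U.restrictScalars k)
      (fun g w hw => U.smul_mem ⟨ρ g, Algebra.subset_adjoin ⟨g, rfl⟩⟩ hw) with h | h
    · exact Or.inl (by rwa [Submodule.restrictScalars_eq_bot_iff] at h)
    · exact Or.inr (by rwa [Submodule.restrictScalars_eq_top_iff] at h)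
  have : Module.Finite (Module.End A W) W :=
    Module.Finite.of_restrictScalars_finite k (Module.End A W) W
  rw [eq_top_iff]
  intro f _
  let f' : Module.End (Module.End A W) W :=
    { toFun := f
      map_add' := map_add f
      map_smul' := fun e w => by
        obtain ⟨c, rfl⟩ :=
          (IsSimpleModule.algebraMap_end_bijective_of_isAlgClosed (A := A) (V := W) k).2 e
        simp }
  obtain ⟨r, hr⟩ := Module.Finite.toModuleEnd_moduleEnd_surjective f'
  rw [← hspan]
  have hfr : f = (r : Module.End k W) :=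
    LinearMap.ext fun w => (LinearMap.congr_fun hr w).symm
  rw [hfr]
  exact r.2

/-- The representation on an invariant subspace. -/
def restrictRep {V : Type*} [AddCommGroup V] [Module k V] (R : G →* Module.End k V)
    (U : Submodule k V) (h : ∀ g, ∀ w ∈ U, R g w ∈ U) : G →* Module.End k U where
  toFun g := (R g).restrict (h g)
  map_one' := LinearMap.ext fun w => Subtype.ext (by simp)
  map_mul' g g' := LinearMap.ext fun w => Subtype.ext (by simp)

omit [IsAlgClosed k] in
/-- From a character `σ`, the diagonal representation with the character `g ↦ χ g * σ g⁻¹`. -/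
private theorem exists_diag_rep {d : ℕ} {V : Type*} [AddCommGroup V] [Module k V]
    {R : G →* Module.End k V} (σ : G →* Matrix (Fin d) (Fin d) k) (χ : G →* k) (hd1 : d = 1)
    (hkill : ∀ g, R g = 1 → σ g = 1)
    (hrel : ∀ g (t : k), R g + χ g • R g⁻¹ = t • 1 → σ g + χ g • σ g⁻¹ = t • 1) :
    ∃ ρ : G →* Matrix (Fin 2) (Fin 2) k,
      (Submodule.span k (Set.range ρ) = ⊤ ∨ ∀ g, ρ g 0 1 = 0 ∧ ρ g 1 0 = 0) ∧
      (∀ g, R g = 1 → χ g = 1 → ρ g = 1) ∧
      ∀ g (t : k), R g + χ g • R g⁻¹ = t • 1 → (ρ g).trace = t ∧ (ρ g).det = χ g := by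
  let i₀ : Fin d := ⟨0, hd1 ▸ one_pos⟩
  have : Subsingleton (Fin d) := by rw [hd1]; infer_instance
  have huniv : (Finset.univ : Finset (Fin d)) = {i₀} :=
    Finset.eq_singleton_iff_unique_mem.mpr
      ⟨Finset.mem_univ _, fun x _ => Subsingleton.elim _ _⟩
  have hmul : ∀ g g', σ (g * g') i₀ i₀ = σ g i₀ i₀ * σ g' i₀ i₀ := fun g g' => by
    rw [map_mul, Matrix.mul_apply, huniv, Finset.sum_singleton]
  have hone : σ 1 i₀ i₀ = 1 := by rw [map_one, Matrix.one_apply_eq]
  let ρ : G →* Matrix (Fin 2) (Fin 2) k :=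
    { toFun := fun g => Matrix.diagonal ![σ g i₀ i₀, χ g * σ g⁻¹ i₀ i₀]
      map_one' := by
        rw [hone, inv_one, hone, map_one, mul_one, ← Matrix.diagonal_one]
        congr 1
        funext i
        fin_cases i <;> rfl
      map_mul' := fun g g' => by
        rw [Matrix.diagonal_mul_diagonal, hmul, map_mul, mul_inv_rev, hmul]
        congr 1
        funext i
        fin_cases i <;> simp
        ring }
  refine ⟨ρ, Or.inr fun g => ⟨by simp [ρ], by simp [ρ]⟩, fun g hg hχ => ?_, fun g t ht => ?_⟩
  · show Matrix.diagonal ![σ g i₀ i₀, χ g * σ g⁻¹ i₀ i₀] = 1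
    have hg' : R g⁻¹ = 1 := by
      have h := map_mul R g⁻¹ g
      rwa [inv_mul_cancel, map_one, hg, mul_one, eq_comm] at h
    rw [hkill g hg, hkill _ hg', hχ, Matrix.one_apply_eq, mul_one, ← Matrix.diagonal_one]
    congr 1
    funext i
    fin_cases i <;> rfl
  · have h1 := congrFun (congrFun (hrel g t ht) i₀) i₀
    rw [Matrix.add_apply, Matrix.smul_apply, Matrix.smul_apply, Matrix.one_apply_eq,
      smul_eq_mul, smul_eq_mul, mul_one] at h1
    constructor
    · simp [ρ, h1]
    · have h3 : σ g i₀ i₀ * σ g⁻¹ i₀ i₀ = 1 := by rw [← hmul, mul_inv_cancel, hone]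
      simp [ρ]
      linear_combination χ g * h3

/-- The two-dimensional representation. -/
theorem exists_two_dim_rep (h2 : (2 : k) ≠ 0) {V : Type*} [AddCommGroup V] [Module k V]
    [FiniteDimensional k V] [Nontrivial V] (R : G →* Module.End k V) (χ : G →* k)
    (hR : ∀ g, ∃ t : k, R g + χ g • R g⁻¹ = t • 1) :
    ∃ ρ : G →* Matrix (Fin 2) (Fin 2) k,
      (Submodule.span k (Set.range ρ) = ⊤ ∨ ∀ g, ρ g 0 1 = 0 ∧ ρ g 1 0 = 0) ∧
      (∀ g, R g = 1 → χ g = 1 → ρ g = 1) ∧
      ∀ g (t : k), R g + χ g • R g⁻¹ = t • 1 → (ρ g).trace = t ∧ (ρ g).det = χ g := by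
  classical
  -- A minimal invariant `W ≠ ⊥` is irreducible, so the matrices `σ g` of `R` on `W` span all
  -- `d × d` matrices; the relation then forces `d ≤ 2`.
  obtain ⟨W, hW⟩ := exists_minimal_of_wellFoundedLT
    (fun U : Submodule k V => U ≠ ⊥ ∧ ∀ g, ∀ w ∈ U, R g w ∈ U)
    ⟨⊤, top_ne_bot, fun _ _ _ => Submodule.mem_top⟩
  obtain ⟨⟨hW0, hWinv⟩, hmin⟩ := hW
  have : Nontrivial W := Submodule.nontrivial_iff_ne_bot.mpr hW0
  set r := restrictRep R W hWinv with hr
  have hirr : ∀ U : Submodule k W, (∀ g, ∀ w ∈ U, r g w ∈ U) → U = ⊥ ∨ U = ⊤ := by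
    intro U hU
    by_cases h0 : U = ⊥
    · exact Or.inl h0
    refine Or.inr (eq_top_iff.mpr fun w _ => ?_)
    have hne : U.map W.subtype ≠ ⊥ := fun h => h0
      (Submodule.map_injective_of_injective W.injective_subtype
        (h.trans (Submodule.map_bot _).symm))
    have hinv : ∀ g, ∀ x ∈ U.map W.subtype, R g x ∈ U.map W.subtype := by
      rintro g _ ⟨w, hw, rfl⟩
      exact ⟨r g w, hU g w hw, rfl⟩
    obtain ⟨w', hw', he⟩ := hmin ⟨hne, hinv⟩ (Submodule.map_subtype_le W U) w.2
    rwa [show w' = w from Subtype.ext he] at hw'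
  have hspan := span_range_eq_top_of_irreducible r hirr
  set d := Module.finrank k W with hd
  let b : Module.Basis (Fin d) k W := Module.finBasis k W
  let σ : G →* Matrix (Fin d) (Fin d) k :=
    (LinearMap.toMatrixAlgEquiv b).toAlgHom.toRingHom.toMonoidHom.comp r
  have hσspan : Submodule.span k (Set.range σ) = ⊤ := by
    have h1 : Set.range σ = (LinearMap.toMatrixAlgEquiv b).toLinearMap '' Set.range r := by
      rw [← Set.range_comp]; rfl
    rw [h1, Submodule.span_image, hspan, Submodule.map_top]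
    exact LinearMap.range_eq_top.mpr (LinearMap.toMatrixAlgEquiv b).surjective
  have hrel : ∀ g (t : k), R g + χ g • R g⁻¹ = t • 1 → σ g + χ g • σ g⁻¹ = t • 1 := by
    intro g t ht
    have h1 : r g + χ g • r g⁻¹ = t • 1 := LinearMap.ext fun w => Subtype.ext (by
      simpa using! LinearMap.congr_fun ht (w : V))
    have h2' := congrArg (LinearMap.toMatrixAlgEquiv b) h1
    rw [map_add, map_smul, map_smul, map_one] at h2'
    exact h2'
  have hscal : ∀ g, ∃ t : k, σ g + χ g • σ g⁻¹ = t • 1 := fun g =>
    (hR g).imp fun t ht => hrel g t ht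
  have hkill : ∀ g, R g = 1 → σ g = 1 := fun g hg => by
    have h1 : r g = 1 := LinearMap.ext fun w => Subtype.ext (by
      simp [hr, restrictRep, hg])
    show LinearMap.toMatrixAlgEquiv b (r g) = 1
    rw [h1, map_one]
  have hle : d ≤ 2 := by simpa using card_le_two h2 hσspan (map_mul χ) hscal
  have hpos : 0 < d := Module.finrank_pos
  obtain hd1 | hd2 : d = 1 ∨ d = 2 := by omega
  -- If `d = 1` take the diagonal of the character `σ` and of `g ↦ χ g * σ g⁻¹`; if `d = 2` take
  -- `σ` itself, whose trace and determinant the relation determines.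
  · exact exists_diag_rep σ χ hd1 hkill hrel
  · let b2 : Module.Basis (Fin 2) k W := b.reindex (finCongr hd2)
    let ρ : G →* Matrix (Fin 2) (Fin 2) k :=
      (Matrix.reindexAlgEquiv k k (finCongr hd2)).toAlgHom.toRingHom.toMonoidHom.comp σ
    have hρspan : Submodule.span k (Set.range ρ) = ⊤ := by
      have h1 : Set.range ρ =
          (Matrix.reindexAlgEquiv k k (finCongr hd2)).toLinearMap '' Set.range σ := by
        rw [← Set.range_comp]; rfl
      rw [h1, Submodule.span_image, hσspan, Submodule.map_top]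
      exact LinearMap.range_eq_top.mpr (Matrix.reindexAlgEquiv k k (finCongr hd2)).surjective
    have hρrel : ∀ g (t : k), R g + χ g • R g⁻¹ = t • 1 → ρ g + χ g • ρ g⁻¹ = t • 1 := by
      intro g t ht
      have h1 := congrArg (Matrix.reindexAlgEquiv k k (finCongr hd2)) (hrel g t ht)
      rw [map_add, map_smul, map_smul, map_one] at h1
      exact h1
    refine ⟨ρ, Or.inl hρspan, fun g hg _ => ?_, fun g t ht => ?_⟩
    · show Matrix.reindexAlgEquiv k k (finCongr hd2) (σ g) = 1
      rw [hkill g hg, map_one]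
    · obtain ⟨h1, h3⟩ := trace_det_eq h2 hρspan (map_mul χ)
        (fun g => (hR g).imp fun t ht => hρrel g t ht) g
      refine ⟨?_, h3⟩
      have h4 := congrFun (congrFun (h1.symm.trans (hρrel g t ht)) 0) 0
      simpa using h4

end Fermat.Agent.DeligneSerre
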