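import Fermat.Agent.Arith.CyclotomicCharacter
import Fermat.Agent.DeligneSerre.Curve.Galois
import Fermat.Agent.DeligneSerre.ResidualAux
import Fermat.Agent.DeligneSerre.Periods
import Fermat.Agent.DeligneSerre.Criterion
import Fermat.Agent.DeligneSerre.Conjugate
import Fermat.Prelude.Def_FLTPrelim_ModularRep

/-!
# Residual representations of a weight one eigenform

`hasResidualReps` (for S48): at every prime `ℓ > 5` (`exists_resRep`):

1. The product with an Eisenstein series congruent to one has weight two and level `N ℓ`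
   (`exists_invChar`, `exists_weightTwo`).
2. Its periods give an eigenclass modulo `ℓ`, on whose eigenspace the Galois group satisfies the
   Eichler–Shimura relation at Frobenius elements (`exists_periodClass`, `exists_eigenRep`).
3. By Chebotarev every element satisfies a relation `R τ + χ τ R τ⁻¹ = t`, which gives a two
   dimensional representation with these traces and determinants (`exists_two_dim_rep`).
-/

set_option autoImplicit false

noncomputable section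

open CongruenceSubgroup ModularFormClass
open UpperHalfPlane hiding I
open Fermat.Agent.Arith Fermat.Agent.Arith.Chebotarev
open Fermat.Agent.IntegralStructure (qFun qHom qHom_apply mem_qFun_of_modularFormClass)

namespace Fermat.Agent.DeligneSerre

/-! ### The auxiliary character -/

/-- An odd character modulo `ℓ` whose values reduce to `x ↦ x⁻¹`. -/
theorem exists_invChar {ℓ : ℕ} [Fact ℓ.Prime] {k : Type} [Field k] [CharP k ℓ]
    (φ : ZBar →+* k) (h2 : (2 : k) ≠ 0) :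
    ∃ ψ : DirichletCharacter ℂ ℓ, ψ.Odd ∧ ∀ (x : ZMod ℓ) (z : ZBar), (z : ℂ) = ψ x →
      φ z = (ZMod.castHom dvd_rfl k x)⁻¹ := by
  obtain ⟨g, hg⟩ := IsCyclic.exists_generator (α := (ZMod ℓ)ˣ)
  set ι : ZMod ℓ →+* k := ZMod.castHom dvd_rfl k
  set n := Fintype.card (ZMod ℓ)ˣ
  have hga : (ι ((g⁻¹ : (ZMod ℓ)ˣ) : ZMod ℓ)) ^ n = 1 := by
    rw [← map_pow, ← Units.val_pow_eq_pow_val, pow_card_eq_one, Units.val_one, map_one]
  obtain ⟨z, hz, hφz⟩ := exists_root_lift φ Fintype.card_ne_zero hga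
  have hzC : (z : ℂ) ^ n = 1 := by
    rw [← SubmonoidClass.coe_pow, hz]; rfl
  set ζ : ℂˣ := Units.ofPowEqOne _ _ hzC Fintype.card_ne_zero
  have hζ : ζ ∈ rootsOfUnity n ℂ :=
    (mem_rootsOfUnity _ _).2 (Units.ext (by
      rw [Units.val_pow_eq_pow_val]; exact hzC))
  set ψ : DirichletCharacter ℂ ℓ := MulChar.ofRootOfUnity hζ hg
  have hψg : ψ (g : ZMod ℓ) = (z : ℂ) := MulChar.ofRootOfUnity_spec hζ hg
  have key : ∀ (x : ZMod ℓ) (w : ZBar), (w : ℂ) = ψ x → φ w = (ι x)⁻¹ := by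
    intro x w hw
    rcases eq_or_ne x 0 with rfl | hx
    · rw [map_zero ι, inv_zero]
      have : w = 0 := Subtype.ext (hw.trans (MulChar.map_nonunit ψ not_isUnit_zero))
      rw [this, map_zero]
    · obtain ⟨j, hj⟩ := (mem_powers_iff_mem_zpowers).2 (hg (Units.mk0 x hx))
      have hxg : x = (g : ZMod ℓ) ^ j := by
        rw [← Units.val_pow_eq_pow_val, show g ^ j = Units.mk0 x hx from hj, Units.val_mk0]
      have hwz : w = z ^ j := Subtype.ext (by
        rw [hw, hxg, map_pow, hψg, SubmonoidClass.coe_pow])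
      rw [hwz, map_pow, hφz, hxg, map_pow, Units.val_inv_eq_inv_val, map_inv₀, inv_pow]
  refine ⟨ψ, ?_, key⟩
  have hsq : ψ (-1) ^ 2 = 1 := by rw [← map_pow, neg_one_sq, map_one]
  rcases sq_eq_one_iff.1 hsq with h | h
  · exfalso
    have h1 := key (-1) 1 (by rw [h]; rfl)
    rw [map_one, map_neg, map_one, inv_neg, inv_one] at h1
    exact h2 (by linear_combination h1)
  · exact h

/-! ### Levels -/

theorem HasNeb.changeLevel {N M : ℕ} [NeZero M] (h : N ∣ M) {k : ℤ}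
    {ε : DirichletCharacter ℂ N} {f : ℍ → ℂ} (hf : HasNeb k ε f) :
    HasNeb k (DirichletCharacter.changeLevel h ε) f := fun γ hγ => by
  obtain ⟨u, hu⟩ := isUnit_lowerRight hγ
  have hγ' : γ ∈ Gamma0 N := by
    rw [Gamma0_mem] at hγ ⊢
    rw [← map_intCast (ZMod.castHom h (ZMod N)), hγ, map_zero]
  rw [hf γ hγ', ← hu, DirichletCharacter.changeLevel_eq_cast_of_dvd ε h u, hu, ZMod.cast_intCast h]

theorem goodLevel_mul {N ℓ : ℕ} [NeZero N] (hℓ : ℓ.Prime) (h5 : 5 < ℓ) :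
    Curve.GoodLevel (N * ℓ) := by
  have := Fact.mk hℓ
  have : NeZero (N * ℓ) := ⟨mul_ne_zero (NeZero.ne N) hℓ.ne_zero⟩
  obtain ⟨g, hg⟩ := IsCyclic.exists_generator (α := (ZMod ℓ)ˣ)
  obtain ⟨c, hc⟩ := ZMod.unitsMap_surjective (dvd_mul_left ℓ N) g
  refine ⟨c, fun h4 => ?_⟩
  have h4' : g ^ 4 = 1 := by rw [← hc, ← map_pow, h4, map_one]
  have hord := orderOf_eq_card_of_forall_mem_zpowers hg
  rw [Nat.card_eq_fintype_card, ZMod.card_units] at hord
  have := Nat.le_of_dvd (by norm_num) (orderOf_dvd_of_pow_eq_one h4')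
  omega

/-! ### The weight two form -/

/-- The form of weight two congruent to `g`. -/
theorem exists_weightTwo {N ℓ : ℕ} [NeZero N] [Fact ℓ.Prime] {k : Type} [Field k] [CharP k ℓ]
    (φ : ZBar →+* k) {ε : DirichletCharacter ℂ N} {g : CuspForm (Gamma1 N) 1}
    (hneb : HasNeb 1 ε ⇑g) (b : ℕ → ZBar) (hb : ∀ n, (b n : ℂ) = qCoeff g n)
    {ψ : DirichletCharacter ℂ ℓ} (hodd : ψ.Odd)
    (hψ : ∀ (x : ZMod ℓ) (z : ZBar), (z : ℂ) = ψ x → φ z = (ZMod.castHom dvd_rfl k x)⁻¹) :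
    ∃ (f : CuspForm (Gamma1 (N * ℓ)) 2) (a : ℕ → ZBar),
      HasNeb 2 (DirichletCharacter.changeLevel (dvd_mul_right N ℓ) ε *
        DirichletCharacter.changeLevel (dvd_mul_left ℓ N) ψ) ⇑f ∧
      (∀ n, (a n : ℂ) = qCoeff f n) ∧ ∀ n, φ (a n) = φ (b n) := by
  have hℓ : ℓ.Prime := Fact.out
  have : NeZero (N * ℓ) := ⟨mul_ne_zero (NeZero.ne N) hℓ.ne_zero⟩
  set δ := DirichletCharacter.changeLevel (dvd_mul_right N ℓ) ε *
    DirichletCharacter.changeLevel (dvd_mul_left ℓ N) ψ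
  have hE : HasNeb 1 ψ (eisOne ψ) := fun γ hγ => eisOne_slash_gamma0 hodd hγ
  have hprod : HasNeb 2 δ (⇑g * eisOne ψ) := by
    have h := (hneb.changeLevel (dvd_mul_right N ℓ)).mul (hE.changeLevel (dvd_mul_left ℓ N))
    exact h
  set F : ℍ → ℂ := ((2 * ℓ : ℕ) : ℂ) • (⇑g * eisOne ψ) with hFdef
  have hF : HasNeb 2 δ F := fun γ hγ => by
    rw [hFdef, ModularForm.SL_smul_slash, hprod γ hγ, smul_comm]
  let f : CuspForm (Gamma1 (N * ℓ)) 2 :=
    mkCuspForm (Gamma1 (N * ℓ)) 2 F (fun γ hγ => hF.slash_gamma1 hγ)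
      (((CuspFormClass.holo g).mul (mdifferentiable_eisOne hodd)).const_smul _)
      (fun γ => by
        rw [hFdef, ModularForm.SL_smul_slash, show (2 : ℤ) = 1 + 1 from rfl,
          ModularForm.mul_slash_SL2]
        exact ((CuspFormClass.zero_at_infty_slash g γ).mul_boundedAtFilter
          (isBoundedAtImInfty_slash_eisOne hodd γ)).smul _)
  -- the coefficients of the Eisenstein series
  let cZ : ZMod ℓ → ZBar := fun x => ⟨ψ x, isIntegral_character ψ x⟩
  let e : ℕ → ZBar := fun n => if n = 0 then -∑ t : ZMod ℓ, (t.val : ZBar) * cZ t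
    else ((2 * ℓ : ℕ) : ZBar) * ∑ d ∈ n.divisors, cZ (d : ZMod ℓ)
  have he : ∀ n, (e n : ℂ) = ((2 * ℓ : ℕ) : ℂ) * eisCoeff ψ n := by
    intro n
    rcases eq_or_ne n 0 with rfl | hn
    · rw [show ((2 * ℓ : ℕ) : ℂ) * eisCoeff ψ 0 = -∑ t : ZMod ℓ, (t.val : ℂ) * ψ t by
        rw [← eisCoeff_zero_mul]; push_cast; ring]
      show (integralClosure ℤ ℂ).val (e 0) = _
      simp only [e, if_true, map_neg, map_sum, map_mul, map_natCast]
      rfl
    · show (integralClosure ℤ ℂ).val (e n) = _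
      simp only [e, eisCoeff, if_neg hn, map_sum, map_mul, map_natCast]
      rfl
  have hφℓ : ((ℓ : ℕ) : k) = 0 := CharP.cast_eq_zero k ℓ
  have heφ : ∀ n, φ (e n) = if n = 0 then 1 else 0 := by
    intro n
    rcases eq_or_ne n 0 with rfl | hn
    · simp only [e, if_true, map_neg, map_sum, map_mul, map_natCast]
      have hterm : ∀ t : ZMod ℓ, (t.val : k) * φ (cZ t) = if t = 0 then 0 else 1 := by
        intro t
        rw [hψ t (cZ t) rfl, ZMod.castHom_apply, ← ZMod.natCast_val]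
        split_ifs with ht
        · simp [ht]
        · refine mul_inv_cancel₀ ?_
          rw [ne_eq, CharP.cast_eq_zero_iff k ℓ]
          intro hd
          have hv : t.val = 0 := Nat.eq_zero_of_dvd_of_lt hd t.val_lt
          exact ht ((ZMod.val_eq_zero t).1 hv)
      rw [Finset.sum_congr rfl fun t _ => hterm t, Finset.sum_ite, Finset.sum_const_zero, zero_add,
        Finset.sum_const, nsmul_one]
      have hc : (Finset.univ.filter fun t : ZMod ℓ => ¬t = 0).card = ℓ - 1 := by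
        rw [Finset.filter_ne', Finset.card_erase_of_mem (Finset.mem_univ _), Finset.card_univ,
          ZMod.card]
      rw [hc, Nat.cast_sub hℓ.one_lt.le, hφℓ]
      simp
    · simp only [e, if_neg hn, map_mul, map_natCast]
      rw [Nat.cast_mul, hφℓ, mul_zero, zero_mul]
  let a : ℕ → ZBar := fun n => ∑ ij ∈ Finset.HasAntidiagonal.antidiagonal n, b ij.1 * e ij.2
  refine ⟨f, a, hF, fun n => ?_, fun n => ?_⟩
  · let qg : qFun := ⟨⇑g, mem_qFun_of_modularFormClass (by simp) g⟩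
    let qe : qFun := ⟨eisOne ψ, eisOne_mem_qFun hodd⟩
    have h : qCoeff f n = (qHom (((2 * ℓ : ℕ) : ℂ) • (qg * qe))).coeff n := rfl
    rw [h, map_smul, map_mul, map_smul, PowerSeries.coeff_mul, smul_eq_mul, Finset.mul_sum]
    simp only [a, AddSubmonoidClass.coe_finsetSum, MulMemClass.coe_mul]
    refine Finset.sum_congr rfl fun ij _ => ?_
    rw [hb, he, qHom_apply, qHom_apply]
    show qCoeff g ij.1 * _ = _ * (qCoeff g ij.1 * _)
    rw [qExpansion_eisOne hodd]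
    ring
  · simp only [a, map_sum, map_mul, heφ]
    rw [Finset.sum_eq_single (n, 0)]
    · simp
    · rintro ⟨i, j⟩ hij hne
      rw [if_neg, mul_zero]
      intro hj
      simp only [Finset.HasAntidiagonal.mem_antidiagonal] at hij
      obtain rfl : j = 0 := hj
      exact hne (by rw [← hij, add_zero])
    · simp

/-! ### The matrices -/

section Matrices

open Fermat.Agent.Gamma0 (ellParHoms)

variable (M : ℕ) [NeZero M] [Curve.GoodLevel M] (ℓ : ℕ) [NeZero ℓ]

/-- Coordinates. -/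
def vecEquiv : Curve.homV M ℓ ≃+ (Fin (homRank M) → ZMod ℓ) :=
  { Equiv.ofBijective (fun (v : Curve.homV M ℓ) a => v.1 (Additive.ofMul (homPts M a)))
      (homPts_bijective M (ZMod ℓ)) with
    map_add' := fun _ _ => rfl }

omit [Curve.GoodLevel M] [NeZero ℓ] in
theorem vecEquiv_apply (v : Curve.homV M ℓ) (a : Fin (homRank M)) :
    vecEquiv M ℓ v a = v.1 (Additive.ofMul (homPts M a)) := rfl

/-- The Galois action as a linear map on coordinates. -/
def galLin (σ : GQ) : Module.End (ZMod ℓ) (Fin (homRank M) → ZMod ℓ) :=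
  ((vecEquiv M ℓ).toAddMonoidHom.comp
    ((Curve.galV M ℓ σ).comp (vecEquiv M ℓ).symm.toAddMonoidHom)).toZModLinearMap ℓ

theorem galLin_vec (σ : GQ) (v : Curve.homV M ℓ) :
    galLin M ℓ σ (vecEquiv M ℓ v) = vecEquiv M ℓ (Curve.galV M ℓ σ v) := by
  show vecEquiv M ℓ (Curve.galV M ℓ σ ((vecEquiv M ℓ).symm (vecEquiv M ℓ v))) = _
  rw [AddEquiv.symm_apply_apply]

/-- The Galois action as matrices. -/
def galMat : GQ →* Matrix (Fin (homRank M)) (Fin (homRank M)) (ZMod ℓ) where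
  toFun σ := LinearMap.toMatrixAlgEquiv' (galLin M ℓ σ)
  map_one' := by
    rw [show galLin M ℓ 1 = 1 from LinearMap.ext fun x => by
      obtain ⟨v, rfl⟩ := (vecEquiv M ℓ).surjective x
      rw [galLin_vec, map_one]; rfl, map_one]
  map_mul' σ τ := by
    rw [show galLin M ℓ (σ * τ) = galLin M ℓ σ * galLin M ℓ τ from LinearMap.ext fun x => by
      obtain ⟨v, rfl⟩ := (vecEquiv M ℓ).surjective x
      rw [galLin_vec, map_mul, Module.End.mul_apply, galLin_vec, galLin_vec]; rfl, map_mul]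

theorem galMat_mulVec (σ : GQ) (v : Curve.homV M ℓ) :
    (galMat M ℓ σ).mulVec (vecEquiv M ℓ v) = vecEquiv M ℓ (Curve.galV M ℓ σ v) := by
  rw [← galLin_vec]
  show (LinearMap.toMatrix' (galLin M ℓ σ)).mulVec _ = _
  rw [LinearMap.toMatrix'_mulVec]

theorem galMat_eq_one {σ : GQ} (h : Curve.galV M ℓ σ = 1) : galMat M ℓ σ = 1 :=
  Matrix.ext_iff_mulVec.2 fun x => by
    obtain ⟨v, rfl⟩ := (vecEquiv M ℓ).surjective x
    rw [galMat_mulVec, h, Matrix.one_mulVec]; rfl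

/-- Operators as matrices. -/
def opMatMod (i : GoodOp M) : Matrix (Fin (homRank M)) (Fin (homRank M)) (ZMod ℓ) :=
  (opMat i).map (Int.castRingHom (ZMod ℓ))

omit [Curve.GoodLevel M] [NeZero ℓ] in
theorem opMatMod_mulVec (i : GoodOp M) (v : Curve.homV M ℓ) :
    (opMatMod M ℓ i).mulVec (vecEquiv M ℓ v) =
      vecEquiv M ℓ ⟨goodOp ℕ i v.1, goodOp_mem i v.2⟩ := by
  funext b
  rw [vecEquiv_apply, goodOp_apply_homPts i v.2]
  show ∑ a, ((opMat i b a : ℤ) : ZMod ℓ) * v.1 (Additive.ofMul (homPts M a)) = _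
  refine Finset.sum_congr rfl fun a _ => ?_
  rw [zsmul_eq_mul]

theorem galMat_comm (σ : GQ) (i : GoodOp M) :
    galMat M ℓ σ * opMatMod M ℓ i = opMatMod M ℓ i * galMat M ℓ σ :=
  Matrix.ext_iff_mulVec.2 fun x => by
    obtain ⟨v, rfl⟩ := (vecEquiv M ℓ).surjective x
    rw [← Matrix.mulVec_mulVec, ← Matrix.mulVec_mulVec, opMatMod_mulVec, galMat_mulVec,
      galMat_mulVec, opMatMod_mulVec]
    refine congrArg _ (Subtype.ext ?_)
    rcases i with p | u
    · have := Fact.mk p.2.1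
      exact Curve.galV_hecke p.2.2 σ rfl
    · exact Curve.galV_diamond u σ rfl

theorem galMat_frobenius (hℓ : ℓ.Prime) {p : ℕ} [hp : Fact p.Prime] (hpM : ¬ p ∣ M) (hpℓ : p ≠ ℓ)
    {A : ValuationSubring QBar} (hA : A.LiesOverPrime p) {σ : GQ} (hσ : A.IsFrobeniusAt σ p) :
    galMat M ℓ σ * galMat M ℓ σ + (p : ZMod ℓ) • opMatMod M ℓ (.inr (Curve.unitP hpM)) =
      opMatMod M ℓ (.inl ⟨p, hp.out, hpM⟩) * galMat M ℓ σ :=
  Matrix.ext_iff_mulVec.2 fun x => by
    obtain ⟨v, rfl⟩ := (vecEquiv M ℓ).surjective x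
    rw [Matrix.add_mulVec, Matrix.smul_mulVec, ← Matrix.mulVec_mulVec, ← Matrix.mulVec_mulVec,
      galMat_mulVec, galMat_mulVec, opMatMod_mulVec, opMatMod_mulVec, Nat.cast_smul_eq_nsmul,
      ← map_nsmul, ← map_add]
    exact congrArg _ (Subtype.ext (Curve.galV_frobenius hℓ hpM hpℓ hA hσ v))

end Matrices

/-! ### The representation -/

/-- The nebentypus of weight two is congruent to `ε / p` at `p`. -/
private theorem delta_congr {N ℓ : ℕ} [Fact ℓ.Prime] {k : Type} [Field k] [CharP k ℓ]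
    (φ : ZBar →+* k) (ε : DirichletCharacter ℂ N) {ψ : DirichletCharacter ℂ ℓ}
    (hψ : ∀ (x : ZMod ℓ) (z : ZBar), (z : ℂ) = ψ x → φ z = (ZMod.castHom dvd_rfl k x)⁻¹)
    {p : ℕ} (hp : p.Prime) (hpM : ¬ p ∣ N * ℓ) {y z : ZBar}
    (hy : (y : ℂ) = (DirichletCharacter.changeLevel (dvd_mul_right N ℓ) ε *
      DirichletCharacter.changeLevel (dvd_mul_left ℓ N) ψ) (p : ZMod (N * ℓ)))
    (hz : (z : ℂ) = ε (p : ZMod N)) :
    (p : k) * φ y = φ z := by
  have hℓ : ℓ.Prime := Fact.out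
  obtain ⟨u, hu⟩ := (ZMod.isUnit_prime_iff_not_dvd hp).2 hpM
  let w : ZBar := ⟨ψ (p : ZMod ℓ), isIntegral_character ψ _⟩
  have hyw : y = z * w := Subtype.ext (by
    rw [Subalgebra.coe_mul, hy, hz, ← hu, MulChar.mul_apply,
      DirichletCharacter.changeLevel_eq_cast_of_dvd, DirichletCharacter.changeLevel_eq_cast_of_dvd,
      hu, ZMod.cast_natCast (dvd_mul_right N ℓ), ZMod.cast_natCast (dvd_mul_left ℓ N)])
  have hpℓ : (p : k) ≠ 0 := fun h => hpM (dvd_mul_of_dvd_right ((Nat.prime_dvd_prime_iff_eq hp hℓ).2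
    ((Nat.prime_dvd_prime_iff_eq hℓ hp).1 ((CharP.cast_eq_zero_iff k ℓ p).1 h)).symm) N)
  rw [hyw, map_mul, hψ _ w rfl, map_natCast (ZMod.castHom dvd_rfl k), mul_left_comm,
    mul_inv_cancel₀ hpℓ, mul_one]

/-- A relation of degree two at `σ` as a linear combination of `R σ` and `R σ⁻¹`. -/
private theorem add_smul_inv_eq {G k E : Type*} [Group G] [CommRing k] [AddCommGroup E]
    [Module k E] (R : G →* Module.End k E) (σ : G) {c d : k}
    (h : ∀ x, R σ (R σ x) + c • x = d • R σ x) : R σ + c • R σ⁻¹ = d • 1 := by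
  refine LinearMap.ext fun x => ?_
  have h := h (R σ⁻¹ x)
  rw [← Module.End.mul_apply (R σ) (R σ⁻¹), ← map_mul, mul_inv_cancel, map_one,
    Module.End.one_apply] at h
  rw [LinearMap.add_apply, LinearMap.smul_apply, LinearMap.smul_apply, Module.End.one_apply]
  exact h

/-- The relation at Frobenius elements outside `S` propagates to every Galois element. -/
private theorem exists_scalar_of_frobenius {k E : Type} [Field k] [AddCommGroup E] [Module k E]
    (R : GQ →* Module.End k E) (χ : GQ →* k) (L : IntermediateField ℚ QBar)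
    [FiniteDimensional ℚ L] (hL : ∀ σ : GQ, (∀ x ∈ L, σ x = x) → R.prod χ σ = 1) (S : Finset ℕ)
    (hF : ∀ p : ℕ, p.Prime → p ∉ S → ∀ A : ValuationSubring QBar, A.LiesOverPrime p →
      ∀ σ : GQ, A.IsFrobeniusAt σ p → ∃ t : k, R σ + χ σ • R σ⁻¹ = t • 1) (τ : GQ) :
    ∃ t : k, R τ + χ τ • R τ⁻¹ = t • 1 := by
  obtain ⟨p, hp, hpS, A, hA, σ, hσ, he⟩ := exists_frobenius_eq (R.prod χ) L hL τ S
  rw [MonoidHom.prod_apply, MonoidHom.prod_apply, Prod.mk.injEq] at he
  have hinv : R τ⁻¹ = R σ⁻¹ := by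
    calc R τ⁻¹ = R τ⁻¹ * (R σ * R σ⁻¹) := by rw [← map_mul, mul_inv_cancel, map_one, mul_one]
      _ = R τ⁻¹ * (R τ * R σ⁻¹) := by rw [he.1]
      _ = R σ⁻¹ := by rw [← mul_assoc, ← map_mul, inv_mul_cancel, map_one, one_mul]
  rw [← he.1, ← he.2, hinv]
  exact hF p hp hpS A hA σ hσ

/-- The Galois module of an eigenclass: it is trivial where the Galois action on the classes
modulo `ℓ` is, and satisfies the Eichler–Shimura relation at good Frobenius elements. -/
private theorem exists_eigenRep {M ℓ : ℕ} [NeZero M] [Curve.GoodLevel M] [Fact ℓ.Prime]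
    {k : Type} [Field k] [CharP k ℓ] {v : Additive (pmGroup M) →+ k} (hv0 : v ≠ 0)
    (hvmem : v ∈ Gamma0.ellParHoms (pmGroup M) k) (c : GoodOp M → k)
    (hvc : ∀ i, goodOp k i v = c i • v) :
    ∃ (E : Submodule k (Fin (homRank M) → k)) (R : GQ →* Module.End k E), Nontrivial E ∧
      (∀ σ, Curve.galV M ℓ σ = 1 → R σ = 1) ∧
      ∀ (p : ℕ) [hp : Fact p.Prime] (hpM : ¬ p ∣ M), p ≠ ℓ → ∀ A : ValuationSubring QBar,
        A.LiesOverPrime p → ∀ σ : GQ, A.IsFrobeniusAt σ p → ∀ x : E,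
          R σ (R σ x) + ((p : k) * c (.inr (Curve.unitP hpM))) • x =
            c (.inl ⟨p, hp.out, hpM⟩) • R σ x := by
  have : NeZero ℓ := ⟨(Fact.out : ℓ.Prime).ne_zero⟩
  let ι : ZMod ℓ →+* k := ZMod.castHom dvd_rfl k
  let r := homRank M
  let G : GQ →* Module.End k (Fin r → k) :=
    (Matrix.toLinAlgEquiv' : Matrix (Fin r) (Fin r) k ≃ₐ[k] _).toAlgHom.toRingHom.toMonoidHom.comp
      (ι.mapMatrix.toMonoidHom.comp (galMat M ℓ))
  let T : GoodOp M → Module.End k (Fin r → k) := fun i =>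
    Matrix.toLinAlgEquiv' (ι.mapMatrix (opMatMod M ℓ i))
  -- `E` is the common eigenspace, containing the values of `v`. Galois commutes with the operators,
  -- and on `E` the relation at Frobenius has scalar coefficients.
  let E : Submodule k (Fin r → k) := ⨅ i, LinearMap.ker (T i - c i • 1)
  have hE : ∀ x, x ∈ E ↔ ∀ i, T i x = c i • x := fun x => by
    simp [E, Submodule.mem_iInf, sub_eq_zero]
  have hGinv : ∀ σ, ∀ x ∈ E, G σ x ∈ E := by
    intro σ x hx
    rw [hE] at hx ⊢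
    intro i
    have hcomm : T i * G σ = G σ * T i := by
      show Matrix.toLinAlgEquiv' (ι.mapMatrix (opMatMod M ℓ i)) *
          Matrix.toLinAlgEquiv' (ι.mapMatrix (galMat M ℓ σ)) =
        Matrix.toLinAlgEquiv' (ι.mapMatrix (galMat M ℓ σ)) *
          Matrix.toLinAlgEquiv' (ι.mapMatrix (opMatMod M ℓ i))
      rw [← map_mul, ← map_mul, ← map_mul, ← map_mul, galMat_comm]
    have h := LinearMap.congr_fun hcomm x
    rw [Module.End.mul_apply, Module.End.mul_apply, hx i, map_smul] at h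
    exact h
  have hvE : (fun a => v (Additive.ofMul (homPts M a))) ∈ E := by
    rw [hE]
    intro i
    funext b
    have e := congrArg (fun w : Additive (pmGroup M) →+ k =>
      w (Additive.ofMul (homPts M b))) (hvc i)
    refine Eq.trans ?_ e
    rw [goodOp_apply_homPts i hvmem]
    show ∑ a, ι ((opMat i b a : ℤ) : ZMod ℓ) * _ = _
    exact Finset.sum_congr rfl fun a _ => by rw [map_intCast, zsmul_eq_mul]
  refine ⟨E, restrictRep G E hGinv, Submodule.nontrivial_iff_ne_bot.2 fun h => hv0 ?_,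
    fun σ h => LinearMap.ext fun x => Subtype.ext ?_, ?_⟩
  · rw [h, Submodule.mem_bot] at hvE
    exact eq_of_homPts hvmem (zero_mem _) fun b => congrFun hvE b
  · show Matrix.toLinAlgEquiv' (ι.mapMatrix (galMat M ℓ σ)) _ = _
    rw [galMat_eq_one _ _ h, map_one, map_one]
    rfl
  intro p _ hpM hpℓ A hA σ hσ x
  have hmat : G σ * G σ + (p : k) • T (.inr (Curve.unitP hpM)) =
      T (.inl ⟨p, Fact.out, hpM⟩) * G σ := by
    have hsm : ∀ X : Matrix (Fin r) (Fin r) (ZMod ℓ),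
        ι.mapMatrix ((p : ZMod ℓ) • X) = (p : k) • ι.mapMatrix X := fun X => by
      ext i j
      simp [RingHom.mapMatrix_apply]
    have h1 := congrArg (Matrix.toLinAlgEquiv' : Matrix (Fin r) (Fin r) k ≃ₐ[k] _)
      (congrArg ι.mapMatrix (galMat_frobenius M ℓ Fact.out hpM hpℓ hA hσ))
    rw [map_add ι.mapMatrix, map_mul ι.mapMatrix, map_mul ι.mapMatrix, hsm, map_add, map_mul,
      map_mul, map_smul] at h1
    exact h1
  refine Subtype.ext ?_
  have h := LinearMap.congr_fun hmat (x : Fin r → k)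
  rw [LinearMap.add_apply, LinearMap.smul_apply, Module.End.mul_apply, Module.End.mul_apply,
    (hE _).1 x.2, (hE _).1 (hGinv σ _ x.2), smul_smul] at h
  exact h

/-- The algebraic integers map to an algebraically closed field of characteristic `ℓ`. -/
private theorem exists_residueMap {ℓ : ℕ} (hℓ : ℓ.Prime) :
    ∃ (k : Type) (_ : Field k) (_ : IsAlgClosed k) (_ : CharP k ℓ) (φ : ZBar →+* k),
      φ (ℓ : ZBar) = 0 := by
  obtain ⟨m, hm, hℓm⟩ := FLTPrelim.exists_maximalIdeal_natCast_prime_mem hℓ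
  let _ : Field (ZBar ⧸ m) := Ideal.Quotient.field m
  let φ : ZBar →+* AlgebraicClosure (ZBar ⧸ m) :=
    (algebraMap (ZBar ⧸ m) _).comp (Ideal.Quotient.mk m)
  have hφℓ : φ (ℓ : ZBar) = 0 := by
    show algebraMap (ZBar ⧸ m) _ (Ideal.Quotient.mk m (ℓ : ZBar)) = 0
    rw [Ideal.Quotient.eq_zero_iff_mem.2 hℓm, map_zero]
  exact ⟨_, inferInstance, inferInstance,
    (CharP.charP_iff_prime_eq_zero hℓ).2 (by rw [← map_natCast φ]; exact hφℓ), φ, hφℓ⟩

/-- `2` is nonzero in a field of characteristic `ℓ > 5`. -/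
private theorem two_ne_zero_of_charP {k : Type} [Field k] {ℓ : ℕ} [CharP k ℓ] (h5 : 5 < ℓ) :
    (2 : k) ≠ 0 := fun h => by
  have h' : ((2 : ℕ) : k) = 0 := by exact_mod_cast h
  rw [CharP.cast_eq_zero_iff k ℓ] at h'
  have := Nat.le_of_dvd (by norm_num) h'
  omega

/-- The Hecke recursion of the integral coefficients, mapped by `φ`. -/
private theorem eigen_recursion_mod {N : ℕ} [NeZero N] {ε : DirichletCharacter ℂ N}
    {g : CuspForm (Gamma1 N) 1} (hg : IsDepleted ε (qCoeff g)) {k : Type} [Field k]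
    (φ : ZBar →+* k) (bZ : ℕ → ZBar) (hb : ∀ n, (bZ n : ℂ) = qCoeff g n) (εZ : ZMod N →* ZBar)
    (hε : ∀ x, (εZ x : ℂ) = ε x) {p : ℕ} (hp : p.Prime) (hpN : ¬ p ∣ N) (n : ℕ) :
    φ (bZ (p * n)) + φ (εZ (p : ZMod N)) * (if p ∣ n then φ (bZ (n / p)) else 0) =
      φ (bZ p) * φ (bZ n) := by
  have hZ : bZ (p * n) + εZ (p : ZMod N) * (if p ∣ n then bZ (n / p) else 0) = bZ p * bZ n := by
    refine Subtype.ext (Eq.trans ?_ ((hg.hecke p hp hpN n).trans (by simp [hb])))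
    split_ifs <;> simp [hb, hε]
  have := congrArg φ hZ
  rwa [map_add, map_mul, map_mul, apply_ite φ, map_zero] at this

/-- A residual representation at `ℓ`. -/
theorem exists_resRep {N : ℕ} [NeZero N] {ε : DirichletCharacter ℂ N}
    {g : CuspForm (Gamma1 N) 1} (hg : IsDepleted ε (qCoeff g)) {ℓ : ℕ} (hℓ : ℓ.Prime)
    (h5 : 5 < ℓ) : Nonempty (ResRep ε (qCoeff g) ℓ) := by
  have := Fact.mk hℓ
  have : NeZero ℓ := ⟨hℓ.ne_zero⟩
  have : NeZero (N * ℓ) := ⟨mul_ne_zero (NeZero.ne N) hℓ.ne_zero⟩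
  have := goodLevel_mul (N := N) hℓ h5
  obtain ⟨k, _, _, _, φ, hφℓ⟩ := exists_residueMap hℓ
  have h2 : (2 : k) ≠ 0 := two_ne_zero_of_charP (ℓ := ℓ) h5
  -- the eigenclass
  obtain ⟨ψ, hodd, hψ⟩ := exists_invChar φ h2
  let bZ : ℕ → ZBar := fun n => ⟨qCoeff g n, isIntegral_coeff hg n⟩
  obtain ⟨f, a, hfneb, ha, haφ⟩ := exists_weightTwo φ hg.hecke.nebentypus bZ (fun _ => rfl) hodd hψ
  set δ := DirichletCharacter.changeLevel (dvd_mul_right N ℓ) ε *
    DirichletCharacter.changeLevel (dvd_mul_left ℓ N) ψ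
  let εZ : ZMod N →* ZBar :=
    { toFun := fun x => ⟨ε x, isIntegral_character ε x⟩
      map_one' := Subtype.ext (map_one ε)
      map_mul' := fun x y => Subtype.ext (map_mul ε x y) }
  have hδp : ∀ p : ℕ, p.Prime → ¬ p ∣ N * ℓ → ∀ y : ZBar, (y : ℂ) = δ (p : ZMod (N * ℓ)) →
      (p : k) * φ y = φ (εZ (p : ZMod N)) :=
    fun p hp hpM y hy => delta_congr φ ε hψ hp hpM hy rfl
  have ha1 : φ (a 1) = 1 := by
    rw [haφ, show bZ 1 = 1 from Subtype.ext hg.one, map_one]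
  have hrec : ∀ p : ℕ, p.Prime → ¬ p ∣ N * ℓ → ∀ (n : ℕ) (y : ZBar),
      (y : ℂ) = δ (p : ZMod (N * ℓ)) →
      φ (a (p * n)) + p * φ y * (if p ∣ n then φ (a (n / p)) else 0) = φ (a p) * φ (a n) := by
    intro p hp hpM n y hy
    rw [hδp p hp hpM y hy, haφ, haφ, haφ, haφ]
    exact eigen_recursion_mod hg φ bZ (fun _ => rfl) εZ (fun _ => rfl) hp
      (fun h => hpM (dvd_mul_of_dvd_left h ℓ)) n
  obtain ⟨v, hv0, hvmem, hvT, hvD⟩ := exists_periodClass hfneb hℓ φ hφℓ a ha ha1 hrec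
  -- the eigenspace
  let δZ : ZMod (N * ℓ) → ZBar := fun x => ⟨δ x, isIntegral_character δ x⟩
  let c : GoodOp (N * ℓ) → k := fun i =>
    i.elim (fun p => φ (a p.1)) (fun u => φ (δZ (u : ZMod (N * ℓ))))
  obtain ⟨E, R, hEne, hkill, hES⟩ := exists_eigenRep (ℓ := ℓ) hv0 hvmem c fun i => by
    rcases i with p | u
    · have := Fact.mk p.2.1
      exact hvT p.1 p.2.2
    · exact hvD u (δZ (u : ZMod (N * ℓ))) rfl
  let χ : GQ →* k :=
    ((φ.toMonoidHom.comp εZ).comp (Units.coeHom (ZMod N))).comp (cyclotomicHom N)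
  -- the relation at Frobenius elements
  have hFrob : ∀ p : ℕ, p.Prime → ¬ p ∣ N → p ≠ ℓ → ∀ A : ValuationSubring QBar,
      A.LiesOverPrime p → ∀ σ : GQ, A.IsFrobeniusAt σ p →
        R σ + χ σ • R σ⁻¹ = φ (bZ p) • 1 ∧ χ σ = φ (εZ (p : ZMod N)) := by
    intro p hp hpN hpℓ A hA σ hσ
    have := Fact.mk hp
    have hpM : ¬ p ∣ N * ℓ := fun h => (hp.dvd_mul.1 h).elim hpN
      fun h => hpℓ ((Nat.prime_dvd_prime_iff_eq hp hℓ).1 h)
    have hχ : χ σ = φ (εZ (p : ZMod N)) := by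
      show φ (εZ (cyclotomicHom N σ : ZMod N)) = _
      rw [show (cyclotomicHom N σ : ZMod N) = (p : ZMod N) from
        cyclotomicHom_frobenius hA hp hσ hpN]
    refine ⟨add_smul_inv_eq R σ fun x => ?_, hχ⟩
    have hD : χ σ = (p : k) * c (.inr (Curve.unitP hpM)) := by
      rw [hχ]
      refine (hδp p hp hpM _ ?_).symm
      show δ _ = δ _
      rw [Curve.coe_unitP]
    rw [hD, ← show c (.inl ⟨p, hp, hpM⟩) = φ (bZ p) from haφ p]
    exact hES p hpM hpℓ A hA σ hσ x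
  -- every element is a Frobenius element
  obtain ⟨L₁, hL₁f, hL₁⟩ := Curve.galV_finite_level (N * ℓ) ℓ
  obtain ⟨L₂, hL₂f, hL₂⟩ := cyclotomicHom_factors N
  have hχkill : ∀ σ, cyclotomicHom N σ = 1 → χ σ = 1 := by
    intro σ h
    show φ (εZ (cyclotomicHom N σ : ZMod N)) = 1
    rw [h, Units.val_one, map_one, map_one]
  have hL : ∀ σ : GQ, (∀ x ∈ L₁ ⊔ L₂, σ x = x) → R.prod χ σ = 1 := fun σ hσ => by
    rw [MonoidHom.prod_apply, hkill σ (hL₁ σ fun x hx => hσ x ((le_sup_left : L₁ ≤ L₁ ⊔ L₂) hx)),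
      hχkill σ (hL₂ σ fun x hx => hσ x ((le_sup_right : L₂ ≤ L₁ ⊔ L₂) hx))]
    rfl
  have hscal : ∀ τ, ∃ t : k, R τ + χ τ • R τ⁻¹ = t • 1 :=
    exists_scalar_of_frobenius R χ (L₁ ⊔ L₂) hL (insert ℓ N.primeFactors)
      fun p hp hpS A hA σ hσ => ⟨φ (bZ p), (hFrob p hp
        (fun h => hpS (Finset.mem_insert_of_mem (Nat.mem_primeFactors.2 ⟨hp, h, NeZero.ne N⟩)))
        (fun h => hpS (h ▸ Finset.mem_insert_self _ _)) A hA σ hσ).1⟩
  obtain ⟨ρ, hshape, hρkill, hρ⟩ := exists_two_dim_rep h2 R χ hscal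
  refine ⟨{ k := k, φ := φ, map_eq_zero := hφℓ, ρ := ρ, shape := hshape, finite_level := ?_,
            inertia := ?_, frobenius := ?_ }⟩
  · refine ⟨L₁ ⊔ L₂, inferInstance, fun σ hσ => ?_⟩
    have h := hL σ hσ
    rw [MonoidHom.prod_apply, Prod.mk_eq_one] at h
    exact hρkill σ h.1 h.2
  · intro p hp hpN hpℓ A hA σ hσ
    have hpM : ¬ p ∣ N * ℓ := fun h => (hp.dvd_mul.1 h).elim hpN
      fun h => hpℓ ((Nat.prime_dvd_prime_iff_eq hp hℓ).1 h)
    exact hρkill σ (hkill σ (Curve.galV_inertia hℓ hp hpM hpℓ hA hσ))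
      (hχkill σ (cyclotomicHom_inertia hA hp hσ hpN))
  · intro p hp hpN hpℓ A hA σ hσ x y hx hy
    obtain ⟨hrel, hχ⟩ := hFrob p hp hpN hpℓ A hA σ hσ
    obtain ⟨ht, hd⟩ := hρ σ _ hrel
    rw [show x = bZ p from Subtype.ext hx,
      show y = εZ (p : ZMod N) from Subtype.ext hy]
    exact ⟨ht, hd.trans hχ⟩

/-- A depleted weight one eigenform has residual representations at almost all primes. -/
theorem hasResidualReps {N : ℕ} [NeZero N] {ε : DirichletCharacter ℂ N}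
    {g : CuspForm (Gamma1 N) 1} (hg : IsDepleted ε (qCoeff g)) :
    HasResidualReps ε (qCoeff g) :=
  ⟨Finset.range 6, fun ℓ hℓ hℓS => exists_resRep hg hℓ (by
    rw [Finset.mem_range] at hℓS; omega)⟩

end Fermat.Agent.DeligneSerre
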